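/-
helper26: P-IGUSA subtask IG-D2d. `dedekindPsi` is multiplicative along prime steps.
-/
import Mathlib.NumberTheory.Divisors
import Mathlib.Algebra.Squarefree.Basic
import Mathlib.Data.Nat.Squarefree
import Fermat.Prelude.Def_ModularCurve_X0

set_option autoImplicit false

namespace Fermat.Agent.H26

open ModularCurve

/-- squarefree divisors of `n * p` when `p ∣ n`. -/
theorem sqfree_divisors_mul_prime_of_dvd (n p : ℕ) (hn : 0 < n) (hp : p.Prime) (h : p ∣ n) :
    (n * p).divisors.filter Squarefree = n.divisors.filter Squarefree := by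
  ext d
  simp only [Finset.mem_filter, Nat.mem_divisors]
  constructor
  · rintro ⟨⟨hd, -⟩, hsq⟩
    refine ⟨⟨?_, hn.ne'⟩, hsq⟩
    by_cases hpd : p ∣ d
    · obtain ⟨d', rfl⟩ := hpd
      have hcop : Nat.Coprime d' p := by
        rw [Nat.coprime_comm, hp.coprime_iff_not_dvd]
        intro hpd'
        have : p * p ∣ p * d' := Nat.mul_dvd_mul_left p hpd'
        exact hp.not_isUnit (hsq p this)
      have hd'n : d' ∣ n := by
        have : p * d' ∣ p * n := by rwa [mul_comm p n]
        exact (Nat.mul_dvd_mul_iff_left hp.pos).mp this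
      have := Nat.Coprime.mul_dvd_of_dvd_of_dvd hcop.symm h hd'n
      exact this
    · have hcop : Nat.Coprime d p := by
        rw [Nat.coprime_comm, hp.coprime_iff_not_dvd]; exact hpd
      exact hcop.dvd_of_dvd_mul_right hd
  · rintro ⟨⟨hd, -⟩, hsq⟩
    exact ⟨⟨Dvd.dvd.mul_right hd p, (Nat.mul_pos hn hp.pos).ne'⟩, hsq⟩

theorem dedekindPsi_mul_prime_of_dvd (n p : ℕ) (hn : 0 < n) (hp : p.Prime) (h : p ∣ n) :
    dedekindPsi (n * p) = dedekindPsi n * p := by
  unfold dedekindPsi
  rw [sqfree_divisors_mul_prime_of_dvd n p hn hp h, Finset.sum_mul]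
  refine Finset.sum_congr rfl fun d hd => ?_
  simp only [Finset.mem_filter, Nat.mem_divisors] at hd
  obtain ⟨k, hk⟩ := hd.1.1
  have hd0 : 0 < d := Nat.pos_of_ne_zero (by rintro rfl; simp at hk; exact hn.ne' hk)
  rw [hk, mul_assoc, Nat.mul_div_cancel_left _ hd0, Nat.mul_div_cancel_left _ hd0]

theorem dedekindPsi_mul_prime_of_not_dvd (n p : ℕ) (hn : 0 < n) (hp : p.Prime) (h : ¬ p ∣ n) :
    dedekindPsi (n * p) = dedekindPsi n * (p + 1) := by
  unfold dedekindPsi
  have hset : (n * p).divisors.filter Squarefree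
      = (n.divisors.filter Squarefree) ∪ (n.divisors.filter Squarefree).image (· * p) := by
    ext d
    simp only [Finset.mem_filter, Nat.mem_divisors, Finset.mem_union, Finset.mem_image]
    constructor
    · rintro ⟨⟨hd, -⟩, hsq⟩
      by_cases hpd : p ∣ d
      · right
        obtain ⟨d', rfl⟩ := hpd
        refine ⟨d', ⟨⟨?_, hn.ne'⟩, ?_⟩, mul_comm _ _⟩
        · have : p * d' ∣ p * n := by rwa [mul_comm p n]
          exact (Nat.mul_dvd_mul_iff_left hp.pos).mp this
        · exact Squarefree.of_mul_right hsq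
      · left
        have hcop : Nat.Coprime d p := by
          rw [Nat.coprime_comm, hp.coprime_iff_not_dvd]; exact hpd
        exact ⟨⟨hcop.dvd_of_dvd_mul_right hd, hn.ne'⟩, hsq⟩
    · rintro (⟨⟨hd, -⟩, hsq⟩ | ⟨d', ⟨⟨hd', -⟩, hsq'⟩, rfl⟩)
      · exact ⟨⟨Dvd.dvd.mul_right hd p, (Nat.mul_pos hn hp.pos).ne'⟩, hsq⟩
      · refine ⟨⟨Nat.mul_dvd_mul_right hd' p, (Nat.mul_pos hn hp.pos).ne'⟩, ?_⟩
        have hcop : Nat.Coprime d' p := by
          rw [Nat.coprime_comm, hp.coprime_iff_not_dvd]
          exact fun hpd' => h (hpd'.trans hd')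
        exact (Nat.squarefree_mul hcop).mpr ⟨hsq', hp.squarefree⟩
  have hdisj : Disjoint (n.divisors.filter Squarefree)
      ((n.divisors.filter Squarefree).image (· * p)) := by
    rw [Finset.disjoint_left]
    intro d hd hd'
    simp only [Finset.mem_filter, Nat.mem_divisors, Finset.mem_image] at hd hd'
    obtain ⟨d', -, rfl⟩ := hd'
    exact h ((Dvd.intro_left d' rfl).trans hd.1.1)
  have hinj : Set.InjOn (· * p) (n.divisors.filter Squarefree : Set ℕ) := by
    intro a _ b _ hab
    exact Nat.eq_of_mul_eq_mul_right hp.pos hab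
  rw [hset, Finset.sum_union hdisj, Finset.sum_image hinj, mul_add, mul_one, Finset.sum_mul]
  have h1 : ∀ d ∈ n.divisors.filter Squarefree, n * p / d = n / d * p := by
    intro d hd
    simp only [Finset.mem_filter, Nat.mem_divisors] at hd
    obtain ⟨k, hk⟩ := hd.1.1
    have hd0 : 0 < d := Nat.pos_of_ne_zero (by rintro rfl; simp at hk; exact hn.ne' hk)
    rw [hk, mul_assoc, Nat.mul_div_cancel_left _ hd0, Nat.mul_div_cancel_left _ hd0]
  have h2 : ∀ d ∈ n.divisors.filter Squarefree, n * p / (d * p) = n / d := by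
    intro d _
    exact Nat.mul_div_mul_right n d hp.pos
  rw [Finset.sum_congr rfl h1, Finset.sum_congr rfl h2]

end Fermat.Agent.H26
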