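/-
helper26: the kernel of reduction of a Weierstrass curve over a valued field
is a subgroup without `m`-torsion for `m` a unit of the valuation ring (S05, package F1).

Everything is stated for an arbitrary valuation `v : Valuation K Γ₀` on a field `K`
and a Weierstrass curve `W` over `K` whose coefficients are `v`-integral.  No discreteness,
no completeness, no nonsingularity of the reduction is assumed.
-/
import Mathlib.AlgebraicGeometry.EllipticCurve.Affine.Point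
import Mathlib.RingTheory.Valuation.ValuationSubring

set_option autoImplicit false

namespace Fermat.Agent.H26

open WeierstrassCurve WeierstrassCurve.Affine

section Algebra

variable {K : Type*} [Field K] (W : WeierstrassCurve.Affine K)

/-- The Weierstrass equation in the coordinates `z = -x/y`, `w = -1/y` around the origin. -/
def ZWEq (z w : K) : Prop :=
  w = z ^ 3 + W.a₁ * z * w + W.a₂ * z ^ 2 * w + W.a₃ * w ^ 2 + W.a₄ * z * w ^ 2 + W.a₆ * w ^ 3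

theorem zwEq_of_equation {x y : K} (h : W.Equation x y) (hy : y ≠ 0) :
    ZWEq W (-x / y) (-1 / y) := by
  rw [equation_iff] at h
  unfold ZWEq
  field_simp
  linear_combination -h

/-- Denominator of the slope of a chord in the `(z, w)`-plane. -/
def slopeD (z₁ w₁ w₂ : K) : K :=
  1 - W.a₁ * z₁ - W.a₂ * z₁ ^ 2 - W.a₃ * (w₁ + w₂) - W.a₄ * z₁ * (w₁ + w₂)
    - W.a₆ * (w₁ ^ 2 + w₁ * w₂ + w₂ ^ 2)

/-- Numerator of the slope of a chord in the `(z, w)`-plane. -/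
def slopeN (z₁ z₂ w₂ : K) : K :=
  z₁ ^ 2 + z₁ * z₂ + z₂ ^ 2 + W.a₁ * w₂ + W.a₂ * (z₁ + z₂) * w₂ + W.a₄ * w₂ ^ 2

theorem slope_identity {z₁ w₁ z₂ w₂ : K} (h₁ : ZWEq W z₁ w₁) (h₂ : ZWEq W z₂ w₂) :
    (w₂ - w₁) * slopeD W z₁ w₁ w₂ = (z₂ - z₁) * slopeN W z₁ z₂ w₂ := by
  unfold ZWEq at h₁ h₂
  unfold slopeD slopeN
  linear_combination h₂ - h₁

/-- Three abscissae of the intersection of the curve with the line `y = ℓ x + n`
(Vieta relations). -/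
structure LineTriple (ℓ n x₁ x₂ x₃ : K) : Prop where
  e1 : x₁ + x₂ + x₃ = ℓ ^ 2 + W.a₁ * ℓ - W.a₂
  e2 : x₁ * x₂ + x₁ * x₃ + x₂ * x₃ = -(2 * ℓ * n + W.a₁ * n + W.a₃ * ℓ - W.a₄)
  e3 : x₁ * x₂ * x₃ = n ^ 2 + W.a₃ * n - W.a₆

theorem lineTriple_of_slope [DecidableEq K] {x₁ x₂ y₁ y₂ : K} (h₁ : W.Equation x₁ y₁)
    (h₂ : W.Equation x₂ y₂) (hxy : ¬(x₁ = x₂ ∧ y₁ = W.negY x₂ y₂)) :
    LineTriple W (W.slope x₁ x₂ y₁ y₂) (y₁ - W.slope x₁ x₂ y₁ y₂ * x₁) x₁ x₂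
      (W.addX x₁ x₂ (W.slope x₁ x₂ y₁ y₂)) := by
  have h := addPolynomial_slope h₁ h₂ hxy
  rw [addPolynomial_eq, neg_inj, Cubic.prod_X_sub_C_eq, Cubic.toPoly_injective] at h
  simp only [Cubic.mk.injEq] at h
  obtain ⟨-, -, hc, hd⟩ := h
  refine ⟨?_, ?_, ?_⟩
  · simp only [addX]; ring
  · linear_combination -hc
  · linear_combination hd

variable {W}

theorem LineTriple.prod_eq {ℓ n x₁ x₂ x₃ : K} (h : LineTriple W ℓ n x₁ x₂ x₃) :
    (ℓ * x₁ + n) * (ℓ * x₂ + n) * (ℓ * x₃ + n)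
      = n ^ 3 - W.a₂ * ℓ * n ^ 2 + W.a₄ * ℓ ^ 2 * n - W.a₆ * ℓ ^ 3 := by
  linear_combination (ℓ * n ^ 2) * h.e1 + (ℓ ^ 2 * n) * h.e2 + ℓ ^ 3 * h.e3

theorem LineTriple.sum_eq {ℓ n x₁ x₂ x₃ : K} (h : LineTriple W ℓ n x₁ x₂ x₃) :
    x₁ * (ℓ * x₂ + n) * (ℓ * x₃ + n) + x₂ * (ℓ * x₁ + n) * (ℓ * x₃ + n)
        + x₃ * (ℓ * x₁ + n) * (ℓ * x₂ + n)
      = -W.a₁ * ℓ * n ^ 2 - W.a₂ * n ^ 2 + W.a₃ * ℓ ^ 2 * n + 2 * W.a₄ * ℓ * n
          - 3 * W.a₆ * ℓ ^ 2 := by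
  linear_combination (n ^ 2) * h.e1 + (2 * ℓ * n) * h.e2 + (3 * ℓ ^ 2) * h.e3

/-- The leading coefficient of the cubic obtained by restricting the `(z,w)`-equation to the
line `w = lam * z + nu`. -/
def cThree (W : WeierstrassCurve.Affine K) (lam : K) : K :=
  1 + W.a₂ * lam + W.a₄ * lam ^ 2 + W.a₆ * lam ^ 3

/-- The coefficient of `z ^ 2` of the cubic obtained by restricting the `(z,w)`-equation to the
line `w = lam * z + nu`. -/
def cTwo (W : WeierstrassCurve.Affine K) (lam nu : K) : K :=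
  W.a₁ * lam + W.a₂ * nu + W.a₃ * lam ^ 2 + (W.a₄ * lam * nu + W.a₄ * lam * nu)
    + (W.a₆ * lam ^ 2 * nu + W.a₆ * lam ^ 2 * nu + W.a₆ * lam ^ 2 * nu)

/-- The product of the three ordinates of a line triple. -/
theorem LineTriple.prod_eq' {ℓ n x₁ x₂ x₃ : K} (h : LineTriple W ℓ n x₁ x₂ x₃) (hn : n ≠ 0) :
    (ℓ * x₁ + n) * (ℓ * x₂ + n) * (ℓ * x₃ + n) = n ^ 3 * cThree W (-ℓ / n) := by
  rw [h.prod_eq]
  unfold cThree
  field_simp
  ring

theorem LineTriple.sum_eq' {ℓ n x₁ x₂ x₃ : K} (h : LineTriple W ℓ n x₁ x₂ x₃) (hn : n ≠ 0) :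
    x₁ * (ℓ * x₂ + n) * (ℓ * x₃ + n) + x₂ * (ℓ * x₁ + n) * (ℓ * x₃ + n)
        + x₃ * (ℓ * x₁ + n) * (ℓ * x₂ + n) = n ^ 3 * cTwo W (-ℓ / n) (-1 / n) := by
  rw [h.sum_eq]
  unfold cTwo
  field_simp
  ring

/-- Sum of the `z`-coordinates of three collinear points. -/
theorem LineTriple.zsum {ℓ n x₁ x₂ x₃ y₁ y₂ y₃ : K} (h : LineTriple W ℓ n x₁ x₂ x₃) (hn : n ≠ 0)
    (e1 : y₁ = ℓ * x₁ + n) (e2 : y₂ = ℓ * x₂ + n) (e3 : y₃ = ℓ * x₃ + n)
    (h1 : y₁ ≠ 0) (h2 : y₂ ≠ 0) (h3 : y₃ ≠ 0) :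
    cThree W (-ℓ / n) * (-x₁ / y₁ + -x₂ / y₂ + -x₃ / y₃) = -cTwo W (-ℓ / n) (-1 / n) := by
  have hPr := h.prod_eq' hn
  have hS := h.sum_eq' hn
  rw [← e1, ← e2, ← e3] at hPr hS
  have hn3 : n ^ 3 ≠ 0 := pow_ne_zero 3 hn
  have hP0 : y₁ * y₂ * y₃ ≠ 0 := mul_ne_zero (mul_ne_zero h1 h2) h3
  have hz : (-x₁ / y₁ + -x₂ / y₂ + -x₃ / y₃) * (y₁ * y₂ * y₃)
      = -(x₁ * y₂ * y₃ + x₂ * y₁ * y₃ + x₃ * y₁ * y₂) := by
    field_simp
    ring
  apply mul_left_cancel₀ hn3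
  apply mul_right_cancel₀ hP0
  calc n ^ 3 * (cThree W (-ℓ / n) * (-x₁ / y₁ + -x₂ / y₂ + -x₃ / y₃)) * (y₁ * y₂ * y₃)
      = (n ^ 3 * cThree W (-ℓ / n)) * ((-x₁ / y₁ + -x₂ / y₂ + -x₃ / y₃) * (y₁ * y₂ * y₃)) := by
        ring
    _ = (y₁ * y₂ * y₃) * -(n ^ 3 * cTwo W (-ℓ / n) (-1 / n)) := by
        rw [hz, ← hPr, hS]
    _ = n ^ 3 * -cTwo W (-ℓ / n) (-1 / n) * (y₁ * y₂ * y₃) := by
        ring

/-- A point of the line `y = ℓ x + n` in `(z,w)`-coordinates. -/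
theorem w_eq_of_line {ℓ n x y : K} (hn : n ≠ 0) (hy : y ≠ 0) (hl : y = ℓ * x + n) :
    -1 / y = (-ℓ / n) * (-x / y) + -1 / n := by
  field_simp
  rw [hl]; ring

/-- The slope of the chord/tangent, expressed in the `(z,w)`-plane. -/
theorem slope_zw [DecidableEq K] {x₁ y₁ x₂ y₂ ℓ n : K} (h₁ : W.Equation x₁ y₁)
    (h₂ : W.Equation x₂ y₂) (hy₁ : y₁ ≠ 0) (hy₂ : y₂ ≠ 0)
    (hxy : ¬(x₁ = x₂ ∧ y₁ = W.negY x₂ y₂))
    (hD : slopeD W (-x₁ / y₁) (-1 / y₁) (-1 / y₂) ≠ 0)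
    (hℓ : ℓ = W.slope x₁ x₂ y₁ y₂) (hn : n = y₁ - ℓ * x₁) :
    y₂ = ℓ * x₂ + n ∧ n ≠ 0 ∧
      (-ℓ / n) * slopeD W (-x₁ / y₁) (-1 / y₁) (-1 / y₂)
        = slopeN W (-x₁ / y₁) (-x₂ / y₂) (-1 / y₂) := by
  by_cases hx : x₁ = x₂
  · -- tangent case
    have hy : y₁ ≠ W.negY x₂ y₂ := fun h => hxy ⟨hx, h⟩
    have hyy : y₁ = y₂ := Y_eq_of_Y_ne h₁ h₂ hx hy
    subst hx hyy
    have hq : y₁ - W.negY x₁ y₁ ≠ 0 := sub_ne_zero.mpr hy
    rw [slope_of_Y_ne rfl hy] at hℓ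
    have hp : ℓ * (y₁ - W.negY x₁ y₁)
        = 3 * x₁ ^ 2 + 2 * W.a₂ * x₁ + W.a₄ - W.a₁ * y₁ := by
      rw [hℓ, div_mul_cancel₀ _ hq]
    have h₁' := (equation_iff ..).mp h₁
    have hnq : n * (y₁ - W.negY x₁ y₁)
        = -(y₁ ^ 2 * slopeD W (-x₁ / y₁) (-1 / y₁) (-1 / y₁)) := by
      have e1 : n * (y₁ - W.negY x₁ y₁)
          = y₁ * (y₁ - W.negY x₁ y₁) - (ℓ * (y₁ - W.negY x₁ y₁)) * x₁ := by
        rw [hn]; ring
      rw [e1, hp]
      unfold slopeD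
      simp only [negY]
      field_simp
      linear_combination 3 * h₁'
    have hn0 : n ≠ 0 := by
      intro h0
      rw [h0, zero_mul] at hnq
      exact (neg_ne_zero.mpr (mul_ne_zero (pow_ne_zero 2 hy₁) hD)) hnq.symm
    have hN : y₁ ^ 2 * slopeN W (-x₁ / y₁) (-x₁ / y₁) (-1 / y₁)
        = 3 * x₁ ^ 2 + 2 * W.a₂ * x₁ + W.a₄ - W.a₁ * y₁ := by
      unfold slopeN
      field_simp
      ring
    refine ⟨by rw [hn]; ring, hn0, ?_⟩
    rw [div_mul_eq_mul_div, div_eq_iff hn0]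
    apply mul_right_cancel₀ hq
    calc -ℓ * slopeD W (-x₁ / y₁) (-1 / y₁) (-1 / y₁) * (y₁ - W.negY x₁ y₁)
        = -(ℓ * (y₁ - W.negY x₁ y₁)) * slopeD W (-x₁ / y₁) (-1 / y₁) (-1 / y₁) := by ring
      _ = -(y₁ ^ 2 * slopeN W (-x₁ / y₁) (-x₁ / y₁) (-1 / y₁))
            * slopeD W (-x₁ / y₁) (-1 / y₁) (-1 / y₁) := by rw [hp, hN]
      _ = slopeN W (-x₁ / y₁) (-x₁ / y₁) (-1 / y₁)
            * -(y₁ ^ 2 * slopeD W (-x₁ / y₁) (-1 / y₁) (-1 / y₁)) := by ring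
      _ = slopeN W (-x₁ / y₁) (-x₁ / y₁) (-1 / y₁) * n * (y₁ - W.negY x₁ y₁) := by
          rw [← hnq]; ring
  · -- chord case
    have hx' : x₁ - x₂ ≠ 0 := sub_ne_zero.mpr hx
    rw [slope_of_X_ne hx] at hℓ
    have hl₂ : y₂ = ℓ * x₂ + n := by
      rw [hn, hℓ]
      field_simp
      ring
    have E₁ := zwEq_of_equation W h₁ hy₁
    have E₂ := zwEq_of_equation W h₂ hy₂
    have hsl := slope_identity W E₁ E₂
    have hz : -x₂ / y₂ - -x₁ / y₁ ≠ 0 := by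
      intro hz0
      rw [hz0, zero_mul] at hsl
      have hw : -1 / y₂ - -1 / y₁ = 0 := (mul_eq_zero.mp hsl).resolve_right hD
      have hyy : y₁ = y₂ := by
        field_simp at hw
        linear_combination -hw
      subst hyy
      apply hx
      field_simp at hz0
      linear_combination hz0
    have hnx : n * (x₁ - x₂) = (-x₂ / y₂ - -x₁ / y₁) * (y₁ * y₂) := by
      rw [hn, hℓ]
      field_simp
      ring
    have hn0 : n ≠ 0 := by
      intro h0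
      rw [h0, zero_mul] at hnx
      exact (mul_ne_zero hz (mul_ne_zero hy₁ hy₂)) hnx.symm
    have hw₁ := w_eq_of_line hn0 hy₁ (show y₁ = ℓ * x₁ + n by rw [hn]; ring)
    have hw₂ := w_eq_of_line hn0 hy₂ hl₂
    refine ⟨hl₂, hn0, ?_⟩
    apply mul_left_cancel₀ hz
    rw [← hsl, hw₁, hw₂]
    ring

end Algebra

section Val

variable {K : Type*} [Field K] {Γ₀ : Type*} [LinearOrderedCommGroupWithZero Γ₀]
  (v : Valuation K Γ₀) (W : WeierstrassCurve.Affine K)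

/-- Integrality of the coefficients of a Weierstrass curve with respect to a valuation. -/
structure IsIntegralAt : Prop where
  a₁ : v W.a₁ ≤ 1
  a₂ : v W.a₂ ≤ 1
  a₃ : v W.a₃ ≤ 1
  a₄ : v W.a₄ ≤ 1
  a₆ : v W.a₆ ≤ 1

variable {v W}

theorem vmul_le {a b : K} {g h : Γ₀} (ha : v a ≤ g) (hb : v b ≤ h) : v (a * b) ≤ g * h := by
  rw [map_mul]; exact mul_le_mul' ha hb

theorem vmul_le_of_le_one {a b : K} {g : Γ₀} (ha : v a ≤ 1) (hb : v b ≤ g) : v (a * b) ≤ g := by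
  simpa using vmul_le ha hb

theorem vpow_le {a : K} {g : Γ₀} (ha : v a ≤ g) (n : ℕ) : v (a ^ n) ≤ g ^ n := by
  rw [map_pow]; exact pow_le_pow_left' ha n

theorem pow_le_of_lt_one {g : Γ₀} (hg : g < 1) {m n : ℕ} (h : m ≤ n) : g ^ n ≤ g ^ m :=
  pow_le_pow_right_of_le_one' hg.le h

theorem pow_lt_one_of_lt_one {g : Γ₀} (hg : g < 1) {n : ℕ} (hn : n ≠ 0) : g ^ n < 1 :=
  pow_lt_one' hg hn

theorem val_x_lt_val_y (hW : IsIntegralAt v W) {x y : K} (h : W.Equation x y) (hx : 1 < v x) :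
    v x < v y := by
  by_contra hcon
  have hcon : v y ≤ v x := not_lt.mp hcon
  rw [equation_iff] at h
  have hx3 : x ^ 3 = y ^ 2 + W.a₁ * x * y + W.a₃ * y - W.a₂ * x ^ 2 - W.a₄ * x - W.a₆ := by
    linear_combination -h
  have h1 : (1 : Γ₀) ≤ v x := hx.le
  have hx2 : v x ≤ v x ^ 2 := by
    calc v x = v x * 1 := (mul_one _).symm
      _ ≤ v x * v x := mul_le_mul' le_rfl h1
      _ = v x ^ 2 := (sq _).symm
  have h12 : (1 : Γ₀) ≤ v x ^ 2 := h1.trans hx2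
  have hle : v (x ^ 3) ≤ v x ^ 2 := by
    rw [hx3]
    refine v.map_sub_le (v.map_sub_le (v.map_sub_le (v.map_add_le (v.map_add_le ?_ ?_) ?_) ?_) ?_) ?_
    · exact vpow_le hcon 2
    · rw [mul_assoc, sq]
      exact vmul_le_of_le_one hW.a₁ (vmul_le le_rfl hcon)
    · exact (vmul_le_of_le_one hW.a₃ hcon).trans hx2
    · exact vmul_le_of_le_one hW.a₂ (vpow_le le_rfl 2)
    · exact (vmul_le_of_le_one hW.a₄ le_rfl).trans hx2
    · exact hW.a₆.trans h12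
  rw [map_pow] at hle
  have ha0 : v x ≠ 0 := by
    intro h0
    rw [h0] at hx
    simp at hx
  have : v x ^ 2 * v x ≤ v x ^ 2 * 1 := by simpa [pow_succ] using hle
  have := le_of_mul_le_mul_left this (pow_pos (zero_lt_iff.mpr ha0) 2)
  exact absurd hx (not_lt.mpr this)

/-- For a solution `(z, w)` of the `(z,w)`-equation with `z, w` in the maximal ideal,
`w` is `z ^ 3` times a unit. -/
theorem val_w_eq (hW : IsIntegralAt v W) {z w : K} (h : ZWEq W z w) (hz : v z < 1) (hw : v w < 1) :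
    v w = v z ^ 3 := by
  have hU : w * (1 - (W.a₁ * z + W.a₂ * z ^ 2 + W.a₃ * w + W.a₄ * z * w + W.a₆ * w ^ 2))
      = z ^ 3 := by
    unfold ZWEq at h
    linear_combination h
  have hsmall : v (W.a₁ * z + W.a₂ * z ^ 2 + W.a₃ * w + W.a₄ * z * w + W.a₆ * w ^ 2) < 1 := by
    have hz2 : v (z ^ 2) < 1 := by rw [map_pow]; exact pow_lt_one_of_lt_one hz two_ne_zero
    have hw2 : v (w ^ 2) < 1 := by rw [map_pow]; exact pow_lt_one_of_lt_one hw two_ne_zero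
    have key : ∀ {a t : K}, v a ≤ 1 → v t < 1 → v (a * t) < 1 := by
      intro a t ha ht
      rw [map_mul]
      calc v a * v t ≤ 1 * v t := mul_le_mul' ha le_rfl
        _ = v t := one_mul _
        _ < 1 := ht
    have hzw : v (z * w) < 1 := key hz.le hw
    refine v.map_add_lt (v.map_add_lt (v.map_add_lt (v.map_add_lt ?_ ?_) ?_) ?_) ?_
    · exact key hW.a₁ hz
    · exact key hW.a₂ hz2
    · exact key hW.a₃ hw
    · rw [mul_assoc]; exact key hW.a₄ hzw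
    · exact key hW.a₆ hw2
  have hone := v.map_one_sub_of_lt hsmall
  have := congrArg v hU
  rw [map_mul, hone, mul_one, map_pow] at this
  exact this

/-- Basic facts on a point `(x, y)` of the kernel of reduction. -/
theorem ker_facts (hW : IsIntegralAt v W) {x y : K} (h : W.Equation x y) (hx : 1 < v x) :
    y ≠ 0 ∧ v (-x / y) < 1 ∧ v (-1 / y) < 1 ∧ v (-1 / y) = v (-x / y) ^ 3 ∧ v (-x / y) ≠ 0 := by
  have hxy := val_x_lt_val_y hW h hx
  have hy1 : 1 < v y := hx.trans hxy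
  have hvy0 : v y ≠ 0 := (zero_lt_one.trans hy1).ne'
  have hvx0 : v x ≠ 0 := (zero_lt_one.trans hx).ne'
  have hy : y ≠ 0 := by
    rintro rfl
    simp at hvy0
  have hz : v (-x / y) < 1 := by
    rw [map_div₀, Valuation.map_neg]
    exact (div_lt_one₀ (zero_lt_iff.mpr hvy0)).mpr hxy
  have hw : v (-1 / y) < 1 := by
    rw [map_div₀, Valuation.map_neg, map_one]
    exact (div_lt_one₀ (zero_lt_iff.mpr hvy0)).mpr hy1
  refine ⟨hy, hz, hw, val_w_eq hW (zwEq_of_equation W h hy) hz hw, ?_⟩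
  rw [map_div₀, Valuation.map_neg]
  exact div_ne_zero hvx0 hvy0

theorem vle_mono {a : K} {γ : Γ₀} (hγ : γ < 1) {m n : ℕ} (h : n ≤ m) (ha : v a ≤ γ ^ m) :
    v a ≤ γ ^ n :=
  ha.trans (pow_le_of_lt_one hγ h)

theorem vmul_pow_le {a b : K} {γ : Γ₀} {m n : ℕ} (ha : v a ≤ γ ^ m) (hb : v b ≤ γ ^ n) :
    v (a * b) ≤ γ ^ (m + n) := by
  rw [pow_add]; exact vmul_le ha hb

theorem val_slopeD (hW : IsIntegralAt v W) {γ : Γ₀} (hγ : γ < 1) {z₁ w₁ w₂ : K}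
    (hz₁ : v z₁ ≤ γ) (hw₁ : v w₁ ≤ γ) (hw₂ : v w₂ ≤ γ) :
    v (slopeD W z₁ w₁ w₂) = 1 := by
  have hγ1 : γ ≤ 1 := hγ.le
  have e : slopeD W z₁ w₁ w₂ = 1 - (W.a₁ * z₁ + W.a₂ * z₁ ^ 2 + W.a₃ * (w₁ + w₂)
      + W.a₄ * z₁ * (w₁ + w₂) + W.a₆ * (w₁ ^ 2 + w₁ * w₂ + w₂ ^ 2)) := by
    unfold slopeD; ring
  rw [e]
  apply v.map_one_sub_of_lt
  refine lt_of_le_of_lt ?_ hγ
  have hww : v (w₁ + w₂) ≤ γ := v.map_add_le hw₁ hw₂
  have hmul : ∀ {s t : K}, v s ≤ γ → v t ≤ γ → v (s * t) ≤ γ := fun {s t} hs ht => by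
    calc v (s * t) ≤ γ * γ := vmul_le hs ht
      _ ≤ γ * 1 := mul_le_mul' le_rfl hγ1
      _ = γ := mul_one _
  have hsq : ∀ {t : K}, v t ≤ γ → v (t ^ 2) ≤ γ := fun {t} ht => by
    rw [sq]; exact hmul ht ht
  refine v.map_add_le (v.map_add_le (v.map_add_le (v.map_add_le ?_ ?_) ?_) ?_) ?_
  · exact vmul_le_of_le_one hW.a₁ hz₁
  · exact vmul_le_of_le_one hW.a₂ (hsq hz₁)
  · exact vmul_le_of_le_one hW.a₃ hww
  · rw [mul_assoc]
    exact vmul_le_of_le_one hW.a₄ (hmul hz₁ hww)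
  · exact vmul_le_of_le_one hW.a₆ (v.map_add_le (v.map_add_le (hsq hw₁) (hmul hw₁ hw₂)) (hsq hw₂))

theorem val_slopeN (hW : IsIntegralAt v W) {γ : Γ₀} (hγ : γ < 1) {z₁ z₂ w₂ : K}
    (hz₁ : v z₁ ≤ γ) (hz₂ : v z₂ ≤ γ) (hw₂ : v w₂ ≤ γ ^ 3) :
    v (slopeN W z₁ z₂ w₂) ≤ γ ^ 2 := by
  have hz₁' : v z₁ ≤ γ ^ 1 := by simpa using hz₁
  have hz₂' : v z₂ ≤ γ ^ 1 := by simpa using hz₂
  have hw2 : v w₂ ≤ γ ^ 2 := vle_mono hγ (by norm_num) hw₂
  unfold slopeN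
  refine v.map_add_le (v.map_add_le (v.map_add_le (v.map_add_le (v.map_add_le ?_ ?_) ?_) ?_) ?_) ?_
  · exact vpow_le hz₁ 2
  · exact vmul_pow_le hz₁' hz₂'
  · exact vpow_le hz₂ 2
  · exact vmul_le_of_le_one hW.a₁ hw2
  · rw [mul_assoc]
    refine vmul_le_of_le_one hW.a₂ ?_
    exact vle_mono hγ (by norm_num) (vmul_pow_le (v.map_add_le hz₁' hz₂') hw₂)
  · refine vmul_le_of_le_one hW.a₄ ?_
    have := vpow_le hw₂ 2
    rw [← pow_mul] at this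
    exact vle_mono hγ (by norm_num) this

theorem val_cThree (hW : IsIntegralAt v W) {γ : Γ₀} (hγ : γ < 1) {lam : K} (hl : v lam ≤ γ) :
    v (cThree W lam) = 1 := by
  have e : cThree W lam = 1 - -(W.a₂ * lam + W.a₄ * lam ^ 2 + W.a₆ * lam ^ 3) := by
    unfold cThree; ring
  rw [e]
  apply v.map_one_sub_of_lt
  rw [Valuation.map_neg]
  refine lt_of_le_of_lt ?_ hγ
  have hp : ∀ n : ℕ, n ≠ 0 → v (lam ^ n) ≤ γ := fun n hn =>
    (vpow_le hl n).trans (by simpa using pow_le_of_lt_one hγ (Nat.one_le_iff_ne_zero.mpr hn))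
  refine v.map_add_le (v.map_add_le ?_ ?_) ?_
  · exact vmul_le_of_le_one hW.a₂ hl
  · exact vmul_le_of_le_one hW.a₄ (hp 2 (by norm_num))
  · exact vmul_le_of_le_one hW.a₆ (hp 3 (by norm_num))

theorem val_cTwo (hW : IsIntegralAt v W) {γ : Γ₀} (hγ : γ < 1) {lam nu : K}
    (hl : v lam ≤ γ ^ 2) (hnu : v nu ≤ γ ^ 3) :
    v (cTwo W lam nu) ≤ γ ^ 2 := by
  have hnu2 : v nu ≤ γ ^ 2 := vle_mono hγ (by norm_num) hnu
  have hl2 : v (lam ^ 2) ≤ γ ^ 2 := by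
    have := vpow_le hl 2
    rw [← pow_mul] at this
    exact vle_mono hγ (by norm_num) this
  have hln : v (lam * nu) ≤ γ ^ 2 := vle_mono hγ (by norm_num) (vmul_pow_le hl hnu)
  have hlln : v (lam ^ 2 * nu) ≤ γ ^ 2 := by
    have := vpow_le hl 2
    rw [← pow_mul] at this
    exact vle_mono hγ (by norm_num) (vmul_pow_le this hnu)
  unfold cTwo
  refine v.map_add_le (v.map_add_le (v.map_add_le (v.map_add_le ?_ ?_) ?_)
    (v.map_add_le ?_ ?_)) (v.map_add_le (v.map_add_le ?_ ?_) ?_)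
  · exact vmul_le_of_le_one hW.a₁ hl
  · exact vmul_le_of_le_one hW.a₂ hnu2
  · exact vmul_le_of_le_one hW.a₃ hl2
  · rw [mul_assoc]; exact vmul_le_of_le_one hW.a₄ hln
  · rw [mul_assoc]; exact vmul_le_of_le_one hW.a₄ hln
  · rw [mul_assoc]; exact vmul_le_of_le_one hW.a₆ hlln
  · rw [mul_assoc]; exact vmul_le_of_le_one hW.a₆ hlln
  · rw [mul_assoc]; exact vmul_le_of_le_one hW.a₆ hlln

/-- Negation in the kernel of reduction: `z(-P) ≡ -z(P)` modulo `z(P) * γ`. -/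
theorem neg_aux (hW : IsIntegralAt v W) {γ : Γ₀} (hγ : γ < 1) {x y : K}
    (h : W.Equation x y) (hx : 1 < v x) (hz : v (-x / y) ≤ γ) :
    W.negY x y ≠ 0 ∧ v (-x / W.negY x y) ≤ γ ∧ v (-x / W.negY x y + -x / y) ≤ γ ^ 2 := by
  obtain ⟨hy, hz1, hw1, hw3, -⟩ := ker_facts hW h hx
  have h' : W.Equation x (W.negY x y) := (equation_neg x y).mpr h
  obtain ⟨hy', -, -, -, -⟩ := ker_facts hW h' hx
  have hw : v (-1 / y) ≤ γ := by
    rw [hw3]
    exact (pow_le_pow_left' hz 3).trans (by simpa using pow_le_of_lt_one hγ (show 1 ≤ 3 by norm_num))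
  have hsmall : v (W.a₁ * (-x / y) + W.a₃ * (-1 / y)) ≤ γ :=
    v.map_add_le (vmul_le_of_le_one hW.a₁ hz) (vmul_le_of_le_one hW.a₃ hw)
  have hU : v (1 - (W.a₁ * (-x / y) + W.a₃ * (-1 / y))) = 1 :=
    v.map_one_sub_of_lt (lt_of_le_of_lt hsmall hγ)
  have key : -x / W.negY x y * (1 - (W.a₁ * (-x / y) + W.a₃ * (-1 / y))) = -(-x / y) := by
    have hd : W.a₁ * x + W.a₃ = -y - W.negY x y := by simp only [negY]; ring
    have e1 : 1 - (W.a₁ * (-x / y) + W.a₃ * (-1 / y)) = -W.negY x y / y := by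
      field_simp
      linear_combination hd
    rw [e1]
    field_simp
  have hval : v (-x / W.negY x y) = v (-x / y) := by
    have := congrArg v key
    rwa [map_mul, hU, mul_one, Valuation.map_neg] at this
  refine ⟨hy', hval.le.trans hz, ?_⟩
  have e : -x / W.negY x y + -x / y
      = -x / W.negY x y * (W.a₁ * (-x / y) + W.a₃ * (-1 / y)) := by
    linear_combination key
  rw [e, sq]
  exact vmul_le (hval.le.trans hz) hsmall

section
variable [DecidableEq K]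

/-- The key estimate: the third point of intersection of the line through two points of the
kernel of reduction lies in the kernel of reduction, and the `z`-coordinates of the three points
add up to zero modulo `γ ^ 2`. -/
theorem add_aux (hW : IsIntegralAt v W) {γ : Γ₀} (hγ : γ < 1) {x₁ y₁ x₂ y₂ : K}
    (h₁ : W.Equation x₁ y₁) (h₂ : W.Equation x₂ y₂) (hx₁ : 1 < v x₁) (hx₂ : 1 < v x₂)
    (hz₁ : v (-x₁ / y₁) ≤ γ) (hz₂ : v (-x₂ / y₂) ≤ γ)
    (hxy : ¬(x₁ = x₂ ∧ y₁ = W.negY x₂ y₂)) :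
    1 < v (W.addX x₁ x₂ (W.slope x₁ x₂ y₁ y₂)) ∧
    v (-(W.addX x₁ x₂ (W.slope x₁ x₂ y₁ y₂)) / W.negAddY x₁ x₂ y₁ (W.slope x₁ x₂ y₁ y₂)) ≤ γ ∧
    v (-(W.addX x₁ x₂ (W.slope x₁ x₂ y₁ y₂)) / W.negAddY x₁ x₂ y₁ (W.slope x₁ x₂ y₁ y₂)
        + -x₁ / y₁ + -x₂ / y₂) ≤ γ ^ 2 := by
  obtain ⟨hy₁, hz₁1, hw₁1, hw₁3, -⟩ := ker_facts hW h₁ hx₁
  obtain ⟨hy₂, hz₂1, hw₂1, hw₂3, -⟩ := ker_facts hW h₂ hx₂
  have hw₁ : v (-1 / y₁) ≤ γ ^ 3 := by rw [hw₁3]; exact pow_le_pow_left' hz₁ 3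
  have hw₂ : v (-1 / y₂) ≤ γ ^ 3 := by rw [hw₂3]; exact pow_le_pow_left' hz₂ 3
  have hγ31 : γ ^ 3 ≤ γ := by simpa using pow_le_of_lt_one hγ (show 1 ≤ 3 by norm_num)
  have hD := val_slopeD hW hγ hz₁ (hw₁.trans hγ31) (hw₂.trans hγ31)
  have hN := val_slopeN hW hγ hz₁ hz₂ hw₂
  have hD0 : slopeD W (-x₁ / y₁) (-1 / y₁) (-1 / y₂) ≠ 0 := by
    intro h0
    rw [h0, map_zero] at hD
    exact zero_ne_one hD
  -- the line
  obtain ⟨hl₂, hn0, hlam⟩ := slope_zw (ℓ := W.slope x₁ x₂ y₁ y₂)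
    (n := y₁ - W.slope x₁ x₂ y₁ y₂ * x₁) h₁ h₂ hy₁ hy₂ hxy hD0 rfl rfl
  have hT := lineTriple_of_slope W h₁ h₂ hxy
  have hE₃ := equation_negAdd h₁ h₂ hxy
  generalize W.slope x₁ x₂ y₁ y₂ = ℓ at *
  have hl₁ : y₁ = ℓ * x₁ + (y₁ - ℓ * x₁) := by ring
  have hl₃ : W.negAddY x₁ x₂ y₁ ℓ = ℓ * W.addX x₁ x₂ ℓ + (y₁ - ℓ * x₁) := by
    simp only [negAddY]; ring
  generalize W.negAddY x₁ x₂ y₁ ℓ = y₃ at *
  generalize W.addX x₁ x₂ ℓ = x₃ at *
  generalize y₁ - ℓ * x₁ = n at *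
  -- valuations of the line parameters
  have hvlam : v (-ℓ / n) ≤ γ ^ 2 := by
    have := congrArg v hlam
    rw [map_mul, hD, mul_one] at this
    rw [this]; exact hN
  have hw₁' := w_eq_of_line hn0 hy₁ hl₁
  have hvnu : v (-1 / n) ≤ γ ^ 3 := by
    have e : -1 / n = -1 / y₁ - (-ℓ / n) * (-x₁ / y₁) := by rw [hw₁']; ring
    rw [e]
    refine v.map_sub_le hw₁ ?_
    have hz₁' : v (-x₁ / y₁) ≤ γ ^ 1 := by simpa using hz₁
    exact vmul_pow_le hvlam hz₁'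
  have hγ21 : γ ^ 2 ≤ γ := by simpa using pow_le_of_lt_one hγ (show 1 ≤ 2 by norm_num)
  have hc₃ := val_cThree hW hγ (hvlam.trans hγ21)
  have hc₂ := val_cTwo hW hγ hvlam hvnu
  have hc₃0 : cThree W (-ℓ / n) ≠ 0 := by
    intro h0
    rw [h0, map_zero] at hc₃
    exact zero_ne_one hc₃
  -- the third point
  have hy₃ : y₃ ≠ 0 := by
    have hP := hT.prod_eq' hn0
    rw [← hl₁, ← hl₂, ← hl₃] at hP
    intro h0
    rw [h0, mul_zero] at hP
    exact (mul_ne_zero (pow_ne_zero 3 hn0) hc₃0) hP.symm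
  have hsum := hT.zsum hn0 hl₁ hl₂ hl₃ hy₁ hy₂ hy₃
  have hvsum : v (-x₁ / y₁ + -x₂ / y₂ + -x₃ / y₃) ≤ γ ^ 2 := by
    have := congrArg v hsum
    rw [map_mul, hc₃, one_mul, Valuation.map_neg] at this
    rw [this]; exact hc₂
  have hz₃ : v (-x₃ / y₃) ≤ γ := by
    have e : -x₃ / y₃ = (-x₁ / y₁ + -x₂ / y₂ + -x₃ / y₃) - -x₁ / y₁ - -x₂ / y₂ := by ring
    rw [e]
    exact v.map_sub_le (v.map_sub_le (hvsum.trans hγ21) hz₁) hz₂
  have hw₃' := w_eq_of_line hn0 hy₃ hl₃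
  have hw₃ : v (-1 / y₃) < 1 := by
    rw [hw₃']
    refine lt_of_le_of_lt (v.map_add_le (g := γ) ?_ ?_) hγ
    · exact vmul_le_of_le_one ((hvlam.trans hγ21).trans hγ.le) hz₃
    · exact hvnu.trans hγ31
  have E₃ : ZWEq W (-x₃ / y₃) (-1 / y₃) := zwEq_of_equation W hE₃ hy₃
  have hw₃3 := val_w_eq hW E₃ (lt_of_le_of_lt hz₃ hγ) hw₃
  have hvw0 : v (-1 / y₃) ≠ 0 := by
    rw [Valuation.ne_zero_iff]
    exact div_ne_zero (neg_ne_zero.mpr one_ne_zero) hy₃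
  have hvz0 : v (-x₃ / y₃) ≠ 0 := by
    intro h0
    rw [h0] at hw₃3
    simp at hw₃3
    exact hvw0 (by rw [Valuation.zero_iff] at *; simpa using hw₃3)
  refine ⟨?_, hz₃, ?_⟩
  · have e : x₃ = (-x₃ / y₃) / (-1 / y₃) := by
      field_simp
    rw [e, map_div₀, hw₃3]
    have hpos : 0 < v (-x₃ / y₃) := zero_lt_iff.mpr hvz0
    rw [one_lt_div₀ (pow_pos hpos 3)]
    calc v (-x₃ / y₃) ^ 3 = v (-x₃ / y₃) * v (-x₃ / y₃) ^ 2 := by rw [pow_succ']
      _ < v (-x₃ / y₃) * 1 :=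
          mul_lt_mul_of_pos_left (pow_lt_one_of_lt_one (lt_of_le_of_lt hz₃ hγ) two_ne_zero) hpos
      _ = v (-x₃ / y₃) := mul_one _
  · have e : -x₃ / y₃ + -x₁ / y₁ + -x₂ / y₂ = -x₁ / y₁ + -x₂ / y₂ + -x₃ / y₃ := by ring
    rw [e]; exact hvsum

end

/-- The `z`-coordinate `-x / y` of a point (`0` at the origin). -/
noncomputable def zc : W.Point → K
  | .zero => 0
  | .some x y _ => -x / y

/-- The predicate "the point reduces to the origin", i.e. `P = 0` or `x(P)` is not integral. -/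
def InKer (v : Valuation K Γ₀) : W.Point → Prop
  | .zero => True
  | .some x _ _ => 1 < v x

@[simp] theorem zc_zero : zc (0 : W.Point) = 0 := rfl

@[simp] theorem zc_some {x y : K} (h : W.Nonsingular x y) : zc (Point.some x y h) = -x / y := rfl

@[simp] theorem inKer_zero : InKer v (0 : W.Point) := trivial

@[simp] theorem inKer_some {x y : K} (h : W.Nonsingular x y) :
    InKer v (Point.some x y h) ↔ 1 < v x := Iff.rfl

theorem val_zc_lt_one (hW : IsIntegralAt v W) {P : W.Point} (hP : InKer v P) : v (zc P) < 1 := by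
  rcases P with _ | ⟨x, y, h⟩
  · change v (0 : K) < 1
    rw [map_zero]; exact zero_lt_one
  · exact (ker_facts hW h.1 hP).2.1

theorem zc_eq_zero_iff (hW : IsIntegralAt v W) {P : W.Point} (hP : InKer v P) :
    zc P = 0 ↔ P = 0 := by
  rcases P with _ | ⟨x, y, h⟩
  · exact ⟨fun _ => rfl, fun _ => rfl⟩
  · constructor
    · intro h0
      have := (ker_facts hW h.1 hP).2.2.2.2
      rw [zc_some] at h0
      rw [h0, map_zero] at this
      exact absurd rfl this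
    · intro h0
      exact absurd h0 (Point.some_ne_zero h)

theorem neg_mem (hW : IsIntegralAt v W) {γ : Γ₀} (hγ : γ < 1) {P : W.Point}
    (hP : InKer v P) (hzP : v (zc P) ≤ γ) :
    InKer v (-P) ∧ v (zc (-P)) ≤ γ ∧ v (zc (-P) + zc P) ≤ γ ^ 2 := by
  rcases P with _ | ⟨x, y, h⟩
  · refine ⟨trivial, ?_, ?_⟩
    · change v (0 : K) ≤ γ
      rw [map_zero]; exact zero_le
    · change v ((0 : K) + 0) ≤ γ ^ 2
      rw [add_zero, map_zero]; exact zero_le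
  · obtain ⟨-, h2, h3⟩ := neg_aux hW hγ h.1 hP hzP
    rw [Point.neg_some]
    exact ⟨hP, h2, h3⟩

variable [DecidableEq K]

/-- **Main estimate.** The kernel of reduction is stable under addition, and the `z`-coordinate
is additive modulo `γ ^ 2` on the points with `v z ≤ γ`. -/
theorem add_mem (hW : IsIntegralAt v W) {γ : Γ₀} (hγ : γ < 1) {P Q : W.Point}
    (hP : InKer v P) (hQ : InKer v Q) (hzP : v (zc P) ≤ γ) (hzQ : v (zc Q) ≤ γ) :
    InKer v (P + Q) ∧ v (zc (P + Q)) ≤ γ ∧ v (zc (P + Q) - zc P - zc Q) ≤ γ ^ 2 := by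
  rcases P with _ | ⟨x₁, y₁, h₁⟩
  · change InKer v (0 + Q) ∧ v (zc (0 + Q)) ≤ γ ∧ v (zc (0 + Q) - 0 - zc Q) ≤ γ ^ 2
    rw [zero_add]
    refine ⟨hQ, hzQ, ?_⟩
    rw [sub_zero, sub_self, map_zero]; exact zero_le
  rcases Q with _ | ⟨x₂, y₂, h₂⟩
  · change InKer v (Point.some x₁ y₁ h₁ + 0) ∧ v (zc (Point.some x₁ y₁ h₁ + 0)) ≤ γ ∧
      v (zc (Point.some x₁ y₁ h₁ + 0) - zc (Point.some x₁ y₁ h₁) - 0) ≤ γ ^ 2
    rw [add_zero]
    refine ⟨hP, hzP, ?_⟩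
    rw [sub_zero, sub_self, map_zero]; exact zero_le
  have hx₁ : 1 < v x₁ := hP
  have hx₂ : 1 < v x₂ := hQ
  have hz₁ : v (-x₁ / y₁) ≤ γ := hzP
  have hz₂ : v (-x₂ / y₂) ≤ γ := hzQ
  by_cases hxy : x₁ = x₂ ∧ y₁ = W.negY x₂ y₂
  · rw [Point.add_of_Y_eq hxy.1 hxy.2]
    refine ⟨trivial, ?_, ?_⟩
    · rw [zc_zero, map_zero]; exact zero_le
    · obtain ⟨-, -, h3⟩ := neg_aux hW hγ h₂.1 hx₂ hz₂
      rw [zc_zero, zc_some, zc_some, hxy.1, hxy.2]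
      have e : (0 : K) - -x₂ / W.negY x₂ y₂ - -x₂ / y₂ = -(-x₂ / W.negY x₂ y₂ + -x₂ / y₂) := by
        ring
      rw [e, Valuation.map_neg]
      exact h3
  · rw [Point.add_some hxy]
    obtain ⟨a1, a2, a3⟩ := add_aux hW hγ h₁.1 h₂.1 hx₁ hx₂ hz₁ hz₂ hxy
    obtain ⟨-, b2, b3⟩ := neg_aux hW hγ (equation_negAdd h₁.1 h₂.1 hxy) a1 a2
    refine ⟨a1, b2, ?_⟩
    rw [zc_some, zc_some, zc_some]
    have e : -(W.addX x₁ x₂ (W.slope x₁ x₂ y₁ y₂)) / W.addY x₁ x₂ y₁ (W.slope x₁ x₂ y₁ y₂)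
          - -x₁ / y₁ - -x₂ / y₂
        = (-(W.addX x₁ x₂ (W.slope x₁ x₂ y₁ y₂))
              / W.negY (W.addX x₁ x₂ (W.slope x₁ x₂ y₁ y₂))
                (W.negAddY x₁ x₂ y₁ (W.slope x₁ x₂ y₁ y₂))
            + -(W.addX x₁ x₂ (W.slope x₁ x₂ y₁ y₂))
              / W.negAddY x₁ x₂ y₁ (W.slope x₁ x₂ y₁ y₂))
          - (-(W.addX x₁ x₂ (W.slope x₁ x₂ y₁ y₂)) / W.negAddY x₁ x₂ y₁ (W.slope x₁ x₂ y₁ y₂)
            + -x₁ / y₁ + -x₂ / y₂) := by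
      rw [addY]; ring
    rw [e]
    exact v.map_sub_le b3 a3

omit [DecidableEq K] in
theorem val_natCast_le_one (k : ℕ) : v (k : K) ≤ 1 := by
  induction k with
  | zero => simp
  | succ k ih =>
    rw [Nat.cast_succ]
    exact v.map_add_le ih (by rw [map_one])

/-- Multiples of a point of the kernel of reduction: `z(k • P) ≡ k * z(P)` modulo `z(P) ^ 2`. -/
theorem nsmul_mem (hW : IsIntegralAt v W) {P : W.Point} (hP : InKer v P) (k : ℕ) :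
    InKer v (k • P) ∧ v (zc (k • P)) ≤ v (zc P) ∧
      v (zc (k • P) - k * zc P) ≤ v (zc P) ^ 2 := by
  have hγ := val_zc_lt_one hW hP
  induction k with
  | zero =>
    rw [zero_nsmul]
    refine ⟨trivial, ?_, ?_⟩
    · rw [zc_zero, map_zero]; exact zero_le
    · rw [zc_zero, Nat.cast_zero, zero_mul, sub_zero, map_zero]; exact zero_le
  | succ k ih =>
    obtain ⟨i1, i2, i3⟩ := ih
    obtain ⟨a1, a2, a3⟩ := add_mem hW hγ i1 hP i2 le_rfl
    rw [succ_nsmul]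
    refine ⟨a1, a2, ?_⟩
    have e : zc (k • P + P) - ((k + 1 : ℕ) : K) * zc P
        = (zc (k • P + P) - zc (k • P) - zc P) + (zc (k • P) - k * zc P) := by
      push_cast; ring
    rw [e]
    exact v.map_add_le a3 i3

/-- **The kernel of reduction has no `m`-torsion when `m` is a `v`-unit.** -/
theorem eq_zero_of_nsmul_eq_zero (hW : IsIntegralAt v W) {P : W.Point} (hP : InKer v P)
    {m : ℕ} (hm : v (m : K) = 1) (h : m • P = 0) : P = 0 := by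
  obtain ⟨-, -, h3⟩ := nsmul_mem hW hP m
  rw [h, zc_zero, zero_sub, Valuation.map_neg, map_mul, hm, one_mul] at h3
  have hγ := val_zc_lt_one hW hP
  rw [← zc_eq_zero_iff hW hP]
  by_contra h0
  have hpos : 0 < v (zc P) := zero_lt_iff.mpr ((Valuation.ne_zero_iff v).mpr h0)
  have : v (zc P) ^ 2 < v (zc P) := by
    calc v (zc P) ^ 2 = v (zc P) * v (zc P) := sq _
      _ < v (zc P) * 1 := mul_lt_mul_of_pos_left hγ hpos
      _ = v (zc P) := mul_one _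
  exact absurd h3 (not_le.mpr this)

theorem eq_zero_of_zsmul_eq_zero (hW : IsIntegralAt v W) {P : W.Point} (hP : InKer v P)
    {m : ℤ} (hm : v (m : K) = 1) (h : m • P = 0) : P = 0 := by
  rcases Int.natAbs_eq m with hm' | hm'
  · rw [hm'] at h hm
    rw [natCast_zsmul] at h
    rw [Int.cast_natCast] at hm
    exact eq_zero_of_nsmul_eq_zero hW hP hm h
  · rw [hm'] at h hm
    rw [neg_zsmul, natCast_zsmul, neg_eq_zero] at h
    rw [Int.cast_neg, Int.cast_natCast, Valuation.map_neg] at hm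
    exact eq_zero_of_nsmul_eq_zero hW hP hm h

/-- The kernel of reduction, as a subgroup of the group of points. -/
def kerRed (hW : IsIntegralAt v W) : AddSubgroup W.Point where
  carrier := {P | InKer v P}
  zero_mem' := trivial
  add_mem' := by
    intro P Q hP hQ
    have hγ : max (v (zc P)) (v (zc Q)) < 1 :=
      max_lt (val_zc_lt_one hW hP) (val_zc_lt_one hW hQ)
    exact (add_mem hW hγ hP hQ (le_max_left _ _) (le_max_right _ _)).1
  neg_mem' := by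
    intro P hP
    exact (neg_mem hW (val_zc_lt_one hW hP) hP le_rfl).1

@[simp] theorem mem_kerRed (hW : IsIntegralAt v W) {P : W.Point} :
    P ∈ kerRed hW ↔ InKer v P := Iff.rfl

theorem some_mem_kerRed (hW : IsIntegralAt v W) {x y : K} (h : W.Nonsingular x y) :
    Point.some x y h ∈ kerRed hW ↔ 1 < v x := Iff.rfl

end Val

section Subring

variable {K : Type*} [Field K] (A : ValuationSubring K)
  {W : WeierstrassCurve.Affine K}

theorem isIntegralAt_of_mem (h₁ : W.a₁ ∈ A) (h₂ : W.a₂ ∈ A) (h₃ : W.a₃ ∈ A) (h₄ : W.a₄ ∈ A)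
    (h₆ : W.a₆ ∈ A) : IsIntegralAt A.valuation W :=
  ⟨(A.valuation_le_one_iff _).mpr h₁, (A.valuation_le_one_iff _).mpr h₂,
    (A.valuation_le_one_iff _).mpr h₃, (A.valuation_le_one_iff _).mpr h₄,
    (A.valuation_le_one_iff _).mpr h₆⟩

theorem one_lt_valuation_iff {x : K} : 1 < A.valuation x ↔ x ∉ A := by
  rw [← A.valuation_le_one_iff, not_le]

theorem valuation_eq_one_of_mem_of_inv_mem {m : K} (hm0 : m ≠ 0) (hm : m ∈ A)
    (hm' : m⁻¹ ∈ A) : A.valuation m = 1 := by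
  have h1 := (A.valuation_le_one_iff _).mpr hm
  have h2 := (A.valuation_le_one_iff _).mpr hm'
  rw [map_inv₀] at h2
  have h0 : A.valuation m ≠ 0 := (Valuation.ne_zero_iff _).mpr hm0
  refine le_antisymm h1 ?_
  have hpos : 0 < A.valuation m := zero_lt_iff.mpr h0
  rwa [inv_le_one₀ hpos] at h2

variable [DecidableEq K]

/-- Membership in the kernel of reduction for a valuation subring. -/
theorem mem_kerRed_subring_iff (hW : IsIntegralAt A.valuation W) {P : W.Point} :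
    P ∈ kerRed hW ↔ P = 0 ∨ ∃ (x y : K) (h : W.Nonsingular x y), P = Point.some x y h ∧ x ∉ A := by
  rcases P with _ | ⟨x, y, h⟩
  · exact ⟨fun _ => Or.inl rfl, fun _ => trivial⟩
  · constructor
    · intro hP
      exact Or.inr ⟨x, y, h, rfl, (one_lt_valuation_iff A).mp hP⟩
    · rintro (h0 | ⟨x', y', h', he, hx'⟩)
      · exact absurd h0 (Point.some_ne_zero h)
      · cases he
        exact (one_lt_valuation_iff A).mpr hx'

/-- **F1 for valuation subrings**: a point with non-integral `x`-coordinate is not killed by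
an integer which is a unit of the valuation subring. -/
theorem nsmul_ne_zero_of_not_mem (hW : IsIntegralAt A.valuation W) {x y : K}
    (h : W.Nonsingular x y) (hx : x ∉ A) {m : ℕ} (hm0 : (m : K) ≠ 0) (hm : (m : K)⁻¹ ∈ A) :
    m • Point.some x y h ≠ 0 := by
  intro h0
  have hmA : (m : K) ∈ A := by
    rw [← A.valuation_le_one_iff]
    exact val_natCast_le_one m
  have hP : InKer A.valuation (Point.some x y h) := (one_lt_valuation_iff A).mpr hx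
  exact Point.some_ne_zero h
    (eq_zero_of_nsmul_eq_zero hW hP (valuation_eq_one_of_mem_of_inv_mem A hm0 hmA hm) h0)

end Subring

end Fermat.Agent.H26
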