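import Fermat.Agent.H26.KernelReduction
import Fermat.Agent.H8.ReductionF2

/-!
# The reduction homomorphism for a Weierstrass curve with good reduction

Let `K` be a field, `A` a valuation subring of `K` (arbitrary rank, no completeness), `φ : A →+* k`
a ring homomorphism to a field whose kernel is the maximal ideal of `A`, and `W₀` a Weierstrass
curve with coefficients in `A` whose reduction `W₀.map φ` has nonzero discriminant.

We construct the reduction map on points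
`redHom : (W₀.map A.subtype).Point →+ (W₀.map φ).Point`
and prove that it is a group homomorphism whose kernel is the kernel of reduction `kerRed`
(points with non-integral `x`-coordinate), hence injective on `m`-torsion for `m` a unit of `A`.
-/

set_option autoImplicit false

namespace Fermat.Agent.H26

open WeierstrassCurve WeierstrassCurve.Affine

namespace Red

variable {K : Type*} [Field K] {A : ValuationSubring K}
variable {k : Type*} [Field k] {φ : A →+* k}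

/-- An element of `A` with nonzero image under `φ` has valuation one. -/
lemma val_eq_one (hφ : ∀ a : A, φ a = 0 ↔ (a : K) ∈ A.nonunits) {a : A} (ha : φ a ≠ 0) :
    A.valuation (a : K) = 1 := by
  have h1 : (a : K) ∉ A.nonunits := fun h => ha ((hφ a).mpr h)
  rw [ValuationSubring.mem_nonunits_iff, not_lt] at h1
  exact le_antisymm ((A.valuation_le_one_iff _).mpr a.2) h1

lemma coe_ne_zero {a : A} (ha : φ a ≠ 0) : (a : K) ≠ 0 := by
  intro h
  apply ha
  have : a = 0 := Subtype.ext h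
  rw [this, map_zero]

/-- An element of `A` with nonzero image under `φ` is a unit of `A`. -/
lemma inv_mem (hφ : ∀ a : A, φ a = 0 ↔ (a : K) ∈ A.nonunits) {a : A} (ha : φ a ≠ 0) :
    (a : K)⁻¹ ∈ A := by
  rw [← A.valuation_le_one_iff, map_inv₀, val_eq_one hφ ha, inv_one]

/-- Division by an element with nonzero reduction. -/
lemma exists_div (hφ : ∀ a : A, φ a = 0 ↔ (a : K) ∈ A.nonunits) (a b : A) (hb : φ b ≠ 0) :
    ∃ c : A, (c : K) = (a : K) / (b : K) ∧ φ c = φ a / φ b := by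
  have hb' := inv_mem hφ hb
  have hb0 := coe_ne_zero hb
  refine ⟨a * ⟨(b : K)⁻¹, hb'⟩, ?_, ?_⟩
  · simp [div_eq_mul_inv]
  · rw [map_mul, div_eq_mul_inv]
    congr 1
    have h1 : (⟨(b : K)⁻¹, hb'⟩ : A) * b = 1 := by
      apply Subtype.ext
      simp [inv_mul_cancel₀ hb0]
    have h2 : φ ⟨(b : K)⁻¹, hb'⟩ * φ b = 1 := by rw [← map_mul, h1, map_one]
    exact eq_inv_of_mul_eq_one_left h2

/-- Two elements of `A` with the same reduction differ by a nonunit. -/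
lemma sub_mem_nonunits (hφ : ∀ a : A, φ a = 0 ↔ (a : K) ∈ A.nonunits) {a b : A}
    (h : φ a = φ b) : (a : K) - (b : K) ∈ A.nonunits := by
  have : φ (a - b) = 0 := by rw [map_sub, h, sub_self]
  exact (hφ _).mp this

lemma not_mem_nonunits (hφ : ∀ a : A, φ a = 0 ↔ (a : K) ∈ A.nonunits) {a : A}
    (h : φ a ≠ 0) : (a : K) ∉ A.nonunits := fun h' => h ((hφ a).mpr h')

variable (W₀ : WeierstrassCurve.Affine A)

/-- The generic fibre is integral. -/
lemma isIntegralAt : IsIntegralAt A.valuation (W₀.map A.subtype) :=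
  isIntegralAt_of_mem A (W₀.a₁).2 (W₀.a₂).2 (W₀.a₃).2 (W₀.a₄).2 (W₀.a₆).2

/-- On an integral model, a point with integral `x` has integral `y`. -/
lemma y_mem {x y : K} (h : (W₀.map A.subtype).Equation x y) (hx : x ∈ A) : y ∈ A := by
  by_contra hy
  rw [← A.valuation_le_one_iff, not_le] at hy
  have e := (Affine.equation_iff x y).mp h
  simp only [map_a₁, map_a₂, map_a₃, map_a₄, map_a₆, ValuationSubring.subtype_apply] at e
  have hb : (W₀.a₁ : K) * x + W₀.a₃ ∈ A := A.add_mem _ _ (A.mul_mem _ _ (W₀.a₁).2 hx) (W₀.a₃).2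
  have hc : x ^ 3 + (W₀.a₂ : K) * x ^ 2 + W₀.a₄ * x + W₀.a₆ ∈ A :=
    A.add_mem _ _ (A.add_mem _ _ (A.add_mem _ _ (pow_mem hx 3)
      (A.mul_mem _ _ (W₀.a₂).2 (pow_mem hx 2))) (A.mul_mem _ _ (W₀.a₄).2 hx)) (W₀.a₆).2
  have hy0 : 0 < A.valuation y := lt_trans zero_lt_one hy
  have e' : y ^ 2 = (x ^ 3 + (W₀.a₂ : K) * x ^ 2 + W₀.a₄ * x + W₀.a₆) -
      ((W₀.a₁ : K) * x + W₀.a₃) * y := by
    linear_combination e
  have h1 : A.valuation (y ^ 2) < A.valuation y ^ 2 := by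
    rw [e']
    have hyy : A.valuation y < A.valuation y ^ 2 := by
      rw [pow_two]
      have := mul_lt_mul_of_pos_left hy hy0
      rwa [mul_one] at this
    refine Valuation.map_sub_lt _ ?_ ?_
    · exact lt_of_le_of_lt ((A.valuation_le_one_iff _).mpr hc) (lt_trans hy hyy)
    · rw [map_mul]
      refine lt_of_le_of_lt ?_ hyy
      have := mul_le_mul' ((A.valuation_le_one_iff _).mpr hb) (le_refl (A.valuation y))
      rwa [one_mul] at this
  rw [map_pow] at h1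
  exact lt_irrefl _ h1

variable {W₀}

omit [Field k] in
lemma some_congr {R : Type*} [CommRing R] {W : WeierstrassCurve.Affine R} {x y x' y' : R}
    (h : W.Nonsingular x y) (hx : x = x') (hy : y = y') :
    ∃ h' : W.Nonsingular x' y', Point.some x y h = Point.some x' y' h' := by
  subst hx
  subst hy
  exact ⟨h, rfl⟩

/-- The reduction of an integral point of the generic fibre is a nonsingular point of the
special fibre. -/
lemma nonsingular_red (hΔ : (W₀.map φ).Δ ≠ 0) {x y : A}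
    (h : (W₀.map A.subtype).Equation (x : K) (y : K)) :
    (W₀.map φ).Nonsingular (φ x) (φ y) := by
  have h0 : W₀.Equation x y := (Affine.map_equation W₀ A.subtype_injective x y).mp h
  exact (equation_iff_nonsingular_of_Δ_ne_zero hΔ).mp (Equation.map φ h0)

/-- The slope of the chord/tangent through two integral points whose reductions are not
opposite is integral, and reduces to the slope through the reductions. -/
lemma slope_red [DecidableEq K] [DecidableEq k]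
    (hφ : ∀ a : A, φ a = 0 ↔ (a : K) ∈ A.nonunits) {x₁ y₁ x₂ y₂ : A}
    (e₁ : W₀.Equation x₁ y₁) (e₂ : W₀.Equation x₂ y₂)
    (hne : ¬(φ x₁ = φ x₂ ∧ φ y₁ = (W₀.map φ).negY (φ x₂) (φ y₂))) :
    ∃ ℓ : A, (ℓ : K) = (W₀.map A.subtype).slope (x₁ : K) x₂ y₁ y₂ ∧
      φ ℓ = (W₀.map φ).slope (φ x₁) (φ x₂) (φ y₁) (φ y₂) := by
  have E₁ := Equation.map φ e₁
  have E₂ := Equation.map φ e₂
  by_cases hx : φ x₁ = φ x₂
  · have hy : φ y₁ ≠ (W₀.map φ).negY (φ x₂) (φ y₂) := fun h => hne ⟨hx, h⟩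
    have hyy : φ y₁ = φ y₂ := Y_eq_of_Y_ne E₁ E₂ hx hy
    rw [slope_of_Y_ne hx hy]
    have hN : φ (y₁ - W₀.negY x₂ y₂) ≠ 0 := by
      rw [map_sub, ← map_negY]
      exact sub_ne_zero.mpr hy
    have hN' : φ y₁ - (W₀.map φ).negY (φ x₁) (φ y₁) = φ (y₁ - W₀.negY x₂ y₂) := by
      rw [map_sub, ← map_negY, hx, hyy]
    by_cases hxK : x₁ = x₂
    · subst hxK
      have hyK : (y₁ : K) ≠ (W₀.map A.subtype).negY (x₁ : K) (y₂ : K) := by
        intro h
        apply hy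
        have h1 : (W₀.map A.subtype).negY (x₁ : K) (y₂ : K) = ((W₀.negY x₁ y₂ : A) : K) :=
          map_negY A.subtype x₁ y₂
        have h2 : y₁ = W₀.negY x₁ y₂ := Subtype.ext (h.trans h1)
        rw [map_negY, ← h2]
      rw [slope_of_Y_ne rfl hyK]
      have hyA : y₁ = y₂ := by
        have := Y_eq_of_Y_ne (W := W₀.map A.subtype) (Equation.map A.subtype e₁)
          (Equation.map A.subtype e₂) rfl hyK
        exact Subtype.ext this
      subst hyA
      obtain ⟨c, hc, hc'⟩ := exists_div hφ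
        (3 * x₁ ^ 2 + 2 * W₀.a₂ * x₁ + W₀.a₄ - W₀.a₁ * y₁) (y₁ - W₀.negY x₁ y₁) hN
      refine ⟨c, ?_, ?_⟩
      · rw [hc]
        have h1 : (W₀.map A.subtype).negY (x₁ : K) (y₁ : K) = ((W₀.negY x₁ y₁ : A) : K) :=
          map_negY A.subtype x₁ y₁
        rw [h1]
        simp only [map_a₁, map_a₂, map_a₄, ValuationSubring.subtype_apply]
        push_cast
        rfl
      · rw [hc', hN']
        simp only [map_a₁, map_a₂, map_a₄, map_sub, map_add, map_mul, map_pow, map_ofNat]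
    · have hxK' : (x₁ : K) ≠ x₂ := fun h => hxK (Subtype.ext h)
      rw [slope_of_X_ne hxK']
      have e₁' := (Affine.equation_iff x₁ y₁).mp e₁
      have e₂' := (Affine.equation_iff x₂ y₂).mp e₂
      have key : (y₁ - y₂) * (y₁ - W₀.negY x₂ y₂) = (x₁ - x₂) *
          (x₁ ^ 2 + x₁ * x₂ + x₂ ^ 2 + W₀.a₂ * (x₁ + x₂) + W₀.a₄ - W₀.a₁ * y₁) := by
        rw [Affine.negY]
        linear_combination e₁' - e₂'
      obtain ⟨c, hc, hc'⟩ := exists_div hφ
        (x₁ ^ 2 + x₁ * x₂ + x₂ ^ 2 + W₀.a₂ * (x₁ + x₂) + W₀.a₄ - W₀.a₁ * y₁)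
        (y₁ - W₀.negY x₂ y₂) hN
      refine ⟨c, ?_, ?_⟩
      · rw [hc]
        have hNK : ((y₁ - W₀.negY x₂ y₂ : A) : K) ≠ 0 := coe_ne_zero hN
        have hxK'' : (x₁ : K) - x₂ ≠ 0 := sub_ne_zero.mpr hxK'
        rw [div_eq_div_iff hNK hxK'']
        have := congrArg (fun a : A => (a : K)) key
        push_cast at this ⊢
        linear_combination -this
      · rw [hc', hN']
        congr 1
        simp only [map_a₁, map_a₂, map_a₄, map_sub, map_add, map_mul, map_pow]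
        rw [hx]
        ring
  · have hxK' : (x₁ : K) ≠ x₂ := fun h => hx (by rw [Subtype.ext h])
    rw [slope_of_X_ne hx, slope_of_X_ne hxK']
    have hD : φ (x₁ - x₂) ≠ 0 := by
      rw [map_sub]
      exact sub_ne_zero.mpr hx
    obtain ⟨c, hc, hc'⟩ := exists_div hφ (y₁ - y₂) (x₁ - x₂) hD
    refine ⟨c, ?_, ?_⟩
    · rw [hc]
      push_cast
      rfl
    · rw [hc', map_sub, map_sub]

end Red

section Main

open Red

variable {K : Type*} [Field K] [DecidableEq K] (A : ValuationSubring K)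
variable {k : Type*} [Field k] [DecidableEq k] (φ : A →+* k)
variable (W₀ : WeierstrassCurve.Affine A)

open Classical in
/-- The reduction map on points (as a function). -/
noncomputable def redFun (hΔ : (W₀.map φ).Δ ≠ 0) :
    (W₀.map A.subtype).Point → (W₀.map φ).Point
  | .zero => 0
  | .some x y h =>
    if hx : x ∈ A then
      .some (φ ⟨x, hx⟩) (φ ⟨y, y_mem W₀ h.1 hx⟩)
        (nonsingular_red (x := ⟨x, hx⟩) (y := ⟨y, y_mem W₀ h.1 hx⟩) hΔ h.1)
    else 0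

variable {A φ W₀}
variable (hΔ : (W₀.map φ).Δ ≠ 0)

set_option linter.unusedSectionVars false

@[simp] lemma redFun_zero : redFun A φ W₀ hΔ 0 = 0 := rfl

lemma redFun_coe {x y : A} (h : (W₀.map A.subtype).Nonsingular (x : K) (y : K)) :
    redFun A φ W₀ hΔ (Point.some _ _ h) = Point.some (φ x) (φ y) (nonsingular_red hΔ h.1) := by
  simp only [redFun, dif_pos x.2]

lemma redFun_of_not_mem {x y : K} (h : (W₀.map A.subtype).Nonsingular x y) (hx : x ∉ A) :
    redFun A φ W₀ hΔ (Point.some _ _ h) = 0 := by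
  simp only [redFun, dif_neg hx]

/-- every point is in the kernel of reduction or has integral coordinates -/
lemma ker_or_coe (P : (W₀.map A.subtype).Point) :
    (P = 0 ∨ ∃ (x y : K) (h : (W₀.map A.subtype).Nonsingular x y),
        P = Point.some x y h ∧ x ∉ A) ∨
      ∃ (x y : A) (h : (W₀.map A.subtype).Nonsingular (x : K) (y : K)),
        P = Point.some _ _ h := by
  cases P with
  | zero => exact Or.inl (Or.inl rfl)
  | some x y h =>
    by_cases hx : x ∈ A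
    · exact Or.inr ⟨⟨x, hx⟩, ⟨y, y_mem W₀ h.1 hx⟩, h, rfl⟩
    · exact Or.inl (Or.inr ⟨x, y, h, rfl, hx⟩)

lemma redFun_eq_zero_iff (P : (W₀.map A.subtype).Point) :
    redFun A φ W₀ hΔ P = 0 ↔
      (P = 0 ∨ ∃ (x y : K) (h : (W₀.map A.subtype).Nonsingular x y),
        P = Point.some x y h ∧ x ∉ A) := by
  constructor
  · intro h0
    rcases ker_or_coe P with h | ⟨x, y, h, rfl⟩
    · exact h
    · rw [redFun_coe] at h0
      exact absurd h0 (Point.some_ne_zero _)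
  · rintro (rfl | ⟨x, y, h, rfl, hx⟩)
    · rfl
    · exact redFun_of_not_mem hΔ h hx

lemma redFun_eq_zero_iff_mem_kerRed (P : (W₀.map A.subtype).Point) :
    redFun A φ W₀ hΔ P = 0 ↔ P ∈ kerRed (isIntegralAt W₀) := by
  rw [redFun_eq_zero_iff, mem_kerRed_subring_iff]

lemma coe_not_mem_ker {x y : A} (h : (W₀.map A.subtype).Nonsingular (x : K) (y : K)) :
    ¬(Point.some _ _ h = (0 : (W₀.map A.subtype).Point) ∨
      ∃ (x' y' : K) (h' : (W₀.map A.subtype).Nonsingular x' y'),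
        Point.some _ _ h = Point.some x' y' h' ∧ x' ∉ A) := by
  rintro (h0 | ⟨x', y', h', he, hx'⟩)
  · exact Point.some_ne_zero _ h0
  · injection he with hx hy
    exact hx' (hx ▸ x.2)

/-- (L2) chord/tangent case: reductions not opposite. -/
lemma add_coe_of_ne (hφ : ∀ a : A, φ a = 0 ↔ (a : K) ∈ A.nonunits) {x₁ y₁ x₂ y₂ : A}
    (h₁ : (W₀.map A.subtype).Nonsingular (x₁ : K) (y₁ : K))
    (h₂ : (W₀.map A.subtype).Nonsingular (x₂ : K) (y₂ : K))
    (hne : ¬(φ x₁ = φ x₂ ∧ φ y₁ = (W₀.map φ).negY (φ x₂) (φ y₂))) :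
    ∃ (x₃ y₃ : A) (h₃ : (W₀.map A.subtype).Nonsingular (x₃ : K) (y₃ : K)),
      Point.some _ _ h₁ + Point.some _ _ h₂ = Point.some _ _ h₃ ∧
      Point.some (φ x₁) (φ y₁) (nonsingular_red hΔ h₁.1) +
        Point.some (φ x₂) (φ y₂) (nonsingular_red hΔ h₂.1) =
        Point.some (φ x₃) (φ y₃) (nonsingular_red hΔ h₃.1) := by
  have e₁ : W₀.Equation x₁ y₁ := (Affine.map_equation W₀ A.subtype_injective x₁ y₁).mp h₁.1
  have e₂ : W₀.Equation x₂ y₂ := (Affine.map_equation W₀ A.subtype_injective x₂ y₂).mp h₂.1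
  obtain ⟨ℓ, hℓ, hℓ'⟩ := slope_red hφ e₁ e₂ hne
  have hneK : ¬((x₁ : K) = x₂ ∧ (y₁ : K) = (W₀.map A.subtype).negY (x₂ : K) (y₂ : K)) := by
    rintro ⟨hx, hy⟩
    apply hne
    have hx' : x₁ = x₂ := Subtype.ext hx
    have h1 : (W₀.map A.subtype).negY (x₂ : K) (y₂ : K) = ((W₀.negY x₂ y₂ : A) : K) :=
      map_negY A.subtype x₂ y₂
    have hy' : y₁ = W₀.negY x₂ y₂ := Subtype.ext (hy.trans h1)
    refine ⟨by rw [hx'], ?_⟩
    rw [map_negY, ← hy']
  have hX : (W₀.map A.subtype).addX (x₁ : K) x₂ ((W₀.map A.subtype).slope (x₁ : K) x₂ y₁ y₂) =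
      ((W₀.addX x₁ x₂ ℓ : A) : K) := by
    rw [← hℓ]
    exact map_addX A.subtype x₁ x₂ ℓ
  have hY : (W₀.map A.subtype).addY (x₁ : K) x₂ y₁
      ((W₀.map A.subtype).slope (x₁ : K) x₂ y₁ y₂) = ((W₀.addY x₁ x₂ y₁ ℓ : A) : K) := by
    rw [← hℓ]
    exact map_addY A.subtype x₁ y₁ x₂ ℓ
  obtain ⟨h₃, hsome⟩ := some_congr (nonsingular_add h₁ h₂ hneK) hX hY
  refine ⟨W₀.addX x₁ x₂ ℓ, W₀.addY x₁ x₂ y₁ ℓ, h₃, ?_, ?_⟩
  · rw [Point.add_some hneK, hsome]
  · have hX' : (W₀.map φ).addX (φ x₁) (φ x₂) ((W₀.map φ).slope (φ x₁) (φ x₂) (φ y₁) (φ y₂)) =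
        φ (W₀.addX x₁ x₂ ℓ) := by
      rw [← hℓ']
      exact map_addX φ x₁ x₂ ℓ
    have hY' : (W₀.map φ).addY (φ x₁) (φ x₂) (φ y₁)
        ((W₀.map φ).slope (φ x₁) (φ x₂) (φ y₁) (φ y₂)) = φ (W₀.addY x₁ x₂ y₁ ℓ) := by
      rw [← hℓ']
      exact map_addY φ x₁ y₁ x₂ ℓ
    obtain ⟨h₃', hsome'⟩ := some_congr
      (nonsingular_add (nonsingular_red hΔ h₁.1) (nonsingular_red hΔ h₂.1) hne) hX' hY'
    rw [Point.add_some hne, hsome']

/-- (L3) opposite reductions: the sum lies in the kernel of reduction. -/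
lemma add_coe_of_eq (hΔ : (W₀.map φ).Δ ≠ 0)
    (hφ : ∀ a : A, φ a = 0 ↔ (a : K) ∈ A.nonunits) {x₁ y₁ x₂ y₂ : A}
    (h₁ : (W₀.map A.subtype).Nonsingular (x₁ : K) (y₁ : K))
    (h₂ : (W₀.map A.subtype).Nonsingular (x₂ : K) (y₂ : K))
    (hx : φ x₁ = φ x₂) (hy : φ y₁ = (W₀.map φ).negY (φ x₂) (φ y₂)) :
    Point.some _ _ h₁ + Point.some _ _ h₂ = 0 ∨
      ∃ (x y : K) (h : (W₀.map A.subtype).Nonsingular x y),
        Point.some _ _ h₁ + Point.some _ _ h₂ = Point.some x y h ∧ x ∉ A := by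
  -- the point `-Q`
  have hneg : (W₀.map A.subtype).negY (x₂ : K) (y₂ : K) = ((W₀.negY x₂ y₂ : A) : K) :=
    map_negY A.subtype x₂ y₂
  have h₂' : (W₀.map A.subtype).Nonsingular (x₂ : K) ((W₀.negY x₂ y₂ : A) : K) := by
    rw [← hneg]
    exact (nonsingular_neg _ _).mpr h₂
  have hQ : -Point.some _ _ h₂ = Point.some _ _ h₂' := by
    rw [Point.neg_some]
    exact (some_congr _ rfl hneg).choose_spec
  have hsum : Point.some _ _ h₁ + Point.some _ _ h₂ =
      Point.some _ _ h₁ - Point.some _ _ h₂' := by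
    rw [← hQ, sub_neg_eq_add]
  rw [hsum]
  have hy' : φ y₁ = φ (W₀.negY x₂ y₂) := by rw [hy, map_negY]
  -- nonsingularity of the reduction of `-Q`
  have hns := (Affine.nonsingular_iff _ _).mp (nonsingular_red (φ := φ) hΔ h₂'.1)
  refine Fermat.Agent.H8.sub_eq_zero_or_X_not_mem_of_reduction_eq A (W₀.map A.subtype)
    (W₀.a₁).2 (W₀.a₂).2 (W₀.a₃).2 (W₀.a₄).2 h₁ h₂' x₁.2 x₂.2 (W₀.negY x₂ y₂).2
    (sub_mem_nonunits hφ hx) (sub_mem_nonunits hφ hy') ?_
  rcases hns.2 with h | h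
  · left
    have h3 : φ (W₀.a₁ * W₀.negY x₂ y₂ - (3 * x₂ ^ 2 + 2 * W₀.a₂ * x₂ + W₀.a₄)) ≠ 0 := by
      simp only [map_a₁, map_a₂, map_a₄] at h
      simp only [map_sub, map_add, map_mul, map_pow, map_ofNat]
      exact sub_ne_zero.mpr h
    have := not_mem_nonunits hφ h3
    have e3 : ((3 : A) : K) = 3 := rfl
    have e2 : ((2 : A) : K) = 2 := rfl
    simpa [e3, e2] using this
  · right
    have h3 : φ (2 * W₀.negY x₂ y₂ + W₀.a₁ * x₂ + W₀.a₃) ≠ 0 := by
      simp only [map_a₁, map_a₃] at h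
      simp only [map_add, map_mul, map_ofNat]
      intro h0
      apply h
      linear_combination h0
    have := not_mem_nonunits hφ h3
    have e2 : ((2 : A) : K) = 2 := rfl
    simpa [e2] using this

lemma some_eq_of_eq {R : Type*} [CommRing R] {W : WeierstrassCurve.Affine R} {x y x' y' : R}
    {h : W.Nonsingular x y} {h' : W.Nonsingular x' y'} (hx : x = x') (hy : y = y') :
    Point.some x y h = Point.some x' y' h' := by
  subst hx
  subst hy
  rfl

/-- (L4) kernel + integral: the sum is integral with the same reduction. -/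
lemma add_of_ker (hΔ : (W₀.map φ).Δ ≠ 0)
    (hφ : ∀ a : A, φ a = 0 ↔ (a : K) ∈ A.nonunits) {P : (W₀.map A.subtype).Point}
    (hP : P = 0 ∨ ∃ (x y : K) (h : (W₀.map A.subtype).Nonsingular x y),
      P = Point.some x y h ∧ x ∉ A) {x₂ y₂ : A}
    (h₂ : (W₀.map A.subtype).Nonsingular (x₂ : K) (y₂ : K)) :
    ∃ (x₃ y₃ : A) (h₃ : (W₀.map A.subtype).Nonsingular (x₃ : K) (y₃ : K)),
      P + Point.some _ _ h₂ = Point.some _ _ h₃ ∧ φ x₃ = φ x₂ ∧ φ y₃ = φ y₂ := by
  have hW := isIntegralAt W₀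
  have hPk : P ∈ kerRed hW := (mem_kerRed_subring_iff A hW).mpr hP
  rcases ker_or_coe (P + Point.some _ _ h₂) with hR | ⟨x₃, y₃, h₃, hR⟩
  · exfalso
    have hRk : P + Point.some _ _ h₂ ∈ kerRed hW := (mem_kerRed_subring_iff A hW).mpr hR
    have hQk : Point.some _ _ h₂ ∈ kerRed hW := by
      have := (kerRed hW).sub_mem hRk hPk
      rwa [add_sub_cancel_left] at this
    exact coe_not_mem_ker h₂ ((mem_kerRed_subring_iff A hW).mp hQk)
  · refine ⟨x₃, y₃, h₃, hR, ?_⟩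
    by_contra hcon
    have hneg : (W₀.map A.subtype).negY (x₂ : K) (y₂ : K) = ((W₀.negY x₂ y₂ : A) : K) :=
      map_negY A.subtype x₂ y₂
    have h₂' : (W₀.map A.subtype).Nonsingular (x₂ : K) ((W₀.negY x₂ y₂ : A) : K) := by
      rw [← hneg]
      exact (nonsingular_neg _ _).mpr h₂
    have hQ : -Point.some _ _ h₂ = Point.some _ _ h₂' := by
      rw [Point.neg_some]
      exact some_eq_of_eq rfl hneg
    have hne : ¬(φ x₃ = φ x₂ ∧ φ y₃ = (W₀.map φ).negY (φ x₂) (φ (W₀.negY x₂ y₂))) := by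
      rintro ⟨hx, hy⟩
      apply hcon
      refine ⟨hx, ?_⟩
      rw [hy, map_negY, negY_negY]
    obtain ⟨x₄, y₄, h₄, hsum, -⟩ := add_coe_of_ne hΔ hφ h₃ h₂' hne
    have hP4 : P = Point.some _ _ h₄ := by
      rw [← hsum, ← hQ, ← hR, add_neg_cancel_right]
    rw [hP4] at hP
    exact coe_not_mem_ker h₄ hP

/-- **The reduction map is additive.** -/
theorem redFun_add (hΔ : (W₀.map φ).Δ ≠ 0)
    (hφ : ∀ a : A, φ a = 0 ↔ (a : K) ∈ A.nonunits) (P Q : (W₀.map A.subtype).Point) :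
    redFun A φ W₀ hΔ (P + Q) = redFun A φ W₀ hΔ P + redFun A φ W₀ hΔ Q := by
  have hW := isIntegralAt W₀
  rcases ker_or_coe P with hP | ⟨x₁, y₁, h₁, rfl⟩ <;>
    rcases ker_or_coe Q with hQ | ⟨x₂, y₂, h₂, rfl⟩
  · have hPQ : P + Q ∈ kerRed hW :=
      (kerRed hW).add_mem ((mem_kerRed_subring_iff A hW).mpr hP)
        ((mem_kerRed_subring_iff A hW).mpr hQ)
    rw [(redFun_eq_zero_iff hΔ P).mpr hP, (redFun_eq_zero_iff hΔ Q).mpr hQ,
      (redFun_eq_zero_iff_mem_kerRed hΔ _).mpr hPQ, add_zero]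
  · obtain ⟨x₃, y₃, h₃, hsum, hx, hy⟩ := add_of_ker hΔ hφ hP h₂
    rw [hsum, redFun_coe, redFun_coe, (redFun_eq_zero_iff hΔ P).mpr hP, zero_add]
    exact some_eq_of_eq hx hy
  · obtain ⟨x₃, y₃, h₃, hsum, hx, hy⟩ := add_of_ker hΔ hφ hQ h₁
    rw [add_comm, hsum, redFun_coe, redFun_coe, (redFun_eq_zero_iff hΔ Q).mpr hQ, add_zero]
    exact some_eq_of_eq hx hy
  · by_cases hne : φ x₁ = φ x₂ ∧ φ y₁ = (W₀.map φ).negY (φ x₂) (φ y₂)
    · have := add_coe_of_eq hΔ hφ h₁ h₂ hne.1 hne.2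
      rw [(redFun_eq_zero_iff hΔ _).mpr this, redFun_coe, redFun_coe,
        Point.add_of_Y_eq hne.1 hne.2]
    · obtain ⟨x₃, y₃, h₃, hsum, hsum'⟩ := add_coe_of_ne hΔ hφ h₁ h₂ hne
      rw [hsum, redFun_coe, redFun_coe, redFun_coe, hsum']

variable (A φ W₀) in
/-- **The reduction homomorphism** `E(K) → Ẽ(k)` of a Weierstrass curve with good reduction. -/
noncomputable def redHom (hΔ : (W₀.map φ).Δ ≠ 0)
    (hφ : ∀ a : A, φ a = 0 ↔ (a : K) ∈ A.nonunits) :
    (W₀.map A.subtype).Point →+ (W₀.map φ).Point :=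
  AddMonoidHom.mk' (redFun A φ W₀ hΔ) (redFun_add hΔ hφ)

section api

variable (hΔ : (W₀.map φ).Δ ≠ 0) (hφ : ∀ a : A, φ a = 0 ↔ (a : K) ∈ A.nonunits)

lemma redHom_apply (P : (W₀.map A.subtype).Point) :
    redHom A φ W₀ hΔ hφ P = redFun A φ W₀ hΔ P := rfl

/-- reduction of a point with coordinates in `A` -/
lemma redHom_some_coe {x y : A} (h : (W₀.map A.subtype).Nonsingular (x : K) (y : K)) :
    redHom A φ W₀ hΔ hφ (Point.some _ _ h) =
      Point.some (φ x) (φ y) (nonsingular_red hΔ h.1) :=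
  redFun_coe hΔ h

/-- reduction of a point with integral `x`-coordinate -/
lemma redHom_some_of_mem {x y : K} (h : (W₀.map A.subtype).Nonsingular x y) (hx : x ∈ A) :
    ∃ (hy : y ∈ A) (h' : (W₀.map φ).Nonsingular (φ ⟨x, hx⟩) (φ ⟨y, hy⟩)),
      redHom A φ W₀ hΔ hφ (Point.some _ _ h) = Point.some (φ ⟨x, hx⟩) (φ ⟨y, hy⟩) h' :=
  ⟨y_mem W₀ h.1 hx, _, redFun_coe hΔ (x := ⟨x, hx⟩) (y := ⟨y, y_mem W₀ h.1 hx⟩) h⟩

/-- reduction of a point with non-integral `x`-coordinate -/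
lemma redHom_some_of_not_mem {x y : K} (h : (W₀.map A.subtype).Nonsingular x y) (hx : x ∉ A) :
    redHom A φ W₀ hΔ hφ (Point.some _ _ h) = 0 :=
  redFun_of_not_mem hΔ h hx

/-- the kernel of the reduction homomorphism is the kernel of reduction `kerRed` -/
lemma redHom_eq_zero_iff (P : (W₀.map A.subtype).Point) :
    redHom A φ W₀ hΔ hφ P = 0 ↔ P ∈ kerRed (isIntegralAt W₀) :=
  redFun_eq_zero_iff_mem_kerRed hΔ P

lemma redHom_eq_zero_iff' (P : (W₀.map A.subtype).Point) :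
    redHom A φ W₀ hΔ hφ P = 0 ↔
      (P = 0 ∨ ∃ (x y : K) (h : (W₀.map A.subtype).Nonsingular x y),
        P = Point.some x y h ∧ x ∉ A) :=
  redFun_eq_zero_iff hΔ P

/-- The reduction homomorphism is injective on `m`-torsion when `m` is a unit of `A`. -/
theorem eq_zero_of_redHom_eq_zero {m : ℕ} (hm0 : (m : K) ≠ 0) (hm : (m : K)⁻¹ ∈ A)
    {P : (W₀.map A.subtype).Point} (hP : m • P = 0) (hred : redHom A φ W₀ hΔ hφ P = 0) :
    P = 0 := by
  rcases (redHom_eq_zero_iff' hΔ hφ P).mp hred with h | ⟨x, y, h, rfl, hx⟩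
  · exact h
  · exact absurd hP (nsmul_ne_zero_of_not_mem A (isIntegralAt W₀) h hx hm0 hm)

theorem eq_of_redHom_eq {m : ℕ} (hm0 : (m : K) ≠ 0) (hm : (m : K)⁻¹ ∈ A)
    {P Q : (W₀.map A.subtype).Point} (hP : m • P = 0) (hQ : m • Q = 0)
    (hred : redHom A φ W₀ hΔ hφ P = redHom A φ W₀ hΔ hφ Q) : P = Q := by
  have h1 : m • (P - Q) = 0 := by rw [smul_sub, hP, hQ, sub_zero]
  have h2 : redHom A φ W₀ hΔ hφ (P - Q) = 0 := by rw [map_sub, hred, sub_self]
  exact sub_eq_zero.mp (eq_zero_of_redHom_eq_zero hΔ hφ hm0 hm h1 h2)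

end api

end Main

section convenience

variable {K : Type*} [Field K] (A : ValuationSubring K)

/-- The residue map of a valuation subring has the maximal ideal as kernel. -/
lemma residue_eq_zero_iff_mem_nonunits (a : A) :
    IsLocalRing.residue A a = 0 ↔ (a : K) ∈ A.nonunits := by
  rw [IsLocalRing.residue_eq_zero_iff, ValuationSubring.mem_nonunits_iff_exists_mem_maximalIdeal]
  constructor
  · intro h
    exact ⟨a.2, h⟩
  · rintro ⟨_, h⟩
    exact h

/-- The integral model of a Weierstrass curve with coefficients in `A`. -/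
def modelOfMem (W : WeierstrassCurve.Affine K) (h₁ : W.a₁ ∈ A) (h₂ : W.a₂ ∈ A) (h₃ : W.a₃ ∈ A)
    (h₄ : W.a₄ ∈ A) (h₆ : W.a₆ ∈ A) : WeierstrassCurve.Affine A :=
  ⟨⟨W.a₁, h₁⟩, ⟨W.a₂, h₂⟩, ⟨W.a₃, h₃⟩, ⟨W.a₄, h₄⟩, ⟨W.a₆, h₆⟩⟩

lemma modelOfMem_map (W : WeierstrassCurve.Affine K) (h₁ : W.a₁ ∈ A) (h₂ : W.a₂ ∈ A)
    (h₃ : W.a₃ ∈ A) (h₄ : W.a₄ ∈ A) (h₆ : W.a₆ ∈ A) :
    (modelOfMem A W h₁ h₂ h₃ h₄ h₆).map A.subtype = W := by
  ext <;> rfl

end convenience

end Fermat.Agent.H26
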