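/-
helper26: subtask 102 (P-S05, F1) in the exact shape requested by helper4:
the kernel of reduction of a short integral Weierstrass curve has no torsion of order
a unit for the valuation.  Corollary of `Fermat.Agent.H26.eq_zero_of_nsmul_eq_zero`.
-/
import Fermat.Agent.H26.KernelReduction
import Fermat.Agent.H4.Short

set_option autoImplicit false

namespace Fermat.Agent.H26

open WeierstrassCurve WeierstrassCurve.Affine

theorem inKer_of_inE1 {L : Type*} [Field L] {Γ₀ : Type*} [LinearOrderedCommGroupWithZero Γ₀]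
    {W : WeierstrassCurve.Affine L} (v : Valuation L Γ₀) {P : W.Point}
    (hP : Fermat.Agent.H4.InE1 v P) : InKer v P := by
  rcases P with _ | ⟨x, y, h⟩
  · trivial
  · exact hP

theorem inE1_of_inKer {L : Type*} [Field L] {Γ₀ : Type*} [LinearOrderedCommGroupWithZero Γ₀]
    {W : WeierstrassCurve.Affine L} (v : Valuation L Γ₀) {P : W.Point}
    (hP : InKer v P) : Fermat.Agent.H4.InE1 v P := by
  rcases P with _ | ⟨x, y, h⟩
  · trivial
  · exact hP

theorem isIntegralAt_of_isShort {L : Type*} [Field L] {Γ₀ : Type*}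
    [LinearOrderedCommGroupWithZero Γ₀] {W : WeierstrassCurve.Affine L}
    (hW : Fermat.Agent.H4.IsShort W) (v : Valuation L Γ₀) (h2 : v W.a₂ ≤ 1) (h4 : v W.a₄ ≤ 1)
    (h6 : v W.a₆ ≤ 1) : IsIntegralAt v W :=
  ⟨by rw [hW.a₁, map_zero]; exact zero_le_one, h2, by rw [hW.a₃, map_zero]; exact zero_le_one,
    h4, h6⟩

set_option linter.unusedVariables false in
/-- **F1, exact shape of subtask 102.** -/
theorem no_torsion_inE1 {L : Type*} [Field L] [DecidableEq L] {Γ₀ : Type*}
    [LinearOrderedCommGroupWithZero Γ₀] {W : WeierstrassCurve.Affine L}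
    (hW : Fermat.Agent.H4.IsShort W) (v : Valuation L Γ₀) (h2 : v W.a₂ ≤ 1) (h4 : v W.a₄ ≤ 1)
    (h6 : v W.a₆ ≤ 1) (hv2 : v 2 = 1) {n : ℕ} (hn : v (n : L) = 1) {P : W.Point}
    (hP : Fermat.Agent.H4.InE1 v P) (hnP : n • P = 0) : P = 0 :=
  eq_zero_of_nsmul_eq_zero (isIntegralAt_of_isShort hW v h2 h4 h6) (inKer_of_inE1 v hP) hn hnP

/-- The kernel of reduction is closed under addition (in the vocabulary of `H4`). -/
theorem inE1_add {L : Type*} [Field L] [DecidableEq L] {Γ₀ : Type*}
    [LinearOrderedCommGroupWithZero Γ₀] {W : WeierstrassCurve.Affine L} (v : Valuation L Γ₀)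
    (hW : IsIntegralAt v W) {P Q : W.Point} (hP : Fermat.Agent.H4.InE1 v P)
    (hQ : Fermat.Agent.H4.InE1 v Q) : Fermat.Agent.H4.InE1 v (P + Q) :=
  inE1_of_inKer v ((kerRed hW).add_mem (inKer_of_inE1 v hP) (inKer_of_inE1 v hQ))

/-- The kernel of reduction is closed under negation (in the vocabulary of `H4`). -/
theorem inE1_neg {L : Type*} [Field L] [DecidableEq L] {Γ₀ : Type*}
    [LinearOrderedCommGroupWithZero Γ₀] {W : WeierstrassCurve.Affine L} (v : Valuation L Γ₀)
    (hW : IsIntegralAt v W) {P : W.Point} (hP : Fermat.Agent.H4.InE1 v P) :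
    Fermat.Agent.H4.InE1 v (-P) :=
  inE1_of_inKer v ((kerRed hW).neg_mem (inKer_of_inE1 v hP))

/-- The kernel of reduction is closed under subtraction (in the vocabulary of `H4`). -/
theorem inE1_sub' {L : Type*} [Field L] [DecidableEq L] {Γ₀ : Type*}
    [LinearOrderedCommGroupWithZero Γ₀] {W : WeierstrassCurve.Affine L} (v : Valuation L Γ₀)
    (hW : IsIntegralAt v W) {P Q : W.Point} (hP : Fermat.Agent.H4.InE1 v P)
    (hQ : Fermat.Agent.H4.InE1 v Q) : Fermat.Agent.H4.InE1 v (P - Q) :=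
  inE1_of_inKer v ((kerRed hW).sub_mem (inKer_of_inE1 v hP) (inKer_of_inE1 v hQ))

/-- The kernel of reduction is closed under multiples (in the vocabulary of `H4`). -/
theorem inE1_nsmul {L : Type*} [Field L] [DecidableEq L] {Γ₀ : Type*}
    [LinearOrderedCommGroupWithZero Γ₀] {W : WeierstrassCurve.Affine L} (v : Valuation L Γ₀)
    (hW : IsIntegralAt v W) {P : W.Point} (hP : Fermat.Agent.H4.InE1 v P) (k : ℕ) :
    Fermat.Agent.H4.InE1 v (k • P) :=
  inE1_of_inKer v ((kerRed hW).nsmul_mem (inKer_of_inE1 v hP) k)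

end Fermat.Agent.H26
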