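import Mathlib.FieldTheory.RatFunc.AsPolynomial
import Mathlib.RingTheory.Valuation.ValuationSubring

/-!
# Evaluation of rational functions over `F` at a point of an extension field

For fields `F`, `L`, a ring homomorphism `f : F →+* L` and `x : L` we construct

* `regularAtMap f x : ValuationSubring (RatFunc F)`, the rational functions whose (reduced)
  denominator does not vanish at `x` (all of `RatFunc F` when `x` is transcendental over `F`);
* `evalAtMap f x : regularAtMap f x →+* L`, evaluation at `x`;
* `evalAtMap_eq_zero_iff`: the kernel of `evalAtMap f x` is the maximal ideal (in the `nonunits`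
  form used by `Fermat.Agent.H26.redHom`).
-/

set_option autoImplicit false

namespace Fermat.Agent.H26

open Polynomial

variable {F L : Type*} [Field F] [Field L]

/-- The valuation subring of `RatFunc F` of rational functions regular at `x : L`. -/
def regularAtMap (f : F →+* L) (x : L) : ValuationSubring (RatFunc F) where
  carrier := {r | r.denom.eval₂ f x ≠ 0}
  mul_mem' := by
    intro r s hr hs
    simp only [Set.mem_ofPred_eq] at hr hs ⊢
    intro h
    have := Polynomial.eval₂_eq_zero_of_dvd_of_eval₂_eq_zero f x (RatFunc.denom_mul_dvd r s) h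
    rw [Polynomial.eval₂_mul] at this
    rcases mul_eq_zero.mp this with h' | h'
    · exact hr h'
    · exact hs h'
  one_mem' := by simp [RatFunc.denom_one]
  add_mem' := by
    intro r s hr hs
    simp only [Set.mem_ofPred_eq] at hr hs ⊢
    intro h
    have := Polynomial.eval₂_eq_zero_of_dvd_of_eval₂_eq_zero f x (RatFunc.denom_add_dvd r s) h
    rw [Polynomial.eval₂_mul] at this
    rcases mul_eq_zero.mp this with h' | h'
    · exact hr h'
    · exact hs h'
  zero_mem' := by simp [RatFunc.denom_zero]
  neg_mem' := by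
    intro r hr
    simp only [Set.mem_ofPred_eq] at hr ⊢
    intro h
    have h1 : -r = algebraMap F[X] (RatFunc F) (-1) * r := by
      rw [map_neg, map_one, neg_one_mul]
    rw [h1] at h
    have := Polynomial.eval₂_eq_zero_of_dvd_of_eval₂_eq_zero f x (RatFunc.denom_mul_dvd _ r) h
    rw [RatFunc.denom_algebraMap, one_mul] at this
    exact hr this
  mem_or_inv_mem' := by
    intro r
    by_cases hr : r.denom.eval₂ f x = 0
    · right
      have hr0 : r ≠ 0 := by
        rintro rfl
        simp [RatFunc.denom_zero] at hr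
      show r⁻¹.denom.eval₂ f x ≠ 0
      intro h
      have h2 := Polynomial.eval₂_eq_zero_of_dvd_of_eval₂_eq_zero f x
        (RatFunc.denom_inv_dvd hr0) h
      obtain ⟨u, v, huv⟩ := RatFunc.isCoprime_num_denom r
      have := congrArg (Polynomial.eval₂ f x) huv
      simp [Polynomial.eval₂_add, Polynomial.eval₂_mul, h2, hr] at this
    · left
      exact hr

section

variable {f : F →+* L} {x : L}

lemma mem_regularAtMap_iff {r : RatFunc F} : r ∈ regularAtMap f x ↔ r.denom.eval₂ f x ≠ 0 :=
  Iff.rfl

variable (f x)

lemma algebraMap_mem_regularAtMap (p : F[X]) :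
    algebraMap F[X] (RatFunc F) p ∈ regularAtMap f x := by
  rw [mem_regularAtMap_iff, RatFunc.denom_algebraMap]
  simp

lemma C_mem_regularAtMap (c : F) : (RatFunc.C c : RatFunc F) ∈ regularAtMap f x := by
  rw [← RatFunc.algebraMap_C]
  exact algebraMap_mem_regularAtMap f x _

lemma X_mem_regularAtMap : (RatFunc.X : RatFunc F) ∈ regularAtMap f x := by
  rw [← RatFunc.algebraMap_X]
  exact algebraMap_mem_regularAtMap f x _

variable {f x}

lemma div_mem_regularAtMap (p : F[X]) {q : F[X]} (hq : q.eval₂ f x ≠ 0) :
    algebraMap F[X] (RatFunc F) p / algebraMap F[X] (RatFunc F) q ∈ regularAtMap f x := by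
  rw [mem_regularAtMap_iff]
  intro h
  exact hq (Polynomial.eval₂_eq_zero_of_dvd_of_eval₂_eq_zero f x (RatFunc.denom_div_dvd p q) h)

variable (f x)

/-- Evaluation of a rational function at `x` (junk value `0` at poles); universe-polymorphic
version of `RatFunc.eval`. -/
noncomputable def evalFun (r : RatFunc F) : L :=
  r.num.eval₂ f x / r.denom.eval₂ f x

lemma evalFun_add {r s : RatFunc F} (hr : r.denom.eval₂ f x ≠ 0) (hs : s.denom.eval₂ f x ≠ 0) :
    evalFun f x (r + s) = evalFun f x r + evalFun f x s := by
  unfold evalFun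
  by_cases hrs : Polynomial.eval₂ f x (RatFunc.denom (r + s)) = 0
  · have := Polynomial.eval₂_eq_zero_of_dvd_of_eval₂_eq_zero f x (RatFunc.denom_add_dvd r s) hrs
    rw [Polynomial.eval₂_mul] at this
    rcases mul_eq_zero.mp this with h | h
    · exact absurd h hr
    · exact absurd h hs
  rw [div_add_div _ _ hr hs, eq_div_iff (mul_ne_zero hr hs), div_eq_mul_inv, mul_right_comm, ←
    div_eq_mul_inv, div_eq_iff hrs]
  simp only [← Polynomial.eval₂_mul, ← Polynomial.eval₂_add]
  congr 1
  apply RatFunc.num_denom_add

lemma evalFun_mul {r s : RatFunc F} (hr : r.denom.eval₂ f x ≠ 0) (hs : s.denom.eval₂ f x ≠ 0) :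
    evalFun f x (r * s) = evalFun f x r * evalFun f x s := by
  unfold evalFun
  by_cases hrs : Polynomial.eval₂ f x (RatFunc.denom (r * s)) = 0
  · have := Polynomial.eval₂_eq_zero_of_dvd_of_eval₂_eq_zero f x (RatFunc.denom_mul_dvd r s) hrs
    rw [Polynomial.eval₂_mul] at this
    rcases mul_eq_zero.mp this with h | h
    · exact absurd h hr
    · exact absurd h hs
  rw [div_mul_div_comm, eq_div_iff (mul_ne_zero hr hs), div_eq_mul_inv, mul_right_comm, ←
    div_eq_mul_inv, div_eq_iff hrs]
  repeat' rw [← Polynomial.eval₂_mul]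
  congr 1
  apply RatFunc.num_denom_mul

lemma evalFun_algebraMap (p : F[X]) :
    evalFun f x (algebraMap F[X] (RatFunc F) p) = p.eval₂ f x := by
  simp [evalFun]

/-- Evaluation at `x` as a ring homomorphism on the functions regular at `x`. -/
noncomputable def evalAtMap : regularAtMap f x →+* L where
  toFun r := evalFun f x (r : RatFunc F)
  map_one' := by
    show evalFun f x (1 : RatFunc F) = 1
    simp [evalFun]
  map_mul' r s := evalFun_mul f x r.2 s.2
  map_zero' := by
    show evalFun f x (0 : RatFunc F) = 0
    simp [evalFun]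
  map_add' r s := evalFun_add f x r.2 s.2

lemma evalAtMap_apply (r : regularAtMap f x) :
    evalAtMap f x r = (r : RatFunc F).num.eval₂ f x / (r : RatFunc F).denom.eval₂ f x := rfl

@[simp]
lemma evalAtMap_algebraMap (p : F[X]) :
    evalAtMap f x ⟨algebraMap F[X] (RatFunc F) p, algebraMap_mem_regularAtMap f x p⟩ =
      p.eval₂ f x :=
  evalFun_algebraMap f x p

@[simp]
lemma evalAtMap_C (c : F) : evalAtMap f x ⟨RatFunc.C c, C_mem_regularAtMap f x c⟩ = f c := by
  show evalFun f x (RatFunc.C c) = _
  rw [← RatFunc.algebraMap_C, evalFun_algebraMap, Polynomial.eval₂_C]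

@[simp]
lemma evalAtMap_X : evalAtMap f x ⟨RatFunc.X, X_mem_regularAtMap f x⟩ = x := by
  show evalFun f x RatFunc.X = _
  rw [← RatFunc.algebraMap_X, evalFun_algebraMap, Polynomial.eval₂_X]

/-- Evaluation of an element given as a coercion of a polynomial. -/
lemma evalAtMap_of_eq_algebraMap (r : regularAtMap f x) (p : F[X])
    (h : (r : RatFunc F) = algebraMap F[X] (RatFunc F) p) : evalAtMap f x r = p.eval₂ f x := by
  have : r = ⟨algebraMap F[X] (RatFunc F) p, algebraMap_mem_regularAtMap f x p⟩ := Subtype.ext h
  rw [this, evalAtMap_algebraMap]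

variable {f x}

/-- A function regular at `x` is a unit of `regularAtMap f x` iff it does not vanish at `x`. -/
lemma isUnit_iff_evalAtMap_ne_zero (r : regularAtMap f x) : IsUnit r ↔ evalAtMap f x r ≠ 0 := by
  constructor
  · intro h
    exact (h.map (evalAtMap f x)).ne_zero
  · intro h
    have hnum : (r : RatFunc F).num.eval₂ f x ≠ 0 := by
      intro h0
      apply h
      rw [evalAtMap_apply, h0, zero_div]
    have hr0 : (r : RatFunc F) ≠ 0 := by
      intro h0
      apply hnum
      rw [h0, RatFunc.num_zero]
      simp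
    have hinv : (r : RatFunc F)⁻¹ ∈ regularAtMap f x := by
      rw [mem_regularAtMap_iff]
      intro h0
      exact hnum (Polynomial.eval₂_eq_zero_of_dvd_of_eval₂_eq_zero f x
        (RatFunc.denom_inv_dvd hr0) h0)
    refine IsUnit.of_mul_eq_one (⟨(r : RatFunc F)⁻¹, hinv⟩ : regularAtMap f x) ?_
    apply Subtype.ext
    show (r : RatFunc F) * (r : RatFunc F)⁻¹ = 1
    exact mul_inv_cancel₀ hr0

variable (f x)

/-- The kernel of `evalAtMap f x` is the maximal ideal of `regularAtMap f x`. -/
theorem evalAtMap_eq_zero_iff (r : regularAtMap f x) :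
    evalAtMap f x r = 0 ↔ (r : RatFunc F) ∈ (regularAtMap f x).nonunits := by
  rw [ValuationSubring.coe_mem_nonunits_iff, IsLocalRing.mem_maximalIdeal, mem_nonunits_iff,
    isUnit_iff_evalAtMap_ne_zero, not_not]

end

end Fermat.Agent.H26
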