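import Fermat.Agent.H26.RatFuncSpec
import Fermat.Agent.H26.RatFuncEvalMap

/-!
# Specialisation of points of a Weierstrass curve over `RatFunc F` at a point of an extension

Let `Wp` be a Weierstrass curve with coefficients in `F[X]`, `f : F →+* L` a homomorphism of
fields and `x : L` with `Wp.Δ.eval₂ f x ≠ 0`.  We obtain the specialisation homomorphism

`specHomMap Wp f x hΔ :
  (Wp.map (algebraMap F[X] (RatFunc F))).Point →+ (Wp.map (eval₂RingHom f x)).Point`

sending a point with coordinates regular at `x` to the point with the evaluated coordinates.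
-/

set_option autoImplicit false

namespace Fermat.Agent.H26

open Polynomial WeierstrassCurve WeierstrassCurve.Affine

variable {F L : Type*} [Field F] [Field L]

/-- Polynomials, viewed as rational functions regular at `x`. -/
noncomputable def polyToRegularMap (f : F →+* L) (x : L) : F[X] →+* regularAtMap f x :=
  (algebraMap F[X] (RatFunc F)).codRestrict (regularAtMap f x) (algebraMap_mem_regularAtMap f x)

@[simp]
lemma coe_polyToRegularMap (f : F →+* L) (x : L) (p : F[X]) :
    ((polyToRegularMap f x p : regularAtMap f x) : RatFunc F) = algebraMap F[X] (RatFunc F) p :=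
  rfl

@[simp]
lemma evalAtMap_polyToRegularMap (f : F →+* L) (x : L) (p : F[X]) :
    evalAtMap f x (polyToRegularMap f x p) = p.eval₂ f x :=
  evalAtMap_algebraMap f x p

lemma evalAtMap_comp_polyToRegularMap (f : F →+* L) (x : L) :
    (evalAtMap f x).comp (polyToRegularMap f x) = Polynomial.eval₂RingHom f x := by
  apply RingHom.ext
  intro p
  simp

/-- The model over `regularAtMap f x` of a Weierstrass curve with polynomial coefficients. -/
noncomputable def specModelMap (Wp : WeierstrassCurve F[X]) (f : F →+* L) (x : L) :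
    WeierstrassCurve.Affine (regularAtMap f x) :=
  Wp.map (polyToRegularMap f x)

lemma specModelMap_map_subtype (Wp : WeierstrassCurve F[X]) (f : F →+* L) (x : L) :
    (specModelMap Wp f x).map (regularAtMap f x).subtype =
      Wp.map (algebraMap F[X] (RatFunc F)) := rfl

lemma specModelMap_map_evalAtMap (Wp : WeierstrassCurve F[X]) (f : F →+* L) (x : L) :
    (specModelMap Wp f x).map (evalAtMap f x) = Wp.map (Polynomial.eval₂RingHom f x) := by
  show (Wp.map (polyToRegularMap f x)).map (evalAtMap f x) = Wp.map (Polynomial.eval₂RingHom f x)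
  rw [WeierstrassCurve.map_map, evalAtMap_comp_polyToRegularMap]

lemma specModelMap_Δ_ne_zero (Wp : WeierstrassCurve F[X]) (f : F →+* L) (x : L)
    (hΔ : Wp.Δ.eval₂ f x ≠ 0) : ((specModelMap Wp f x).map (evalAtMap f x)).Δ ≠ 0 := by
  rw [specModelMap_map_evalAtMap, WeierstrassCurve.map_Δ]
  exact hΔ

variable [DecidableEq L] [DecidableEq (RatFunc F)]

/-- **Specialisation homomorphism** at `x : L` for a Weierstrass curve with coefficients in
`F[X]` whose discriminant does not vanish at `x`. -/
noncomputable def specHomMap (Wp : WeierstrassCurve F[X]) (f : F →+* L) (x : L)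
    (hΔ : Wp.Δ.eval₂ f x ≠ 0) :
    (Wp.map (algebraMap F[X] (RatFunc F))).toAffine.Point →+
      (Wp.map (Polynomial.eval₂RingHom f x)).toAffine.Point :=
  ((pointCongr (specModelMap_map_evalAtMap Wp f x)).toAddMonoidHom.comp
    (redHom (regularAtMap f x) (evalAtMap f x) (specModelMap Wp f x)
      (specModelMap_Δ_ne_zero Wp f x hΔ) (evalAtMap_eq_zero_iff f x))).comp
    (pointCongr (specModelMap_map_subtype Wp f x).symm).toAddMonoidHom

variable (Wp : WeierstrassCurve F[X]) (f : F →+* L) (x : L) (hΔ : Wp.Δ.eval₂ f x ≠ 0)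

/-- A point whose `x`-coordinate is regular at `x` has `y`-coordinate regular at `x`, and
specialises to the point with the evaluated coordinates. -/
theorem specHomMap_some_of_mem {X Y : RatFunc F}
    (h : (Wp.map (algebraMap F[X] (RatFunc F))).toAffine.Nonsingular X Y)
    (hX : X ∈ regularAtMap f x) :
    ∃ (hY : Y ∈ regularAtMap f x)
      (h' : (Wp.map (Polynomial.eval₂RingHom f x)).toAffine.Nonsingular
        (evalAtMap f x ⟨X, hX⟩) (evalAtMap f x ⟨Y, hY⟩)),
      specHomMap Wp f x hΔ (Point.some X Y h) = Point.some _ _ h' := by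
  have h1 : ((specModelMap Wp f x).map (regularAtMap f x).subtype).toAffine.Nonsingular X Y :=
    (specModelMap_map_subtype Wp f x).symm ▸ h
  obtain ⟨hY, h2, e⟩ := redHom_some_of_mem (specModelMap_Δ_ne_zero Wp f x hΔ)
    (evalAtMap_eq_zero_iff f x) h1 hX
  refine ⟨hY, (specModelMap_map_evalAtMap Wp f x) ▸ h2, ?_⟩
  simp only [specHomMap, AddMonoidHom.coe_comp, AddEquiv.coe_toAddMonoidHom, Function.comp_apply]
  rw [pointCongr_some, e, pointCongr_some]

/-- A point with polynomial coordinates specialises to the point with the evaluated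
coordinates. -/
theorem specHomMap_some_poly {p q : F[X]}
    (h : (Wp.map (algebraMap F[X] (RatFunc F))).toAffine.Nonsingular
      (algebraMap F[X] (RatFunc F) p) (algebraMap F[X] (RatFunc F) q)) :
    ∃ h' : (Wp.map (Polynomial.eval₂RingHom f x)).toAffine.Nonsingular
        (p.eval₂ f x) (q.eval₂ f x),
      specHomMap Wp f x hΔ (Point.some _ _ h) = Point.some _ _ h' := by
  obtain ⟨hY, h', e⟩ := specHomMap_some_of_mem Wp f x hΔ h (algebraMap_mem_regularAtMap f x p)
  have ex : evalAtMap f x ⟨algebraMap F[X] (RatFunc F) p, algebraMap_mem_regularAtMap f x p⟩ =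
      p.eval₂ f x := evalAtMap_algebraMap f x p
  have ey : evalAtMap f x ⟨algebraMap F[X] (RatFunc F) q, hY⟩ = q.eval₂ f x :=
    evalAtMap_of_eq_algebraMap f x _ q rfl
  obtain ⟨h'', e'⟩ := Red.some_congr h' ex ey
  exact ⟨h'', e.trans e'⟩

/-- A point whose coordinates are (equal to) polynomials specialises to the point with the
evaluated coordinates. -/
theorem specHomMap_some_eq_poly {X Y : RatFunc F} {p q : F[X]}
    (h : (Wp.map (algebraMap F[X] (RatFunc F))).toAffine.Nonsingular X Y)
    (hX : X = algebraMap F[X] (RatFunc F) p) (hY : Y = algebraMap F[X] (RatFunc F) q) :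
    ∃ h' : (Wp.map (Polynomial.eval₂RingHom f x)).toAffine.Nonsingular
        (p.eval₂ f x) (q.eval₂ f x),
      specHomMap Wp f x hΔ (Point.some _ _ h) = Point.some _ _ h' := by
  subst hX hY
  exact specHomMap_some_poly Wp f x hΔ h

/-- A point whose `x`-coordinate has a pole at `x` specialises to `0`. -/
theorem specHomMap_some_of_not_mem {X Y : RatFunc F}
    (h : (Wp.map (algebraMap F[X] (RatFunc F))).toAffine.Nonsingular X Y)
    (hX : X ∉ regularAtMap f x) : specHomMap Wp f x hΔ (Point.some X Y h) = 0 := by
  have h1 : ((specModelMap Wp f x).map (regularAtMap f x).subtype).toAffine.Nonsingular X Y :=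
    (specModelMap_map_subtype Wp f x).symm ▸ h
  simp only [specHomMap, AddMonoidHom.coe_comp, AddEquiv.coe_toAddMonoidHom, Function.comp_apply]
  rw [pointCongr_some, redHom_some_of_not_mem _ _ h1 hX, pointCongr_zero]

end Fermat.Agent.H26
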