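import Fermat.Agent.H74.TwistHasse
import Fermat.Agent.H26.RatFuncSpecMap

/-!
# B7: specialisation of the Hasse relation from the twist to points (helper26, P-S52 / WP-B7)

Let `E : y² = x³ + a x + b` over `ZMod ℓ` (`ℓ ≠ 2`, `4a³ + 27b² ≠ 0`).  Assume the Hasse relation
`2 • (F² P - (ℓ + 1 - N) • F P + ℓ • P) = 0` for the Frobenius endomorphism `F` of the quadratic
twist of `E` by `f(t)` over `RatFunc (ZMod ℓ)` (this is `Fermat.Agent.H74.twist_hasse`).
Then for every field extension `L` of `ZMod ℓ` and every point `(x, y)` of `E(L)`: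
`2 • ((x^(ℓ²), y^(ℓ²)) - (ℓ + 1 - N) • (x^ℓ, y^ℓ) + ℓ • (x, y)) = 0`.

Route: specialise the generic point `P₀ = (t f, f²)` of the twist at `t = x` (`specHomMap`) and
undo the twist by the change of variables `u = y⁻¹`.
-/

set_option autoImplicit false

namespace Fermat.Agent.H26

open Polynomial WeierstrassCurve WeierstrassCurve.Affine

section model

variable {F : Type*} [Field F]

/-- The cubic `X³ + a X + b`. -/
noncomputable def cubicPoly (a b : F) : F[X] := X ^ 3 + C a * X + C b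

/-- The polynomial model `Y² = X³ + a f² X + b f³` of the twist. -/
noncomputable def twModel (a b : F) : WeierstrassCurve F[X] where
  a₁ := 0
  a₂ := 0
  a₃ := 0
  a₄ := C a * cubicPoly a b ^ 2
  a₆ := C b * cubicPoly a b ^ 3

lemma algebraMap_cubicPoly (a b : F) :
    algebraMap F[X] (RatFunc F) (cubicPoly a b) = Fermat.Agent.H74.twF a b := by
  rw [Fermat.Agent.H74.twF_eq_algebraMap, cubicPoly]

lemma twModel_map (a b : F) :
    (twModel a b).map (algebraMap F[X] (RatFunc F)) = Fermat.Agent.H74.twCurve a b := by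
  ext
  · simp [twModel, Fermat.Agent.H74.twCurve]
  · simp [twModel, Fermat.Agent.H74.twCurve]
  · simp [twModel, Fermat.Agent.H74.twCurve]
  · simp only [WeierstrassCurve.map_a₄, twModel, Fermat.Agent.H74.twCurve, map_mul, map_pow,
      algebraMap_cubicPoly, RatFunc.algebraMap_C]
  · simp only [WeierstrassCurve.map_a₆, twModel, Fermat.Agent.H74.twCurve, map_mul, map_pow,
      algebraMap_cubicPoly, RatFunc.algebraMap_C]

end model

section untwist

variable {F L : Type*} [Field F] [Field L] (f : F →+* L) (a b : F)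

/-- The change of variables `u = y⁻¹` undoing the specialised twist. -/
noncomputable def untwistVC {y : L} (hy : y ≠ 0) : VariableChange L :=
  ⟨(Units.mk0 y hy)⁻¹, 0, 0, 0⟩

lemma untwistVC_u_inv {y : L} (hy : y ≠ 0) :
    (((untwistVC hy).u⁻¹ : Lˣ) : L) = y := by
  simp [untwistVC]

lemma untwistVC_u {y : L} (hy : y ≠ 0) : (((untwistVC hy).u : Lˣ) : L) = y⁻¹ := by
  simp [untwistVC]

lemma eval₂_cubicPoly (x : L) :
    (cubicPoly a b).eval₂ f x = x ^ 3 + f a * x + f b := by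
  simp [cubicPoly, Polynomial.eval₂_add, Polynomial.eval₂_mul, Polynomial.eval₂_pow]

/-- The specialised twist is the variable change of `E` by `u = y⁻¹` when `y² = f(x)`. -/
lemma twModel_map_eval₂ {x y : L} (hy : y ≠ 0) (hxy : y ^ 2 = x ^ 3 + f a * x + f b) :
    (twModel a b).map (Polynomial.eval₂RingHom f x) =
      untwistVC hy • (Fermat.Agent.H74.shortCurve a b).map f := by
  have hc := eval₂_cubicPoly f a b x
  ext
  · simp [twModel, Fermat.Agent.H74.shortCurve, variableChange_a₁, untwistVC]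
  · simp [twModel, Fermat.Agent.H74.shortCurve, variableChange_a₂, untwistVC]
  · simp [twModel, Fermat.Agent.H74.shortCurve, variableChange_a₃, untwistVC]
  · simp only [WeierstrassCurve.map_a₄, twModel, variableChange_a₄, untwistVC_u_inv,
      Fermat.Agent.H74.shortCurve, WeierstrassCurve.map_a₁, WeierstrassCurve.map_a₂,
      WeierstrassCurve.map_a₃, Polynomial.coe_eval₂RingHom, Polynomial.eval₂_mul,
      Polynomial.eval₂_pow, Polynomial.eval₂_C, hc, ← hxy]
    simp [untwistVC]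
    ring
  · simp only [WeierstrassCurve.map_a₆, twModel, variableChange_a₆, untwistVC_u_inv,
      Fermat.Agent.H74.shortCurve, WeierstrassCurve.map_a₁, WeierstrassCurve.map_a₂,
      WeierstrassCurve.map_a₃, WeierstrassCurve.map_a₄, Polynomial.coe_eval₂RingHom,
      Polynomial.eval₂_mul, Polynomial.eval₂_pow, Polynomial.eval₂_C, hc, ← hxy]
    simp [untwistVC]
    ring

lemma shortCurve_Δ (a b : L) :
    (Fermat.Agent.H74.shortCurve a b).Δ = -16 * (4 * a ^ 3 + 27 * b ^ 2) := by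
  simp only [WeierstrassCurve.Δ, WeierstrassCurve.b₂, WeierstrassCurve.b₄, WeierstrassCurve.b₆,
    WeierstrassCurve.b₈, Fermat.Agent.H74.shortCurve]
  ring

lemma twModel_Δ_eval₂_ne_zero (h2 : (2 : L) ≠ 0) (hΔ : 4 * (f a) ^ 3 + 27 * (f b) ^ 2 ≠ 0)
    {x y : L} (hy : y ≠ 0) (hxy : y ^ 2 = x ^ 3 + f a * x + f b) :
    (twModel a b).Δ.eval₂ f x ≠ 0 := by
  have h1 : (twModel a b).Δ.eval₂ f x =
      ((twModel a b).map (Polynomial.eval₂RingHom f x)).Δ := by
    rw [WeierstrassCurve.map_Δ]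
    rfl
  have h3 : (Fermat.Agent.H74.shortCurve a b).map f = Fermat.Agent.H74.shortCurve (f a) (f b) := by
    ext <;> simp [Fermat.Agent.H74.shortCurve]
  rw [h1, twModel_map_eval₂ f a b hy hxy, variableChange_Δ, untwistVC_u_inv, h3, shortCurve_Δ]
  have h16 : (16 : L) ≠ 0 := by
    have : (16 : L) = 2 ^ 4 := by norm_num
    rw [this]
    exact pow_ne_zero _ h2
  refine mul_ne_zero (pow_ne_zero _ hy) (mul_ne_zero ?_ hΔ)
  exact neg_ne_zero.mpr h16

end untwist

section main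

variable {F L : Type*} [Field F] [Field L] [DecidableEq L] [DecidableEq (RatFunc F)]
variable (f : F →+* L) (a b : F)

/-- Specialisation at `t = x` followed by the untwisting change of variables: a homomorphism
from the points of the twist over `RatFunc F` to the points of `E` over `L`. -/
noncomputable def untwistHom (h2 : (2 : L) ≠ 0) (hΔ : 4 * (f a) ^ 3 + 27 * (f b) ^ 2 ≠ 0)
    {x y : L} (hy : y ≠ 0) (hxy : y ^ 2 = x ^ 3 + f a * x + f b) :
    (Fermat.Agent.H74.twCurve a b).toAffine.Point →+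
      ((Fermat.Agent.H74.shortCurve a b).map f).toAffine.Point :=
  (Fermat.Agent.H46.vcPointHom (untwistVC hy) ((Fermat.Agent.H74.shortCurve a b).map f)).comp
    ((pointCongr (twModel_map_eval₂ f a b hy hxy)).toAddMonoidHom.comp
      ((specHomMap (twModel a b) f x (twModel_Δ_eval₂_ne_zero f a b h2 hΔ hy hxy)).comp
        (pointCongr (twModel_map a b).symm).toAddMonoidHom))

variable {f a b}

/-- Value of `untwistHom` on a point with polynomial coordinates. -/
lemma untwistHom_some (h2 : (2 : L) ≠ 0) (hΔ : 4 * (f a) ^ 3 + 27 * (f b) ^ 2 ≠ 0)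
    {x y : L} (hy : y ≠ 0) (hxy : y ^ 2 = x ^ 3 + f a * x + f b)
    {X Y : RatFunc F} (h : (Fermat.Agent.H74.twCurve a b).toAffine.Nonsingular X Y)
    {p q : F[X]} (hX : X = algebraMap F[X] (RatFunc F) p)
    (hY : Y = algebraMap F[X] (RatFunc F) q) {x' y' : L}
    (hx' : x' = (y⁻¹) ^ 2 * p.eval₂ f x) (hy' : y' = (y⁻¹) ^ 3 * q.eval₂ f x) :
    ∃ h' : ((Fermat.Agent.H74.shortCurve a b).map f).toAffine.Nonsingular x' y',
      untwistHom f a b h2 hΔ hy hxy (Point.some X Y h) = Point.some x' y' h' := by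
  have hns : ((twModel a b).map (algebraMap F[X] (RatFunc F))).toAffine.Nonsingular X Y :=
    (twModel_map a b).symm ▸ h
  obtain ⟨h1, e1⟩ := specHomMap_some_eq_poly (twModel a b) f x
    (twModel_Δ_eval₂_ne_zero f a b h2 hΔ hy hxy) hns hX hY
  have e0 : untwistHom f a b h2 hΔ hy hxy (Point.some X Y h) =
      Fermat.Agent.H46.vcPointHom (untwistVC hy) ((Fermat.Agent.H74.shortCurve a b).map f)
        (Point.some (p.eval₂ f x) (q.eval₂ f x) ((twModel_map_eval₂ f a b hy hxy) ▸ h1)) := by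
    simp only [untwistHom, AddMonoidHom.coe_comp, AddEquiv.coe_toAddMonoidHom,
      Function.comp_apply]
    rw [pointCongr_some, e1, pointCongr_some]
  have e2 : Fermat.Agent.H46.vcPointHom (untwistVC hy)
      ((Fermat.Agent.H74.shortCurve a b).map f)
        (Point.some (p.eval₂ f x) (q.eval₂ f x) ((twModel_map_eval₂ f a b hy hxy) ▸ h1)) =
      Point.some _ _ ((Fermat.Agent.H46.vc_nonsingular (untwistVC hy)
        ((Fermat.Agent.H74.shortCurve a b).map f) _ _).mp
          ((twModel_map_eval₂ f a b hy hxy) ▸ h1)) := rfl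
  have ex : Fermat.Agent.H46.vcX (untwistVC hy) (p.eval₂ f x) = x' := by
    rw [hx', Fermat.Agent.H46.vcX, untwistVC_u]
    simp [untwistVC]
  have ey : Fermat.Agent.H46.vcY (untwistVC hy) (p.eval₂ f x) (q.eval₂ f x) = y' := by
    rw [hy', Fermat.Agent.H46.vcY, untwistVC_u]
    simp [untwistVC]
  obtain ⟨h', e3⟩ := Red.some_congr ((Fermat.Agent.H46.vc_nonsingular (untwistVC hy)
        ((Fermat.Agent.H74.shortCurve a b).map f) _ _).mp
          ((twModel_map_eval₂ f a b hy hxy) ▸ h1)) ex ey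
  exact ⟨h', e0.trans (e2.trans e3)⟩

end main

section aux

variable {K : Type*} [Field K]

lemma hp_aux_x {y c : K} (X : K) (hy : y ≠ 0) (hc : c = y ^ 2) : X = (y⁻¹) ^ 2 * (X * c) := by
  subst hc
  field_simp

lemma hp_aux_y {y c : K} (hy : y ≠ 0) (hc : c = y ^ 2) (k n : ℕ) (hk : 2 * k = n + 3) :
    y ^ n = (y⁻¹) ^ 3 * c ^ k := by
  subst hc
  rw [← pow_mul, hk, pow_add]
  field_simp

lemma hp_frob_X {T f : K} (hf : f ≠ 0) {n : ℕ} (hn : 1 ≤ n) :
    (T * f) ^ n / f ^ (n - 1) = T ^ n * f := by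
  rw [div_eq_iff (pow_ne_zero _ hf), mul_pow, mul_assoc, ← pow_succ']
  congr 2
  omega

lemma hp_frob_Y {f : K} (hf : f ≠ 0) (e n j k : ℕ) (h : e * n = j + k) :
    (f ^ e) ^ n / f ^ j = f ^ k := by
  rw [div_eq_iff (pow_ne_zero _ hf), ← pow_mul, h, pow_add, mul_comm]

end aux

section hasse

variable {ℓ : ℕ} [Fact ℓ.Prime] [DecidableEq (RatFunc (ZMod ℓ))] {a b : ZMod ℓ}
variable {L : Type*} [Field L] [DecidableEq L]

/-- **B7**, for an arbitrary ring homomorphism `f : ZMod ℓ →+* L`. -/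
theorem hassePoint_of_twist_ringHom (f : ZMod ℓ →+* L) (hℓ : ℓ ≠ 2)
    (hΔ : 4 * a ^ 3 + 27 * b ^ 2 ≠ 0) (N : ℤ)
    (hH : ∀ P : (Fermat.Agent.H74.twCurve a b).toAffine.Point,
      2 • (Fermat.Agent.H74.twFrob ℓ a b hℓ (Fermat.Agent.H74.twFrob ℓ a b hℓ P)
        - ((ℓ : ℤ) + 1 - N) • Fermat.Agent.H74.twFrob ℓ a b hℓ P + (ℓ : ℤ) • P) = 0)
    (x y : L)
    (h : ((Fermat.Agent.H74.shortCurve a b).map f).toAffine.Nonsingular x y)
    (h1 : ((Fermat.Agent.H74.shortCurve a b).map f).toAffine.Nonsingular (x ^ ℓ) (y ^ ℓ))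
    (h2 : ((Fermat.Agent.H74.shortCurve a b).map f).toAffine.Nonsingular
      (x ^ (ℓ ^ 2)) (y ^ (ℓ ^ 2))) :
    (2 : ℤ) • (Point.some _ _ h2 - ((ℓ : ℤ) + 1 - N) • Point.some _ _ h1
      + (ℓ : ℤ) • Point.some _ _ h) = 0 := by
  have hp := (Fact.out : ℓ.Prime)
  have hinj : Function.Injective f := f.injective
  have h2Z : (2 : ZMod ℓ) ≠ 0 := Fermat.Agent.H74.two_ne_zero_zmod hℓ
  have h2L : (2 : L) ≠ 0 := by
    have : (2 : L) = f 2 := (map_ofNat f 2).symm
    rw [this]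
    exact fun h0 => h2Z (hinj (h0.trans (map_zero f).symm))
  have hΔL : 4 * (f a) ^ 3 + 27 * (f b) ^ 2 ≠ 0 := by
    have : 4 * (f a) ^ 3 + 27 * (f b) ^ 2 = f (4 * a ^ 3 + 27 * b ^ 2) := by
      rw [map_add, map_mul, map_mul, map_pow, map_pow, map_ofNat, map_ofNat]
    rw [this]
    exact fun h0 => hΔ (hinj (h0.trans (map_zero f).symm))
  have heq : ∀ {u v : L},
      ((Fermat.Agent.H74.shortCurve a b).map f).toAffine.Nonsingular u v →
        v ^ 2 = u ^ 3 + f a * u + f b := by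
    intro u v huv
    have := (Affine.equation_iff u v).mp huv.1
    simpa [Fermat.Agent.H74.shortCurve] using this
  have hxy := heq h
  have two_zsmul' : ∀ Q : ((Fermat.Agent.H74.shortCurve a b).map f).toAffine.Point,
      (2 : ℤ) • Q = 2 • Q := by
    intro Q
    rw [← natCast_zsmul]
    rfl
  rw [two_zsmul']
  by_cases hy : y = 0
  · -- `2`-torsion case
    have tors : ∀ {u v : L} (huv : ((Fermat.Agent.H74.shortCurve a b).map f).toAffine.Nonsingular
        u v), v = 0 → 2 • (Point.some u v huv) = 0 := by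
      intro u v huv hv
      rw [two_nsmul]
      apply Point.add_self_of_Y_eq
      simp [Affine.negY, Fermat.Agent.H74.shortCurve, hv]
    have hℓ0 : ℓ ≠ 0 := hp.ne_zero
    have t0 := tors h hy
    have t1 := tors h1 (by rw [hy, zero_pow hℓ0])
    have t2 := tors h2 (by rw [hy, zero_pow (pow_ne_zero _ hℓ0)])
    rw [nsmul_add, nsmul_sub, t2, zero_sub, ← smul_comm, t1, smul_zero, neg_zero, zero_add,
      ← smul_comm, t0, smul_zero]
  · -- generic case: specialise the twist at `t = x` and untwist by `u = y⁻¹`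
    set Ψ := untwistHom f a b h2L hΔL hy hxy with hΨ
    have hfne := Fermat.Agent.H74.twF_ne_zero a b
    set m := (ℓ - 1) / 2 with hm
    have hℓm : ℓ = 2 * m + 1 := by
      have := Fermat.Agent.H74.two_mul_half ℓ hℓ
      have := hp.one_lt
      omega
    have hc : (cubicPoly a b).eval₂ f x = y ^ 2 := by
      rw [eval₂_cubicPoly, hxy]
    -- the generic point
    have hP₀ns := (equation_iff_nonsingular_of_Δ_ne_zero
      (W := (Fermat.Agent.H74.twCurve a b).toAffine)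
      (Fermat.Agent.H74.twCurve_Δ_ne_zero a b h2Z hΔ)).mp
      (Fermat.Agent.H74.twCurve_equation_generic a b)
    obtain ⟨hF, eF⟩ := Fermat.Agent.H74.twFrob_some (ℓ := ℓ) (a := a) (b := b) hℓ hP₀ns
    obtain ⟨hFF, eFF⟩ := Fermat.Agent.H74.twFrob_some (ℓ := ℓ) (a := a) (b := b) hℓ hF
    -- coordinates as polynomials
    have X0 : RatFunc.X * Fermat.Agent.H74.twF a b =
        algebraMap (ZMod ℓ)[X] (RatFunc (ZMod ℓ)) (X * cubicPoly a b) := by
      rw [map_mul, RatFunc.algebraMap_X, algebraMap_cubicPoly]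
    have Y0 : Fermat.Agent.H74.twF a b ^ 2 =
        algebraMap (ZMod ℓ)[X] (RatFunc (ZMod ℓ)) (cubicPoly a b ^ 2) := by
      rw [map_pow, algebraMap_cubicPoly]
    have X1 : (RatFunc.X * Fermat.Agent.H74.twF a b) ^ ℓ / Fermat.Agent.H74.twF a b ^ (ℓ - 1) =
        algebraMap (ZMod ℓ)[X] (RatFunc (ZMod ℓ)) (X ^ ℓ * cubicPoly a b) := by
      rw [map_mul, map_pow, RatFunc.algebraMap_X, algebraMap_cubicPoly,
        hp_frob_X hfne hp.one_lt.le]
    have Y1 : (Fermat.Agent.H74.twF a b ^ 2) ^ ℓ / Fermat.Agent.H74.twF a b ^ (3 * m) =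
        algebraMap (ZMod ℓ)[X] (RatFunc (ZMod ℓ)) (cubicPoly a b ^ (m + 2)) := by
      rw [map_pow, algebraMap_cubicPoly]
      exact hp_frob_Y hfne 2 ℓ (3 * m) (m + 2) (by omega)
    have X2 : ((RatFunc.X * Fermat.Agent.H74.twF a b) ^ ℓ / Fermat.Agent.H74.twF a b ^ (ℓ - 1)) ^ ℓ
        / Fermat.Agent.H74.twF a b ^ (ℓ - 1) =
        algebraMap (ZMod ℓ)[X] (RatFunc (ZMod ℓ)) (X ^ (ℓ ^ 2) * cubicPoly a b) := by
      rw [hp_frob_X hfne hp.one_lt.le, hp_frob_X hfne hp.one_lt.le, map_mul, map_pow,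
        RatFunc.algebraMap_X, algebraMap_cubicPoly, ← pow_mul, pow_two]
    have Y2 : ((Fermat.Agent.H74.twF a b ^ 2) ^ ℓ / Fermat.Agent.H74.twF a b ^ (3 * m)) ^ ℓ
        / Fermat.Agent.H74.twF a b ^ (3 * m) =
        algebraMap (ZMod ℓ)[X] (RatFunc (ZMod ℓ)) (cubicPoly a b ^ (2 * m ^ 2 + 2 * m + 2)) := by
      rw [hp_frob_Y hfne 2 ℓ (3 * m) (m + 2) (by omega), map_pow, algebraMap_cubicPoly]
      refine hp_frob_Y hfne (m + 2) ℓ (3 * m) (2 * m ^ 2 + 2 * m + 2) ?_
      rw [hℓm]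
      ring
    -- images under `Ψ`
    obtain ⟨g0, e0⟩ := untwistHom_some h2L hΔL hy hxy hP₀ns X0 Y0
      (x' := x) (y' := y)
      (by rw [Polynomial.eval₂_mul, Polynomial.eval₂_X, hc]; exact hp_aux_x x hy rfl)
      (by rw [Polynomial.eval₂_pow, hc]
          have := hp_aux_y hy (rfl : y ^ 2 = y ^ 2) 2 1 (by norm_num)
          rwa [pow_one] at this)
    obtain ⟨g1, e1⟩ := untwistHom_some h2L hΔL hy hxy hF X1 Y1
      (x' := x ^ ℓ) (y' := y ^ ℓ)
      (by rw [Polynomial.eval₂_mul, Polynomial.eval₂_pow, Polynomial.eval₂_X, hc]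
          exact hp_aux_x (x ^ ℓ) hy rfl)
      (by rw [Polynomial.eval₂_pow, hc]
          exact hp_aux_y hy rfl (m + 2) ℓ (by omega))
    obtain ⟨g2, e2⟩ := untwistHom_some h2L hΔL hy hxy hFF X2 Y2
      (x' := x ^ (ℓ ^ 2)) (y' := y ^ (ℓ ^ 2))
      (by rw [Polynomial.eval₂_mul, Polynomial.eval₂_pow, Polynomial.eval₂_X, hc]
          exact hp_aux_x (x ^ (ℓ ^ 2)) hy rfl)
      (by rw [Polynomial.eval₂_pow, hc]
          refine hp_aux_y hy rfl (2 * m ^ 2 + 2 * m + 2) (ℓ ^ 2) ?_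
          rw [hℓm]
          ring)
    -- apply `Ψ` to the relation on the twist
    have key := congrArg Ψ (hH (Point.some _ _ hP₀ns))
    rw [eF, eFF] at key
    rw [map_nsmul, map_add, map_sub, map_zsmul, map_zsmul, map_zero, hΨ, e0, e1, e2] at key
    exact key

/-- **B7.** The Hasse relation on the twist over `RatFunc (ZMod ℓ)` implies the Hasse relation
`2 • (φ² P - (ℓ + 1 - N) • φ P + ℓ • P) = 0` for every point `P = (x, y)` of `E` over any
extension field `L` of `ZMod ℓ`, where `φ (x, y) = (x^ℓ, y^ℓ)`. -/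
theorem hassePoint_of_twist [Algebra (ZMod ℓ) L] (hℓ : ℓ ≠ 2)
    (hΔ : 4 * a ^ 3 + 27 * b ^ 2 ≠ 0) (N : ℤ)
    (hH : ∀ P : (Fermat.Agent.H74.twCurve a b).toAffine.Point,
      2 • (Fermat.Agent.H74.twFrob ℓ a b hℓ (Fermat.Agent.H74.twFrob ℓ a b hℓ P)
        - ((ℓ : ℤ) + 1 - N) • Fermat.Agent.H74.twFrob ℓ a b hℓ P + (ℓ : ℤ) • P) = 0)
    (x y : L)
    (h : ((Fermat.Agent.H74.shortCurve a b).map (algebraMap (ZMod ℓ) L)).toAffine.Nonsingular
      x y)
    (h1 : ((Fermat.Agent.H74.shortCurve a b).map (algebraMap (ZMod ℓ) L)).toAffine.Nonsingular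
      (x ^ ℓ) (y ^ ℓ))
    (h2 : ((Fermat.Agent.H74.shortCurve a b).map (algebraMap (ZMod ℓ) L)).toAffine.Nonsingular
      (x ^ (ℓ ^ 2)) (y ^ (ℓ ^ 2))) :
    (2 : ℤ) • (Point.some _ _ h2 - ((ℓ : ℤ) + 1 - N) • Point.some _ _ h1
      + (ℓ : ℤ) • Point.some _ _ h) = 0 :=
  hassePoint_of_twist_ringHom (algebraMap (ZMod ℓ) L) hℓ hΔ N hH x y h h1 h2

end hasse

end Fermat.Agent.H26
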