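import Mathlib.FieldTheory.RatFunc.AsPolynomial
import Mathlib.RingTheory.Valuation.ValuationSubring

/-!
# The valuation subring of `RatFunc k` of functions regular at a point, and evaluation

For a field `k` and `x₀ : k` we construct

* `regularAt x₀ : ValuationSubring (RatFunc k)`, the rational functions whose (reduced)
  denominator does not vanish at `x₀`;
* `evalAt x₀ : regularAt x₀ →+* k`, evaluation at `x₀`;
* `evalAt_eq_zero_iff`: the kernel of `evalAt x₀` is the maximal ideal (in the `nonunits` form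
  used by `Fermat.Agent.H26.redHom`).
-/

set_option autoImplicit false

namespace Fermat.Agent.H26

open Polynomial

variable {k : Type*} [Field k]

/-- The valuation subring of `RatFunc k` of rational functions regular at `x₀`. -/
def regularAt (x₀ : k) : ValuationSubring (RatFunc k) where
  carrier := {r | r.denom.eval x₀ ≠ 0}
  mul_mem' := by
    intro r s hr hs
    simp only [Set.mem_ofPred_eq] at hr hs ⊢
    intro h
    have := Polynomial.eval_eq_zero_of_dvd_of_eval_eq_zero (RatFunc.denom_mul_dvd r s) h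
    rw [Polynomial.eval_mul] at this
    rcases mul_eq_zero.mp this with h' | h'
    · exact hr h'
    · exact hs h'
  one_mem' := by simp [RatFunc.denom_one]
  add_mem' := by
    intro r s hr hs
    simp only [Set.mem_ofPred_eq] at hr hs ⊢
    intro h
    have := Polynomial.eval_eq_zero_of_dvd_of_eval_eq_zero (RatFunc.denom_add_dvd r s) h
    rw [Polynomial.eval_mul] at this
    rcases mul_eq_zero.mp this with h' | h'
    · exact hr h'
    · exact hs h'
  zero_mem' := by simp [RatFunc.denom_zero]
  neg_mem' := by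
    intro r hr
    simp only [Set.mem_ofPred_eq] at hr ⊢
    intro h
    have h1 : -r = algebraMap k[X] (RatFunc k) (-1) * r := by
      rw [map_neg, map_one, neg_one_mul]
    rw [h1] at h
    have := Polynomial.eval_eq_zero_of_dvd_of_eval_eq_zero (RatFunc.denom_mul_dvd _ r) h
    rw [RatFunc.denom_algebraMap, one_mul] at this
    exact hr this
  mem_or_inv_mem' := by
    intro r
    by_cases hr : r.denom.eval x₀ = 0
    · right
      have hr0 : r ≠ 0 := by
        rintro rfl
        simp [RatFunc.denom_zero] at hr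
      show r⁻¹.denom.eval x₀ ≠ 0
      intro h
      have h2 := Polynomial.eval_eq_zero_of_dvd_of_eval_eq_zero (RatFunc.denom_inv_dvd hr0) h
      obtain ⟨u, v, huv⟩ := RatFunc.isCoprime_num_denom r
      have := congrArg (Polynomial.eval x₀) huv
      simp [h2, hr] at this
    · left
      exact hr

lemma mem_regularAt_iff {x₀ : k} {r : RatFunc k} : r ∈ regularAt x₀ ↔ r.denom.eval x₀ ≠ 0 :=
  Iff.rfl

lemma algebraMap_mem_regularAt (x₀ : k) (p : k[X]) :
    algebraMap k[X] (RatFunc k) p ∈ regularAt x₀ := by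
  rw [mem_regularAt_iff, RatFunc.denom_algebraMap]
  simp

lemma C_mem_regularAt (x₀ : k) (c : k) : (RatFunc.C c : RatFunc k) ∈ regularAt x₀ := by
  rw [← RatFunc.algebraMap_C]
  exact algebraMap_mem_regularAt x₀ _

lemma X_mem_regularAt (x₀ : k) : (RatFunc.X : RatFunc k) ∈ regularAt x₀ := by
  rw [← RatFunc.algebraMap_X]
  exact algebraMap_mem_regularAt x₀ _

lemma div_mem_regularAt {x₀ : k} (p : k[X]) {q : k[X]} (hq : q.eval x₀ ≠ 0) :
    algebraMap k[X] (RatFunc k) p / algebraMap k[X] (RatFunc k) q ∈ regularAt x₀ := by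
  rw [mem_regularAt_iff]
  intro h
  exact hq (Polynomial.eval_eq_zero_of_dvd_of_eval_eq_zero (RatFunc.denom_div_dvd p q) h)

/-- Evaluation at `x₀` as a ring homomorphism on the functions regular at `x₀`. -/
noncomputable def evalAt (x₀ : k) : regularAt x₀ →+* k where
  toFun r := RatFunc.eval (RingHom.id k) x₀ (r : RatFunc k)
  map_one' := RatFunc.eval_one _ _
  map_mul' r s := RatFunc.eval_mul (RingHom.id k) x₀ r.2 s.2
  map_zero' := RatFunc.eval_zero _ _
  map_add' r s := RatFunc.eval_add (RingHom.id k) x₀ r.2 s.2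

lemma evalAt_apply (x₀ : k) (r : regularAt x₀) :
    evalAt x₀ r = (r : RatFunc k).num.eval x₀ / (r : RatFunc k).denom.eval x₀ := rfl

@[simp]
lemma evalAt_algebraMap (x₀ : k) (p : k[X]) :
    evalAt x₀ ⟨algebraMap k[X] (RatFunc k) p, algebraMap_mem_regularAt x₀ p⟩ = p.eval x₀ := by
  show RatFunc.eval (RingHom.id k) x₀ (algebraMap k[X] (RatFunc k) p) = _
  rw [RatFunc.eval_algebraMap]
  rfl

@[simp]
lemma evalAt_C (x₀ : k) (c : k) : evalAt x₀ ⟨RatFunc.C c, C_mem_regularAt x₀ c⟩ = c := by
  show RatFunc.eval (RingHom.id k) x₀ (RatFunc.C c) = _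
  rw [RatFunc.eval_C]
  rfl

@[simp]
lemma evalAt_X (x₀ : k) : evalAt x₀ ⟨RatFunc.X, X_mem_regularAt x₀⟩ = x₀ := by
  show RatFunc.eval (RingHom.id k) x₀ RatFunc.X = _
  rw [RatFunc.eval_X]

/-- Evaluation of an element given as a coercion of a polynomial. -/
lemma evalAt_of_eq_algebraMap (x₀ : k) (r : regularAt x₀) (p : k[X])
    (h : (r : RatFunc k) = algebraMap k[X] (RatFunc k) p) : evalAt x₀ r = p.eval x₀ := by
  have : r = ⟨algebraMap k[X] (RatFunc k) p, algebraMap_mem_regularAt x₀ p⟩ := Subtype.ext h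
  rw [this, evalAt_algebraMap]

lemma evalAt_div {x₀ : k} (p : k[X]) {q : k[X]} (hq : q.eval x₀ ≠ 0) :
    evalAt x₀ ⟨_, div_mem_regularAt p hq⟩ = p.eval x₀ / q.eval x₀ := by
  have hq0 : q ≠ 0 := by
    rintro rfl
    simp at hq
  have hqK : algebraMap k[X] (RatFunc k) q ≠ 0 := by
    simpa using hq0
  set r : regularAt x₀ := ⟨_, div_mem_regularAt p hq⟩ with hr
  have h1 : r * ⟨_, algebraMap_mem_regularAt x₀ q⟩ = ⟨_, algebraMap_mem_regularAt x₀ p⟩ := by
    apply Subtype.ext
    show algebraMap k[X] (RatFunc k) p / algebraMap k[X] (RatFunc k) q *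
      algebraMap k[X] (RatFunc k) q = algebraMap k[X] (RatFunc k) p
    field_simp
  have h2 := congrArg (evalAt x₀) h1
  rw [map_mul, evalAt_algebraMap, evalAt_algebraMap] at h2
  rw [eq_div_iff hq, h2]

/-- A function regular at `x₀` is a unit of `regularAt x₀` iff it does not vanish at `x₀`. -/
lemma isUnit_iff_evalAt_ne_zero {x₀ : k} (r : regularAt x₀) : IsUnit r ↔ evalAt x₀ r ≠ 0 := by
  constructor
  · intro h
    exact (h.map (evalAt x₀)).ne_zero
  · intro h
    have hnum : (r : RatFunc k).num.eval x₀ ≠ 0 := by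
      intro h0
      apply h
      rw [evalAt_apply, h0, zero_div]
    have hr0 : (r : RatFunc k) ≠ 0 := by
      intro h0
      apply hnum
      rw [h0, RatFunc.num_zero]
      simp
    have hinv : (r : RatFunc k)⁻¹ ∈ regularAt x₀ := by
      rw [mem_regularAt_iff]
      intro h0
      exact hnum (Polynomial.eval_eq_zero_of_dvd_of_eval_eq_zero (RatFunc.denom_inv_dvd hr0) h0)
    refine IsUnit.of_mul_eq_one (⟨(r : RatFunc k)⁻¹, hinv⟩ : regularAt x₀) ?_
    apply Subtype.ext
    show (r : RatFunc k) * (r : RatFunc k)⁻¹ = 1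
    exact mul_inv_cancel₀ hr0

/-- The kernel of `evalAt x₀` is the maximal ideal of `regularAt x₀`. -/
theorem evalAt_eq_zero_iff (x₀ : k) (r : regularAt x₀) :
    evalAt x₀ r = 0 ↔ (r : RatFunc k) ∈ (regularAt x₀).nonunits := by
  rw [ValuationSubring.coe_mem_nonunits_iff, IsLocalRing.mem_maximalIdeal, mem_nonunits_iff,
    isUnit_iff_evalAt_ne_zero, not_not]

end Fermat.Agent.H26
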