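import Fermat.Agent.H26.Reduction
import Fermat.Agent.H26.RatFuncEval

/-!
# Specialisation of points of a Weierstrass curve over `RatFunc k` at `X = x₀`

Let `Wp` be a Weierstrass curve with coefficients in `k[X]` and `x₀ : k` with
`Wp.Δ.eval x₀ ≠ 0`.  We instantiate the reduction homomorphism `Fermat.Agent.H26.redHom` at the
valuation subring `regularAt x₀` of `RatFunc k` and obtain the specialisation homomorphism

`specHom Wp x₀ hΔ : (Wp.map (algebraMap k[X] (RatFunc k))).Point →+ (Wp.map (evalRingHom x₀)).Point`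

which sends a point with coordinates regular at `x₀` to the point with the evaluated coordinates,
and every other point to `0`; it is injective on `m`-torsion whenever `(m : k) ≠ 0`.
-/

set_option autoImplicit false

namespace Fermat.Agent.H26

open Polynomial WeierstrassCurve WeierstrassCurve.Affine

section congr

variable {F : Type*} [Field F] [DecidableEq F]

/-- Transport of points along an equality of Weierstrass curves. -/
def pointCongr {W W' : WeierstrassCurve.Affine F} (h : W = W') : W.Point ≃+ W'.Point := by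
  subst h
  exact AddEquiv.refl _

@[simp]
lemma pointCongr_zero {W W' : WeierstrassCurve.Affine F} (h : W = W') :
    pointCongr h 0 = 0 := map_zero _

lemma pointCongr_some {W W' : WeierstrassCurve.Affine F} (h : W = W') {x y : F}
    (hxy : W.Nonsingular x y) :
    pointCongr h (Point.some x y hxy) = Point.some x y (h ▸ hxy) := by
  subst h
  rfl

end congr

variable {k : Type*} [Field k]

/-- Polynomials, viewed as rational functions regular at `x₀`. -/
noncomputable def polyToRegular (x₀ : k) : k[X] →+* regularAt x₀ :=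
  (algebraMap k[X] (RatFunc k)).codRestrict (regularAt x₀) (algebraMap_mem_regularAt x₀)

@[simp]
lemma coe_polyToRegular (x₀ : k) (p : k[X]) :
    ((polyToRegular x₀ p : regularAt x₀) : RatFunc k) = algebraMap k[X] (RatFunc k) p := rfl

@[simp]
lemma evalAt_polyToRegular (x₀ : k) (p : k[X]) : evalAt x₀ (polyToRegular x₀ p) = p.eval x₀ :=
  evalAt_algebraMap x₀ p

lemma evalAt_comp_polyToRegular (x₀ : k) :
    (evalAt x₀).comp (polyToRegular x₀) = Polynomial.evalRingHom x₀ := by
  ext p
  · simp
  · simp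

lemma subtype_comp_polyToRegular (x₀ : k) :
    (regularAt x₀).subtype.comp (polyToRegular x₀) = algebraMap k[X] (RatFunc k) := rfl

/-- The model over `regularAt x₀` of a Weierstrass curve with polynomial coefficients. -/
noncomputable def specModel (Wp : WeierstrassCurve k[X]) (x₀ : k) :
    WeierstrassCurve.Affine (regularAt x₀) :=
  Wp.map (polyToRegular x₀)

lemma specModel_map_subtype (Wp : WeierstrassCurve k[X]) (x₀ : k) :
    (specModel Wp x₀).map (regularAt x₀).subtype = Wp.map (algebraMap k[X] (RatFunc k)) := rfl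

lemma specModel_map_evalAt (Wp : WeierstrassCurve k[X]) (x₀ : k) :
    (specModel Wp x₀).map (evalAt x₀) = Wp.map (Polynomial.evalRingHom x₀) := by
  show (Wp.map (polyToRegular x₀)).map (evalAt x₀) = Wp.map (Polynomial.evalRingHom x₀)
  rw [WeierstrassCurve.map_map, evalAt_comp_polyToRegular]

lemma specModel_Δ_ne_zero (Wp : WeierstrassCurve k[X]) (x₀ : k) (hΔ : Wp.Δ.eval x₀ ≠ 0) :
    ((specModel Wp x₀).map (evalAt x₀)).Δ ≠ 0 := by
  rw [specModel_map_evalAt, WeierstrassCurve.map_Δ]
  exact hΔ

variable [DecidableEq k] [DecidableEq (RatFunc k)]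

/-- **Specialisation homomorphism** at `X = x₀` for a Weierstrass curve with polynomial
coefficients whose discriminant does not vanish at `x₀`. -/
noncomputable def specHom (Wp : WeierstrassCurve k[X]) (x₀ : k) (hΔ : Wp.Δ.eval x₀ ≠ 0) :
    (Wp.map (algebraMap k[X] (RatFunc k))).toAffine.Point →+
      (Wp.map (Polynomial.evalRingHom x₀)).toAffine.Point :=
  ((pointCongr (specModel_map_evalAt Wp x₀)).toAddMonoidHom.comp
    (redHom (regularAt x₀) (evalAt x₀) (specModel Wp x₀) (specModel_Δ_ne_zero Wp x₀ hΔ)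
      (evalAt_eq_zero_iff x₀))).comp
    (pointCongr (specModel_map_subtype Wp x₀).symm).toAddMonoidHom

variable (Wp : WeierstrassCurve k[X]) (x₀ : k) (hΔ : Wp.Δ.eval x₀ ≠ 0)

/-- A point whose `x`-coordinate is regular at `x₀` has `y`-coordinate regular at `x₀`, and
specialises to the point with the evaluated coordinates. -/
theorem specHom_some_of_mem {x y : RatFunc k}
    (h : (Wp.map (algebraMap k[X] (RatFunc k))).toAffine.Nonsingular x y)
    (hx : x ∈ regularAt x₀) :
    ∃ (hy : y ∈ regularAt x₀)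
      (h' : (Wp.map (Polynomial.evalRingHom x₀)).toAffine.Nonsingular
        (evalAt x₀ ⟨x, hx⟩) (evalAt x₀ ⟨y, hy⟩)),
      specHom Wp x₀ hΔ (Point.some x y h) = Point.some _ _ h' := by
  have h1 : ((specModel Wp x₀).map (regularAt x₀).subtype).toAffine.Nonsingular x y :=
    (specModel_map_subtype Wp x₀).symm ▸ h
  obtain ⟨hy, h2, e⟩ := redHom_some_of_mem (specModel_Δ_ne_zero Wp x₀ hΔ)
    (evalAt_eq_zero_iff x₀) h1 hx
  refine ⟨hy, (specModel_map_evalAt Wp x₀) ▸ h2, ?_⟩
  simp only [specHom, AddMonoidHom.coe_comp, AddEquiv.coe_toAddMonoidHom, Function.comp_apply]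
  rw [pointCongr_some, e, pointCongr_some]

/-- A point with polynomial coordinates specialises to the point with the evaluated
coordinates. -/
theorem specHom_some_poly {p q : k[X]}
    (h : (Wp.map (algebraMap k[X] (RatFunc k))).toAffine.Nonsingular
      (algebraMap k[X] (RatFunc k) p) (algebraMap k[X] (RatFunc k) q)) :
    ∃ h' : (Wp.map (Polynomial.evalRingHom x₀)).toAffine.Nonsingular (p.eval x₀) (q.eval x₀),
      specHom Wp x₀ hΔ (Point.some _ _ h) = Point.some _ _ h' := by
  obtain ⟨hy, h', e⟩ := specHom_some_of_mem Wp x₀ hΔ h (algebraMap_mem_regularAt x₀ p)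
  have ex : evalAt x₀ ⟨algebraMap k[X] (RatFunc k) p, algebraMap_mem_regularAt x₀ p⟩ =
      p.eval x₀ := evalAt_algebraMap x₀ p
  have ey : evalAt x₀ ⟨algebraMap k[X] (RatFunc k) q, hy⟩ = q.eval x₀ :=
    evalAt_of_eq_algebraMap x₀ _ q rfl
  obtain ⟨h'', e'⟩ := Red.some_congr h' ex ey
  exact ⟨h'', e.trans e'⟩

/-- A point whose `x`-coordinate has a pole at `x₀` specialises to `0`. -/
theorem specHom_some_of_not_mem {x y : RatFunc k}
    (h : (Wp.map (algebraMap k[X] (RatFunc k))).toAffine.Nonsingular x y)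
    (hx : x ∉ regularAt x₀) : specHom Wp x₀ hΔ (Point.some x y h) = 0 := by
  have h1 : ((specModel Wp x₀).map (regularAt x₀).subtype).toAffine.Nonsingular x y :=
    (specModel_map_subtype Wp x₀).symm ▸ h
  simp only [specHom, AddMonoidHom.coe_comp, AddEquiv.coe_toAddMonoidHom, Function.comp_apply]
  rw [pointCongr_some, redHom_some_of_not_mem _ _ h1 hx, pointCongr_zero]

/-- The kernel of specialisation: `0` and the points whose `x`-coordinate has a pole at `x₀`. -/
theorem specHom_eq_zero_iff (P : (Wp.map (algebraMap k[X] (RatFunc k))).toAffine.Point) :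
    specHom Wp x₀ hΔ P = 0 ↔
      P = 0 ∨ ∃ x y, ∃ (h : (Wp.map (algebraMap k[X] (RatFunc k))).toAffine.Nonsingular x y),
        P = Point.some x y h ∧ x ∉ regularAt x₀ := by
  constructor
  · intro h0
    rcases P with _ | ⟨x, y, h⟩
    · exact Or.inl rfl
    · right
      refine ⟨x, y, h, rfl, ?_⟩
      intro hx
      obtain ⟨hy, h', e⟩ := specHom_some_of_mem Wp x₀ hΔ h hx
      rw [e] at h0
      exact Point.some_ne_zero _ h0
  · rintro (rfl | ⟨x, y, h, rfl, hx⟩)
    · exact map_zero _
    · exact specHom_some_of_not_mem Wp x₀ hΔ h hx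

/-- Specialisation is injective on `m`-torsion when `m` is invertible in `k`. -/
theorem eq_zero_of_specHom_eq_zero {m : ℕ} (hm : (m : k) ≠ 0)
    {P : (Wp.map (algebraMap k[X] (RatFunc k))).toAffine.Point} (hP : m • P = 0)
    (h0 : specHom Wp x₀ hΔ P = 0) : P = 0 := by
  have hmK : ((m : ℕ) : RatFunc k) = RatFunc.C (m : k) := by
    rw [map_natCast]
  have hm0 : ((m : ℕ) : RatFunc k) ≠ 0 := by
    rw [hmK]
    intro h
    exact hm (RatFunc.C_injective (by rw [h, map_zero]))
  have hminv : ((m : ℕ) : RatFunc k)⁻¹ ∈ regularAt x₀ := by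
    rw [hmK, ← map_inv₀]
    exact C_mem_regularAt x₀ _
  set e := pointCongr (specModel_map_subtype Wp x₀).symm with he
  have h1 : redHom (regularAt x₀) (evalAt x₀) (specModel Wp x₀)
      (specModel_Δ_ne_zero Wp x₀ hΔ) (evalAt_eq_zero_iff x₀) (e P) = 0 := by
    have := h0
    simp only [specHom, AddMonoidHom.coe_comp, AddEquiv.coe_toAddMonoidHom,
      Function.comp_apply] at this
    exact (AddEquiv.map_eq_zero_iff _).mp this
  have h2 : m • e P = 0 := by rw [← map_nsmul, hP, map_zero]
  have h3 := eq_zero_of_redHom_eq_zero (specModel_Δ_ne_zero Wp x₀ hΔ) (evalAt_eq_zero_iff x₀)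
    hm0 hminv h2 h1
  exact (AddEquiv.map_eq_zero_iff e).mp h3

theorem eq_of_specHom_eq {m : ℕ} (hm : (m : k) ≠ 0)
    {P Q : (Wp.map (algebraMap k[X] (RatFunc k))).toAffine.Point} (hP : m • P = 0)
    (hQ : m • Q = 0) (h : specHom Wp x₀ hΔ P = specHom Wp x₀ hΔ Q) : P = Q := by
  have h1 : specHom Wp x₀ hΔ (P - Q) = 0 := by rw [map_sub, h, sub_self]
  have h2 : m • (P - Q) = 0 := by rw [nsmul_sub, hP, hQ, sub_self]
  exact sub_eq_zero.mp (eq_zero_of_specHom_eq_zero Wp x₀ hΔ hm h2 h1)

end Fermat.Agent.H26
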