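import Fermat.Agent.H26.RouteSDefs

/-!
# Route S: the valuation computations (C) `Np + Np` and (B) `E0 + Np`, in pure field terms
-/

set_option autoImplicit false

namespace Fermat.Agent.H26.RouteS

open Fermat.Agent.H4

variable {L : Type*} [Field L] {Γ₀ : Type*} [LinearOrderedCommGroupWithZero Γ₀]
variable (v : Valuation L Γ₀) {ε e ρ : L}

/-- Core of (C): the sum of two points of type `Np`. -/
lemma np_add_np_core (hv2 : v 2 = 1) (he : v e = 1) (hε0 : ε ≠ 0) (hρ : ρ ^ 2 = -e)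
    {x₁ y₁ x₂ y₂ x₃ y₃ ℓ ν : L}
    (n₁ : IsNp v ε ρ x₁ y₁) (n₂ : IsNp v ε ρ x₂ y₂)
    (r1 : y₁ = ℓ * x₁ + ν) (r3 : -y₃ = ℓ * x₃ + ν)
    (r6 : x₁ * x₂ * x₃ = ν ^ 2)
    (r8 : ν * (x₁ * y₂ + x₂ * y₁) = x₁ * x₂ * (ε * e - x₁ * x₂)) :
    v x₃ < 1 ∧ ((IsNp v ε ρ x₃ y₃ ∧ v x₃ = v x₁ * v x₂) ∨
      (IsNm v ε ρ x₃ y₃ ∧ v x₃ * (v x₁ * v x₂) = v ε ^ 2) ∨
      (v x₃ ≤ v ε ∧ v x₁ * v x₂ = v ε)) := by
  obtain ⟨hH₁, hlt₁, hδ₁⟩ := n₁
  obtain ⟨hH₂, hlt₂, hδ₂⟩ := n₂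
  have hH0 : 0 < v ε := zero_lt_iff.mpr (v.ne_zero_iff.mpr hε0)
  have h10 : 0 < v x₁ := lt_trans hH0 hH₁
  have h20 : 0 < v x₂ := lt_trans hH0 hH₂
  have h120 : 0 < v x₁ * v x₂ := mul_pos h10 h20
  have hb : v (ε * e) = v ε := by rw [map_mul, he, mul_one]
  -- the valuation of `S = x₁ y₂ + x₂ y₁`
  have hT : v (x₁ * (y₂ - ρ * x₂) + x₂ * (y₁ - ρ * x₁)) < v x₁ * v x₂ := by
    refine Valuation.map_add_lt _ ?_ ?_
    · rw [map_mul]; exact mul_lt_mul_of_pos_left hδ₂ h10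
    · rw [map_mul, mul_comm (v x₁)]; exact mul_lt_mul_of_pos_left hδ₁ h20
  have hS : v (x₁ * y₂ + x₂ * y₁) = v x₁ * v x₂ := by
    have : x₁ * y₂ + x₂ * y₁ =
        2 * ρ * (x₁ * x₂) + (x₁ * (y₂ - ρ * x₂) + x₂ * (y₁ - ρ * x₁)) := by ring
    rw [this, Valuation.map_add_eq_of_lt_left, val_two_rho_mul v hv2 he hρ, map_mul]
    rw [val_two_rho_mul v hv2 he hρ, map_mul]
    exact hT
  -- `v ν = v D`
  have hν : v ν = v (ε * e - x₁ * x₂) := by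
    have h := congrArg v r8
    rw [map_mul, hS, map_mul, map_mul, mul_comm (v ν)] at h
    exact mul_left_cancel₀ h120.ne' h
  have hx₃ : v x₁ * v x₂ * v x₃ = v ν ^ 2 := by
    have h := congrArg v r6
    rwa [map_mul, map_mul, map_pow] at h
  have hDle : v (ε * e - x₁ * x₂) ≤ max (v ε) (v x₁ * v x₂) := by
    have := Valuation.map_sub v (ε * e) (x₁ * x₂)
    rwa [hb, map_mul] at this
  have h12lt : v x₁ * v x₂ < v x₁ := by
    have := mul_lt_mul_of_pos_left hlt₂ h10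
    rwa [mul_one] at this
  have hνlt : v ν < v x₁ := by
    rw [hν]
    exact lt_of_le_of_lt hDle (max_lt hH₁ h12lt)
  -- `ℓ ≡ ρ`
  have hℓ : v (ℓ - ρ) < 1 := by
    have h1 : (ℓ - ρ) * x₁ = (y₁ - ρ * x₁) - ν := by linear_combination -r1
    have h2 : v (ℓ - ρ) * v x₁ < 1 * v x₁ := by
      rw [← map_mul, h1, one_mul]
      exact Valuation.map_sub_lt _ hδ₁ hνlt
    exact lt_of_mul_lt_mul_right h2 zero_le
  have hℓx : v x₃ ≠ 0 → v ((ℓ - ρ) * x₃) < v x₃ := by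
    intro h0
    rw [map_mul]
    have := mul_lt_mul_of_pos_right hℓ (zero_lt_iff.mpr h0)
    rwa [one_mul] at this
  rcases lt_trichotomy (v x₁ * v x₂) (v ε) with hlt | heq | hgt
  · -- `ξ₁ ξ₂ < H` : type `Nm`
    have hD : v (ε * e - x₁ * x₂) = v ε := by
      rw [Valuation.map_sub_eq_of_lt_left, hb]
      rw [hb, map_mul]; exact hlt
    rw [hD] at hν
    rw [hν] at hx₃
    have hx₃lt : v x₃ < 1 := by
      have h1 : v ε ^ 2 < v x₁ * v x₂ := by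
        rw [pow_two]; exact mul_lt_mul'' hH₁ hH₂ zero_le zero_le
      rw [← hx₃] at h1
      have h2 : v x₁ * v x₂ * v x₃ < v x₁ * v x₂ * 1 := by rwa [mul_one]
      exact lt_of_mul_lt_mul_left h2 zero_le
    have hx₃gt : v ε < v x₃ := by
      have h1 : v x₁ * v x₂ * v ε < v x₁ * v x₂ * v x₃ := by
        rw [hx₃, pow_two]
        exact mul_lt_mul_of_pos_right hlt hH0
      exact lt_of_mul_lt_mul_left h1 zero_le
    refine ⟨hx₃lt, Or.inr (Or.inl ⟨⟨hx₃gt, hx₃lt, ?_⟩, ?_⟩)⟩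
    · have h1 : y₃ + ρ * x₃ = -((ℓ - ρ) * x₃) - ν := by linear_combination -r3
      rw [h1]
      refine Valuation.map_sub_lt _ ?_ (hν ▸ hx₃gt)
      rw [Valuation.map_neg]
      exact hℓx (ne_of_gt (lt_trans hH0 hx₃gt))
    · rw [mul_comm]; exact hx₃
  · -- `ξ₁ ξ₂ = H` : type `Hh`
    have hνle : v ν ≤ v ε := by
      rw [hν]; refine le_trans hDle ?_
      rw [heq, max_self]
    have hle : v x₃ ≤ v ε := by
      have h1 : v ε * v x₃ ≤ v ε * v ε := by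
        rw [heq] at hx₃
        rw [hx₃, pow_two]
        exact mul_le_mul' hνle hνle
      exact le_of_mul_le_mul_left h1 hH0
    exact ⟨lt_of_le_of_lt hle (lt_trans hH₁ hlt₁), Or.inr (Or.inr ⟨hle, heq⟩)⟩
  · -- `H < ξ₁ ξ₂` : type `Np`
    have hD : v (ε * e - x₁ * x₂) = v x₁ * v x₂ := by
      rw [Valuation.map_sub_eq_of_lt_right, map_mul]
      rw [hb, map_mul]; exact hgt
    rw [hD] at hν
    have hx₃eq : v x₃ = v x₁ * v x₂ := by
      rw [hν, pow_two] at hx₃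
      exact mul_left_cancel₀ h120.ne' hx₃
    have hx₃lt : v x₃ < 1 := by
      rw [hx₃eq]; exact lt_trans h12lt hlt₁
    refine ⟨hx₃lt, Or.inl ⟨⟨hx₃eq ▸ hgt, hx₃lt, ?_⟩, hx₃eq⟩⟩
    have h1 : y₃ - ρ * x₃ = -((ℓ - ρ) * x₃) - (2 * ρ * x₃ + ν) := by linear_combination -r3
    rw [h1]
    refine Valuation.map_sub_lt _ ?_ ?_
    · rw [Valuation.map_neg]
      exact hℓx (by rw [hx₃eq]; exact h120.ne')
    · have key : (2 * ρ * x₃ + ν) * (x₁ * x₂) ^ 2 =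
          ν * (x₁ * x₂ * (ε * e) - ν * (x₁ * (y₂ - ρ * x₂) + x₂ * (y₁ - ρ * x₁))) := by
        linear_combination (2 * ρ * x₁ * x₂) * r6 + ν * r8
      have h2 : v (x₁ * x₂ * (ε * e) - ν * (x₁ * (y₂ - ρ * x₂) + x₂ * (y₁ - ρ * x₁))) <
          (v x₁ * v x₂) ^ 2 := by
        refine Valuation.map_sub_lt _ ?_ ?_
        · rw [map_mul, map_mul, hb, pow_two]
          exact mul_lt_mul_of_pos_left hgt h120
        · rw [map_mul, hν, pow_two]
          exact mul_lt_mul_of_pos_left hT h120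
      have h3 : v (2 * ρ * x₃ + ν) * (v x₁ * v x₂) ^ 2 < v x₃ * (v x₁ * v x₂) ^ 2 := by
        have := congrArg v key
        rw [map_mul, map_pow, map_mul, map_mul (x := ν), hν] at this
        rw [this, hx₃eq]
        exact mul_lt_mul_of_pos_left h2 h120
      exact lt_of_mul_lt_mul_right h3 zero_le

/-- Core of (B): valuation of the `x`-coordinate of `E0 + Np`. -/
lemma e0_add_np_core (hv2 : v 2 = 1) (he : v e = 1) (hε0 : ε ≠ 0) (hρ : ρ ^ 2 = -e)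
    {x₁ y₁ x₂ y₂ x₃ ν : L}
    (hx₁ : 1 ≤ v x₁) (e₁ : y₁ ^ 2 = x₁ * (x₁ - ε) * (x₁ - e))
    (n₂ : IsNp v ε ρ x₂ y₂)
    (r6 : x₁ * x₂ * x₃ = ν ^ 2)
    (r8 : ν * (x₁ * y₂ + x₂ * y₁) = x₁ * x₂ * (ε * e - x₁ * x₂)) :
    v x₃ = v x₂ := by
  obtain ⟨hH₂, hlt₂, hδ₂⟩ := n₂
  have hH0 : 0 < v ε := zero_lt_iff.mpr (v.ne_zero_iff.mpr hε0)
  have hε1 : v ε < 1 := lt_trans hH₂ hlt₂
  have h10 : 0 < v x₁ := lt_of_lt_of_le zero_lt_one hx₁
  have h20 : 0 < v x₂ := lt_trans hH0 hH₂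
  have hb : v (ε * e) = v ε := by rw [map_mul, he, mul_one]
  have hsq : v x₁ ≤ v x₁ ^ 2 := by
    have := mul_le_mul' hx₁ (le_refl (v x₁))
    rwa [one_mul, ← pow_two] at this
  have hsq1 : 1 ≤ v x₁ ^ 2 := le_trans hx₁ hsq
  have hcu : v x₁ * v x₁ ≤ v x₁ * v x₁ ^ 2 := mul_le_mul' le_rfl hsq
  -- the two factors `A = y₁ + ρ x₁`, `B = y₁ - ρ x₁`
  have AB : (y₁ + ρ * x₁) * (y₁ - ρ * x₁) = x₁ * (x₁ ^ 2 + (ε * e - ε * x₁)) := by
    linear_combination e₁ - x₁ ^ 2 * hρ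
  have vQ : v (x₁ ^ 2 + (ε * e - ε * x₁)) = v x₁ ^ 2 := by
    rw [Valuation.map_add_eq_of_lt_left, map_pow]
    rw [map_pow]
    refine Valuation.map_sub_lt _ ?_ ?_
    · rw [hb]; exact lt_of_lt_of_le hε1 hsq1
    · rw [map_mul]
      refine lt_of_lt_of_le ?_ hsq
      have := mul_lt_mul_of_pos_right hε1 h10
      rwa [one_mul] at this
  have vAB : v (y₁ + ρ * x₁) * v (y₁ - ρ * x₁) = v x₁ * v x₁ ^ 2 := by
    rw [← map_mul, AB, map_mul, vQ]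
  have vAmB : v ((y₁ + ρ * x₁) - (y₁ - ρ * x₁)) = v x₁ := by
    have : (y₁ + ρ * x₁) - (y₁ - ρ * x₁) = 2 * ρ * x₁ := by ring
    rw [this, val_two_rho_mul v hv2 he hρ]
  have vAeq : v (y₁ + ρ * x₁) = v (y₁ - ρ * x₁) := by
    by_contra hne
    rcases lt_or_gt_of_ne hne with hlt | hgt
    · rw [Valuation.map_sub_eq_of_lt_right v hlt] at vAmB
      rw [vAmB] at hlt vAB
      have := mul_lt_mul_of_pos_right hlt h10
      rw [vAB] at this
      exact absurd this (not_lt.mpr hcu)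
    · rw [Valuation.map_sub_eq_of_lt_left v hgt] at vAmB
      rw [vAmB] at hgt vAB
      have := mul_lt_mul_of_pos_left hgt h10
      rw [vAB] at this
      exact absurd this (not_lt.mpr hcu)
  rw [← vAeq] at vAB
  have hμ : v x₁ ≤ v (y₁ + ρ * x₁) := by
    by_contra hlt
    rw [not_le] at hlt
    have := mul_lt_mul'' hlt hlt zero_le zero_le
    rw [vAB] at this
    exact absurd this (not_lt.mpr hcu)
  have hμ0 : 0 < v (y₁ + ρ * x₁) := lt_of_lt_of_le h10 hμ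
  -- the valuation of `S = x₁ y₂ + x₂ y₁`
  have hS : v (x₁ * y₂ + x₂ * y₁) = v x₂ * v (y₁ + ρ * x₁) := by
    have : x₁ * y₂ + x₂ * y₁ = x₂ * (y₁ + ρ * x₁) + x₁ * (y₂ - ρ * x₂) := by ring
    rw [this, Valuation.map_add_eq_of_lt_left, map_mul]
    rw [map_mul, map_mul, mul_comm (v x₂)]
    exact mul_lt_mul' hμ hδ₂ zero_le hμ0
  have hD : v (ε * e - x₁ * x₂) = v x₁ * v x₂ := by
    rw [Valuation.map_sub_eq_of_lt_right, map_mul]
    rw [hb, map_mul]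
    refine lt_of_lt_of_le hH₂ ?_
    have := mul_le_mul' hx₁ (le_refl (v x₂))
    rwa [one_mul] at this
  have hx12 : x₁ * x₂ ≠ 0 := by
    apply mul_ne_zero
    · exact v.ne_zero_iff.mp h10.ne'
    · exact v.ne_zero_iff.mp h20.ne'
  have key : x₃ * (x₁ * y₂ + x₂ * y₁) ^ 2 = x₁ * x₂ * (ε * e - x₁ * x₂) ^ 2 := by
    apply mul_left_cancel₀ hx12
    linear_combination (x₁ * y₂ + x₂ * y₁) ^ 2 * r6 +
      (ν * (x₁ * y₂ + x₂ * y₁) + x₁ * x₂ * (ε * e - x₁ * x₂)) * r8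
  have hk := congrArg v key
  rw [map_mul, map_pow, hS, map_mul, map_mul, map_pow, hD, mul_pow, pow_two (v (y₁ + ρ * x₁)),
    vAB] at hk
  have hc : v x₁ * v x₂ * (v x₁ * v x₂) ^ 2 = v x₂ * (v x₂ ^ 2 * (v x₁ * v x₁ ^ 2)) := by
    rw [mul_pow]; ac_rfl
  rw [hc] at hk
  refine mul_right_cancel₀ ?_ hk
  exact (mul_pos (pow_pos h20 2) (mul_pos h10 (pow_pos h10 2))).ne'

/-- Dichotomy: a point with `H < v x < 1` is of type `Np` or of type `Nm`. -/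
lemma np_or_nm (he : v e = 1) (hρ : ρ ^ 2 = -e) {x y : L}
    (e₁ : y ^ 2 = x * (x - ε) * (x - e)) (hx1 : v ε < v x) (hx2 : v x < 1) :
    IsNp v ε ρ x y ∨ IsNm v ε ρ x y := by
  have h0 : 0 < v x := lt_of_le_of_lt zero_le hx1
  have hb : v (ε * e) = v ε := by rw [map_mul, he, mul_one]
  have AB : (y - ρ * x) * (y + ρ * x) = x * (x ^ 2 + (ε * e - ε * x)) := by
    linear_combination e₁ - x ^ 2 * hρ
  have vQ : v (x ^ 2 + (ε * e - ε * x)) < v x := by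
    refine Valuation.map_add_lt _ ?_ (Valuation.map_sub_lt _ ?_ ?_)
    · rw [map_pow, pow_two]
      have := mul_lt_mul_of_pos_left hx2 h0
      rwa [mul_one] at this
    · rw [hb]; exact hx1
    · rw [map_mul]
      have := mul_lt_mul_of_pos_right (lt_trans hx1 hx2) h0
      rwa [one_mul] at this
  have vAB : v (y - ρ * x) * v (y + ρ * x) < v x * v x := by
    rw [← map_mul, AB, map_mul]
    exact mul_lt_mul_of_pos_left vQ h0
  by_contra hcon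
  rw [not_or] at hcon
  have h1 : v x ≤ v (y - ρ * x) := by
    by_contra h; exact hcon.1 ⟨hx1, hx2, not_le.mp h⟩
  have h2 : v x ≤ v (y + ρ * x) := by
    by_contra h; exact hcon.2 ⟨hx1, hx2, not_le.mp h⟩
  exact absurd vAB (not_lt.mpr (mul_le_mul' h1 h2))

end Fermat.Agent.H26.RouteS
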