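import Fermat.Agent.H4.Leg
import Fermat.Agent.H4.Node
import Fermat.Agent.H4.ValLemmas

/-!
# Route S for the component statement (F3): definitions and basic lemmas

Model `y² = x (x - ε) (x - e)` (`IsLeg W ε e`), valuation `v` with `v 2 = v e = 1`, `H := v ε < 1`,
`ρ ^ 2 = -e`.  An affine point with `H < v x < 1` reduces to the node; it is of type `Np`
(`v (y - ρ x) < v x`) or `Nm` (`v (y + ρ x) < v x`), according to the branch of the node.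

`Comp P γ` says that `γ : Γ₀` represents the class of `P` in the component group, written
multiplicatively inside the value group modulo `H ^ (2ℤ)`.
-/

set_option autoImplicit false

namespace Fermat.Agent.H26.RouteS

open WeierstrassCurve WeierstrassCurve.Affine Fermat.Agent.H4

section Rel2

variable {Γ₀ : Type*} [LinearOrderedCommGroupWithZero Γ₀]

/-- `a ≡ b` modulo `H ^ (2ℤ)`. -/
def Rel2 (H a b : Γ₀) : Prop := ∃ k : ℤ, a = b * H ^ (2 * k)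

lemma Rel2.refl (H a : Γ₀) : Rel2 H a a := ⟨0, by simp⟩

lemma Rel2.of_eq {H a b : Γ₀} (h : a = b) : Rel2 H a b := h ▸ Rel2.refl H a

lemma Rel2.mul_right {H a b : Γ₀} (h : Rel2 H a b) (c : Γ₀) : Rel2 H (a * c) (b * c) := by
  obtain ⟨k, rfl⟩ := h
  exact ⟨k, mul_right_comm _ _ _⟩

lemma Rel2.trans {H a b c : Γ₀} (hH : H ≠ 0) (h₁ : Rel2 H a b) (h₂ : Rel2 H b c) :
    Rel2 H a c := by
  obtain ⟨k, rfl⟩ := h₁
  obtain ⟨l, rfl⟩ := h₂
  exact ⟨l + k, by rw [mul_add, zpow_add₀ hH, mul_assoc]⟩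

lemma Rel2.symm {H a b : Γ₀} (hH : H ≠ 0) (h : Rel2 H a b) : Rel2 H b a := by
  obtain ⟨k, rfl⟩ := h
  refine ⟨-k, ?_⟩
  rw [mul_assoc, ← zpow_add₀ hH]
  simp

/-- `a * H ^ 2 ≡ a`. -/
lemma Rel2.mul_sq (H a : Γ₀) : Rel2 H (a * H ^ 2) a := ⟨1, by simp [zpow_ofNat]⟩

/-- `a * H * H ≡ a`. -/
lemma Rel2.mul_mul (H a : Γ₀) : Rel2 H (a * H * H) a :=
  ⟨1, by rw [mul_one, zpow_ofNat, pow_two, mul_assoc]⟩

/-- if `a * H ^ 2 = b` then `a ≡ b`. -/
lemma Rel2.of_mul_sq_eq {H a b : Γ₀} (hH : H ≠ 0) (h : a * H ^ 2 = b) : Rel2 H a b :=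
  (h ▸ Rel2.mul_sq H a).symm hH

/-- if `a = b * H ^ 2` then `a ≡ b`. -/
lemma Rel2.of_eq_mul_sq {H a b : Γ₀} (h : a = b * H ^ 2) : Rel2 H a b :=
  h ▸ Rel2.mul_sq H b

end Rel2

variable {L : Type*} [Field L] {Γ₀ : Type*} [LinearOrderedCommGroupWithZero Γ₀]

/-- Type `Np`: the point reduces to the node along the branch `y = ρ x`. -/
def IsNp (v : Valuation L Γ₀) (ε ρ x y : L) : Prop :=
  v ε < v x ∧ v x < 1 ∧ v (y - ρ * x) < v x

/-- Type `Nm`: the point reduces to the node along the branch `y = -ρ x`. -/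
def IsNm (v : Valuation L Γ₀) (ε ρ x y : L) : Prop :=
  v ε < v x ∧ v x < 1 ∧ v (y + ρ * x) < v x

/-- The component relation. -/
def Comp (v : Valuation L Γ₀) (ε ρ : L) {W : WeierstrassCurve.Affine L} :
    W.Point → Γ₀ → Prop
  | .zero, γ => Rel2 (v ε) γ 1
  | .some x y _, γ =>
      (1 ≤ v x ∧ Rel2 (v ε) γ 1) ∨ (v x ≤ v ε ∧ Rel2 (v ε) γ (v ε)) ∨
      (IsNp v ε ρ x y ∧ Rel2 (v ε) γ (v x)) ∨ (IsNm v ε ρ x y ∧ Rel2 (v ε) γ (v x)⁻¹)

section basic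

variable (v : Valuation L Γ₀) {ε e ρ : L}

lemma comp_zero {W : WeierstrassCurve.Affine L} {γ : Γ₀} :
    Comp v ε ρ (0 : W.Point) γ ↔ Rel2 (v ε) γ 1 := Iff.rfl

lemma comp_some {W : WeierstrassCurve.Affine L} {x y : L} (h : W.Nonsingular x y) {γ : Γ₀} :
    Comp v ε ρ (Point.some x y h) γ ↔
      (1 ≤ v x ∧ Rel2 (v ε) γ 1) ∨ (v x ≤ v ε ∧ Rel2 (v ε) γ (v ε)) ∨
      (IsNp v ε ρ x y ∧ Rel2 (v ε) γ (v x)) ∨ (IsNm v ε ρ x y ∧ Rel2 (v ε) γ (v x)⁻¹) := Iff.rfl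

/-- `v ρ = 1`. -/
lemma val_rho (he : v e = 1) (hρ : ρ ^ 2 = -e) : v ρ = 1 := by
  have h : v ρ ^ 2 = 1 := by rw [← map_pow, hρ, Valuation.map_neg, he]
  exact (pow_eq_one_iff_of_nonneg zero_le (by norm_num)).mp h

lemma val_two_rho_mul (hv2 : v 2 = 1) (he : v e = 1) (hρ : ρ ^ 2 = -e) (x : L) :
    v (2 * ρ * x) = v x := by
  rw [map_mul, map_mul, hv2, val_rho v he hρ, one_mul, one_mul]

/-- A point cannot be of both types. -/
lemma not_np_and_nm (hv2 : v 2 = 1) (he : v e = 1) (hρ : ρ ^ 2 = -e) {x y : L}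
    (h₁ : v (y - ρ * x) < v x) (h₂ : v (y + ρ * x) < v x) : False := by
  have h : v (2 * ρ * x) < v x := by
    have : 2 * ρ * x = (y + ρ * x) - (y - ρ * x) := by ring
    rw [this]
    exact lt_of_le_of_lt (Valuation.map_sub _ _ _) (max_lt h₂ h₁)
  rw [val_two_rho_mul v hv2 he hρ] at h
  exact lt_irrefl _ h

end basic

end Fermat.Agent.H26.RouteS
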