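import Fermat.Agent.H26.RouteSCore

/-!
# Route S: point-level statements (C), (B), (τ) and the induction
-/

set_option autoImplicit false

namespace Fermat.Agent.H26.RouteS

open WeierstrassCurve WeierstrassCurve.Affine Fermat.Agent.H4

variable {L : Type*} [Field L] [DecidableEq L] {Γ₀ : Type*} [LinearOrderedCommGroupWithZero Γ₀]
variable {W : WeierstrassCurve.Affine L} {ε e ρ : L}
variable (hW : IsLeg W ε e) (v : Valuation L Γ₀)

omit [DecidableEq L] in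
lemma Comp.congr {P : W.Point} {γ γ' : Γ₀} (hH : v ε ≠ 0) (hr : Rel2 (v ε) γ γ')
    (hc : Comp v ε ρ P γ') : Comp v ε ρ P γ := by
  cases P with
  | zero => exact hr.trans hH hc
  | some x y h =>
    rcases hc with ⟨h1, h2⟩ | ⟨h1, h2⟩ | ⟨h1, h2⟩ | ⟨h1, h2⟩
    · exact Or.inl ⟨h1, hr.trans hH h2⟩
    · exact Or.inr (Or.inl ⟨h1, hr.trans hH h2⟩)
    · exact Or.inr (Or.inr (Or.inl ⟨h1, hr.trans hH h2⟩))
    · exact Or.inr (Or.inr (Or.inr ⟨h1, hr.trans hH h2⟩))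

include hW

/-- (C): the sum of two points of type `Np`. -/
theorem np_add_np (hv2 : v 2 = 1) (he : v e = 1) (hε0 : ε ≠ 0) (hρ : ρ ^ 2 = -e)
    {x₁ y₁ x₂ y₂ : L} (h₁ : W.Nonsingular x₁ y₁) (h₂ : W.Nonsingular x₂ y₂)
    (n₁ : IsNp v ε ρ x₁ y₁) (n₂ : IsNp v ε ρ x₂ y₂) :
    ∃ (x₃ y₃ : L) (h₃ : W.Nonsingular x₃ y₃),
      Point.some x₁ y₁ h₁ + Point.some x₂ y₂ h₂ = Point.some x₃ y₃ h₃ ∧ v x₃ < 1 ∧
      Comp v ε ρ (Point.some x₃ y₃ h₃) (v x₁ * v x₂) := by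
  have hne : ¬(x₁ = x₂ ∧ y₁ = -y₂) := by
    rintro ⟨rfl, rfl⟩
    refine not_np_and_nm v hv2 he hρ n₂.2.2 ?_
    have : y₂ + ρ * x₁ = -(-y₂ - ρ * x₁) := by ring
    rw [this, Valuation.map_neg]
    exact n₁.2.2
  obtain ⟨x₃, y₃, ℓ, ν, h₃, hsum, r1, -, r3, -, -, r6, -, r8⟩ :=
    hW.toIsShort.add_rel h₁ h₂ hne
  rw [hW.a₄, hW.a₆] at r8
  rw [hW.a₆] at r6
  have r6' : x₁ * x₂ * x₃ = ν ^ 2 := by linear_combination r6
  have r8' : ν * (x₁ * y₂ + x₂ * y₁) = x₁ * x₂ * (ε * e - x₁ * x₂) := by linear_combination r8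
  obtain ⟨hlt, hcases⟩ := np_add_np_core v hv2 he hε0 hρ n₁ n₂ r1 r3 r6' r8'
  refine ⟨x₃, y₃, h₃, hsum, hlt, ?_⟩
  rcases hcases with ⟨n₃, hv⟩ | ⟨n₃, hv⟩ | ⟨hle, hv⟩
  · exact Or.inr (Or.inr (Or.inl ⟨n₃, Rel2.of_eq hv.symm⟩))
  · refine Or.inr (Or.inr (Or.inr ⟨n₃, Rel2.of_eq_mul_sq ?_⟩))
    have h0 : v x₃ ≠ 0 := (lt_of_le_of_lt zero_le n₃.1).ne'
    rw [← hv, ← mul_assoc, inv_mul_cancel₀ h0, one_mul]
  · exact Or.inr (Or.inl ⟨hle, Rel2.of_eq hv⟩)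

/-- (B): the sum of a point with `1 ≤ v x` and a point of type `Np` is of type `Np`,
with the same valuation of `x`. -/
theorem e0_add_np (hv2 : v 2 = 1) (he : v e = 1) (hε0 : ε ≠ 0) (hρ : ρ ^ 2 = -e)
    {x₁ y₁ x₂ y₂ : L} (h₁ : W.Nonsingular x₁ y₁) (h₂ : W.Nonsingular x₂ y₂)
    (hx₁ : 1 ≤ v x₁) (n₂ : IsNp v ε ρ x₂ y₂) :
    ∃ (x₃ y₃ : L) (h₃ : W.Nonsingular x₃ y₃),
      Point.some x₁ y₁ h₁ + Point.some x₂ y₂ h₂ = Point.some x₃ y₃ h₃ ∧
      IsNp v ε ρ x₃ y₃ ∧ v x₃ = v x₂ := by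
  have hne : ¬(x₁ = x₂ ∧ y₁ = -y₂) := by
    rintro ⟨rfl, -⟩
    exact absurd n₂.2.1 (not_lt.mpr hx₁)
  obtain ⟨x₃, y₃, ℓ, ν, h₃, hsum, -, -, -, -, -, r6, -, r8⟩ :=
    hW.toIsShort.add_rel h₁ h₂ hne
  rw [hW.a₄, hW.a₆] at r8
  rw [hW.a₆] at r6
  have r6' : x₁ * x₂ * x₃ = ν ^ 2 := by linear_combination r6
  have r8' : ν * (x₁ * y₂ + x₂ * y₁) = x₁ * x₂ * (ε * e - x₁ * x₂) := by linear_combination r8
  have hv₃ := e0_add_np_core v hv2 he hε0 hρ hx₁ (hW.equation h₁) n₂ r6' r8'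
  refine ⟨x₃, y₃, h₃, hsum, ?_, hv₃⟩
  rcases np_or_nm v he hρ (hW.equation h₃) (hv₃ ▸ n₂.1) (hv₃ ▸ n₂.2.1) with n₃ | n₃
  · exact n₃
  · exfalso
    -- `-P₃` is of type `Np`, so `-P₃ + P₂ = -P₁` has `v x < 1`, contradiction
    have n₃' : IsNp v ε ρ x₃ (-y₃) := by
      refine ⟨n₃.1, n₃.2.1, ?_⟩
      have : -y₃ - ρ * x₃ = -(y₃ + ρ * x₃) := by ring
      rw [this, Valuation.map_neg]
      exact n₃.2.2
    obtain ⟨x₄, y₄, h₄, hsum', hlt, -⟩ :=
      np_add_np hW v hv2 he hε0 hρ (hW.toIsShort.nonsingular_neg h₃) h₂ n₃' n₂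
    have hsum'' : Point.some x₁ (-y₁) (hW.toIsShort.nonsingular_neg h₁) =
        Point.some x₄ y₄ h₄ := by
      rw [← hsum', ← hW.toIsShort.neg_some h₃, ← hsum, ← hW.toIsShort.neg_some h₁]
      abel
    have hx : x₁ = x₄ := by
      injection hsum''
    rw [← hx] at hlt
    exact absurd hlt (not_lt.mpr hx₁)

omit hW [DecidableEq L] in
/-- (τ) on types: `Np ↦ Nm`. -/
lemma isNm_T0_of_isNp (he : v e = 1) (hε0 : ε ≠ 0) {x y : L} (n : IsNp v ε ρ x y) :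
    IsNm v ε ρ (ε * e / x) (-(ε * e * y / x ^ 2)) ∧ v (ε * e / x) * v x = v ε := by
  obtain ⟨hH, hlt, hδ⟩ := n
  have hH0 : v ε ≠ 0 := v.ne_zero_iff.mpr hε0
  have hx0 : 0 < v x := lt_of_le_of_lt zero_le hH
  have hx : x ≠ 0 := v.ne_zero_iff.mp hx0.ne'
  have hvx' : v (ε * e / x) = v ε / v x := by rw [map_div₀, map_mul, he, mul_one]
  have hx'0 : v ε / v x ≠ 0 := div_ne_zero hH0 hx0.ne'
  refine ⟨⟨?_, ?_, ?_⟩, ?_⟩
  · rw [hvx', lt_div_iff₀ hx0]
    exact mul_lt_of_lt_one_right₀ hH0 hlt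
  · rw [hvx', div_lt_one₀ hx0]
    exact hH
  · have h1 : -(ε * e * y / x ^ 2) + ρ * (ε * e / x) = (ε * e / x) * (-(y - ρ * x) / x) := by
      field_simp
      ring
    rw [h1, map_mul, hvx', map_div₀, Valuation.map_neg]
    exact mul_lt_of_lt_one_right₀ hx'0 ((div_lt_one₀ hx0).mpr hδ)
  · rw [hvx', div_mul_cancel₀ _ hx0.ne']

omit hW [DecidableEq L] in
/-- (τ) on types: `Nm ↦ Np`. -/
lemma isNp_T0_of_isNm (he : v e = 1) (hε0 : ε ≠ 0) {x y : L} (n : IsNm v ε ρ x y) :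
    IsNp v ε ρ (ε * e / x) (-(ε * e * y / x ^ 2)) ∧ v (ε * e / x) * v x = v ε := by
  obtain ⟨hH, hlt, hδ⟩ := n
  have hH0 : v ε ≠ 0 := v.ne_zero_iff.mpr hε0
  have hx0 : 0 < v x := lt_of_le_of_lt zero_le hH
  have hx : x ≠ 0 := v.ne_zero_iff.mp hx0.ne'
  have hvx' : v (ε * e / x) = v ε / v x := by rw [map_div₀, map_mul, he, mul_one]
  have hx'0 : v ε / v x ≠ 0 := div_ne_zero hH0 hx0.ne'
  refine ⟨⟨?_, ?_, ?_⟩, ?_⟩
  · rw [hvx', lt_div_iff₀ hx0]
    exact mul_lt_of_lt_one_right₀ hH0 hlt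
  · rw [hvx', div_lt_one₀ hx0]
    exact hH
  · have h1 : -(ε * e * y / x ^ 2) - ρ * (ε * e / x) = (ε * e / x) * (-(y + ρ * x) / x) := by
      field_simp
      ring
    rw [h1, map_mul, hvx', map_div₀, Valuation.map_neg]
    exact mul_lt_of_lt_one_right₀ hx'0 ((div_lt_one₀ hx0).mpr hδ)
  · rw [hvx', div_mul_cancel₀ _ hx0.ne']

/-- (τ): translation by `T₀ = (0,0)` multiplies the class by `H`. -/
theorem comp_add_T0 (he : v e = 1) (hε0 : ε ≠ 0) (hεe : ε * e ≠ 0)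
    (P : W.Point) (γ : Γ₀) (hc : Comp v ε ρ P γ) :
    Comp v ε ρ (P + Point.some 0 0 (hW.nonsingular_T0 hεe)) (γ * v ε) := by
  have hH : v ε ≠ 0 := v.ne_zero_iff.mpr hε0
  have hH0 : 0 < v ε := zero_lt_iff.mpr hH
  have hHH : Rel2 (v ε) (v ε * v ε) 1 := by
    have := Rel2.mul_mul (v ε) 1
    rwa [one_mul] at this
  cases P with
  | zero =>
    have hc' : Rel2 (v ε) γ 1 := hc
    have h0 : (Point.zero : W.Point) = 0 := rfl
    rw [h0, zero_add]
    refine Or.inr (Or.inl ⟨by rw [map_zero]; exact zero_le, ?_⟩)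
    have := Rel2.mul_right hc' (v ε)
    rwa [one_mul] at this
  | some x y h =>
    by_cases hx : x = 0
    · subst hx
      have hy : y = 0 := by
        have := hW.equation h
        simpa using this
      subst hy
      have hsum : Point.some 0 0 h + Point.some 0 0 (hW.nonsingular_T0 hεe) = 0 :=
        hW.toIsShort.add_eq_zero_of _ _ rfl (by simp)
      rw [hsum]
      rcases hc with ⟨h1, -⟩ | ⟨-, h2⟩ | ⟨h1, -⟩ | ⟨h1, -⟩
      · rw [map_zero] at h1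
        exact absurd h1 (not_le.mpr zero_lt_one)
      · exact (Rel2.mul_right h2 (v ε)).trans hH hHH
      · exact absurd h1.1 (by rw [map_zero]; exact not_lt.mpr zero_le)
      · exact absurd h1.1 (by rw [map_zero]; exact not_lt.mpr zero_le)
    · obtain ⟨h', hsum⟩ := hW.add_T0 hεe h hx
      rw [hsum]
      have hx0 : 0 < v x := zero_lt_iff.mpr (v.ne_zero_iff.mpr hx)
      have hvx' : v (ε * e / x) = v ε / v x := by rw [map_div₀, map_mul, he, mul_one]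
      rcases hc with ⟨h1, h2⟩ | ⟨h1, h2⟩ | ⟨h1, h2⟩ | ⟨h1, h2⟩
      · -- `E0 ↦ Hh`
        refine Or.inr (Or.inl ⟨?_, ?_⟩)
        · rw [hvx', div_le_iff₀ hx0]
          have := mul_le_mul' (le_refl (v ε)) h1
          rwa [mul_one] at this
        · have := Rel2.mul_right h2 (v ε)
          rwa [one_mul] at this
      · -- `Hh ↦ E0`
        refine Or.inl ⟨?_, ?_⟩
        · rw [hvx', one_le_div₀ hx0]
          exact h1
        · exact (Rel2.mul_right h2 (v ε)).trans hH hHH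
      · -- `Np ↦ Nm`
        obtain ⟨n', -⟩ := isNm_T0_of_isNp v he hε0 h1
        refine Or.inr (Or.inr (Or.inr ⟨n', ?_⟩))
        refine (Rel2.mul_right h2 (v ε)).trans hH (Rel2.of_eq_mul_sq ?_)
        rw [hvx', inv_div, pow_two, ← mul_assoc, div_mul_cancel₀ _ hH]
      · -- `Nm ↦ Np`
        obtain ⟨n', -⟩ := isNp_T0_of_isNm v he hε0 h1
        refine Or.inr (Or.inr (Or.inl ⟨n', ?_⟩))
        refine (Rel2.mul_right h2 (v ε)).trans hH (Rel2.of_eq ?_)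
        rw [hvx', div_eq_mul_inv, mul_comm]

/-- Adding a point of type `Np` multiplies the class by `v x`. -/
theorem comp_add_np (hv2 : v 2 = 1) (he : v e = 1) (hε0 : ε ≠ 0) (hρ : ρ ^ 2 = -e)
    (hεe : ε * e ≠ 0) {x y : L} (h : W.Nonsingular x y) (n : IsNp v ε ρ x y)
    (Q : W.Point) (γ : Γ₀) (hc : Comp v ε ρ Q γ) :
    Comp v ε ρ (Q + Point.some x y h) (γ * v x) := by
  have hH : v ε ≠ 0 := v.ne_zero_iff.mpr hε0
  have hTT : Point.some 0 0 (hW.nonsingular_T0 hεe) + Point.some 0 0 (hW.nonsingular_T0 hεe)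
      = 0 := by
    have := hW.two_nsmul_T0 hεe
    rwa [two_nsmul] at this
  -- passing through the translate by `T₀`
  have via : ∀ (Q' : W.Point) (γ' : Γ₀), Comp v ε ρ (Q' + Point.some x y h) γ' →
      Q' = Q + Point.some 0 0 (hW.nonsingular_T0 hεe) → Rel2 (v ε) (γ * v x) (γ' * v ε) →
      Comp v ε ρ (Q + Point.some x y h) (γ * v x) := by
    intro Q' γ' hc' hQ' hr
    have key := comp_add_T0 hW v he hε0 hεe _ _ hc'
    have e1 : Q' + Point.some x y h + Point.some 0 0 (hW.nonsingular_T0 hεe) =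
        Q + Point.some x y h := by
      rw [hQ']
      calc Q + Point.some 0 0 (hW.nonsingular_T0 hεe) + Point.some x y h +
            Point.some 0 0 (hW.nonsingular_T0 hεe)
          = Q + Point.some x y h + (Point.some 0 0 (hW.nonsingular_T0 hεe) +
              Point.some 0 0 (hW.nonsingular_T0 hεe)) := by abel
        _ = Q + Point.some x y h := by rw [hTT, add_zero]
    rw [e1] at key
    exact Comp.congr v hH hr key
  have hcP : Comp v ε ρ (Point.some x y h) (v x) :=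
    Or.inr (Or.inr (Or.inl ⟨n, Rel2.refl _ _⟩))
  cases Q with
  | zero =>
    have hc' : Rel2 (v ε) γ 1 := hc
    have h0 : (Point.zero : W.Point) = 0 := rfl
    rw [h0, zero_add]
    refine Or.inr (Or.inr (Or.inl ⟨n, ?_⟩))
    have := Rel2.mul_right hc' (v x)
    rwa [one_mul] at this
  | some x₁ y₁ h₁ =>
    rcases hc with ⟨h1, h2⟩ | ⟨h1, h2⟩ | ⟨h1, h2⟩ | ⟨h1, h2⟩
    · -- `Q ∈ E0`
      obtain ⟨x₃, y₃, h₃, hsum, n₃, hv₃⟩ := e0_add_np hW v hv2 he hε0 hρ h₁ h h1 n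
      rw [hsum]
      refine Or.inr (Or.inr (Or.inl ⟨n₃, ?_⟩))
      rw [hv₃]
      have := Rel2.mul_right h2 (v x)
      rwa [one_mul] at this
    · -- `Q ∈ Hh`
      have hr : Rel2 (v ε) (γ * v x) (v x * v ε) :=
        (Rel2.mul_right h2 (v x)).trans hH (Rel2.of_eq (mul_comm _ _))
      by_cases hx₁ : x₁ = 0
      · subst hx₁
        have hy : y₁ = 0 := by
          have := hW.equation h₁
          simpa using this
        subst hy
        have key := comp_add_T0 hW v he hε0 hεe _ _ hcP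
        rw [add_comm] at key
        exact Comp.congr v hH hr key
      · obtain ⟨h', hsum⟩ := hW.add_T0 hεe h₁ hx₁
        have hx0 : 0 < v x₁ := zero_lt_iff.mpr (v.ne_zero_iff.mpr hx₁)
        have hx' : 1 ≤ v (ε * e / x₁) := by
          rw [map_div₀, map_mul, he, mul_one, one_le_div₀ hx0]
          exact h1
        obtain ⟨x₃, y₃, h₃, hsum₃, n₃, hv₃⟩ := e0_add_np hW v hv2 he hε0 hρ h' h hx' n
        refine via (Point.some _ _ h') (v x) ?_ hsum.symm hr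
        rw [hsum₃]
        exact Or.inr (Or.inr (Or.inl ⟨n₃, Rel2.of_eq hv₃.symm⟩))
    · -- `Q ∈ Np`
      obtain ⟨x₃, y₃, h₃, hsum, -, hc₃⟩ := np_add_np hW v hv2 he hε0 hρ h₁ h h1 n
      rw [hsum]
      exact Comp.congr v hH (Rel2.mul_right h2 (v x)) hc₃
    · -- `Q ∈ Nm`
      have hx0 : 0 < v x₁ := lt_of_le_of_lt zero_le h1.1
      have hx₁ : x₁ ≠ 0 := v.ne_zero_iff.mp hx0.ne'
      obtain ⟨h', hsum⟩ := hW.add_T0 hεe h₁ hx₁
      obtain ⟨n', hv'⟩ := isNp_T0_of_isNm v he hε0 h1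
      obtain ⟨x₃, y₃, h₃, hsum₃, -, hc₃⟩ := np_add_np hW v hv2 he hε0 hρ h' h n' n
      refine via (Point.some _ _ h') (v (ε * e / x₁) * v x) ?_ hsum.symm ?_
      · rw [hsum₃]
        exact hc₃
      · refine (Rel2.mul_right h2 (v x)).trans hH (Rel2.symm hH (Rel2.of_eq_mul_sq ?_))
        have h3 : v (ε * e / x₁) = v ε * (v x₁)⁻¹ := by
          rw [eq_mul_inv_iff_mul_eq₀ hx0.ne']
          exact hv'
        rw [h3, pow_two]
        ac_rfl

end Fermat.Agent.H26.RouteS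

namespace Fermat.Agent.H26

open WeierstrassCurve WeierstrassCurve.Affine Fermat.Agent.H4 RouteS

/-- **F3, the component statement (Route S).** On the model `y² = x (x - ε) (x - e)` with
`v 2 = v e = 1`, `v ε < 1`, a torsion point of order dividing `p` that reduces to the node
(`v ε < v x < 1`) satisfies `v x ^ p ∈ v ε ^ (2ℤ)`. -/
theorem torsion_val {L : Type*} [Field L] [DecidableEq L] {Γ₀ : Type*}
    [LinearOrderedCommGroupWithZero Γ₀] {W : WeierstrassCurve.Affine L} {ε e : L}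
    (hW : Fermat.Agent.H4.IsLeg W ε e) (v : Valuation L Γ₀) (hv2 : v 2 = 1) (he : v e = 1)
    (hε1 : v ε < 1) (hε0 : ε ≠ 0) (ρ : L) (hρ : ρ ^ 2 = -e) {p : ℕ} {x y : L}
    (h : W.Nonsingular x y) (hx1 : v ε < v x) (hx2 : v x < 1)
    (hP : p • WeierstrassCurve.Affine.Point.some x y h = 0) :
    ∃ j : ℤ, v x ^ p = v ε ^ (2 * j) := by
  have he0 : e ≠ 0 := by
    rintro rfl
    rw [map_zero] at he
    exact zero_ne_one he
  have hεe : ε * e ≠ 0 := mul_ne_zero hε0 he0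
  have main : ∀ (y' : L) (h' : W.Nonsingular x y'), IsNp v ε ρ x y' →
      p • Point.some x y' h' = 0 → ∃ j : ℤ, v x ^ p = v ε ^ (2 * j) := by
    intro y' h' n hP'
    have ind : ∀ m : ℕ, Comp v ε ρ (m • Point.some x y' h') (v x ^ m) := by
      intro m
      induction m with
      | zero =>
        rw [zero_nsmul, pow_zero]
        exact Rel2.refl _ _
      | succ m ih =>
        rw [succ_nsmul, pow_succ]
        exact comp_add_np hW v hv2 he hε0 hρ hεe h' n _ _ ih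
    have hp := ind p
    rw [hP'] at hp
    obtain ⟨k, hk⟩ := hp
    exact ⟨k, by rw [hk, one_mul]⟩
  rcases np_or_nm v he hρ (hW.equation h) hx1 hx2 with n | n
  · exact main y h n hP
  · refine main (-y) (hW.toIsShort.nonsingular_neg h) ⟨n.1, n.2.1, ?_⟩ ?_
    · have : -y - ρ * x = -(y + ρ * x) := by ring
      rw [this, Valuation.map_neg]
      exact n.2.2
    · rw [← hW.toIsShort.neg_some h, smul_neg, hP, neg_zero]

end Fermat.Agent.H26
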