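import Fermat.Agent.H26.RatFuncSpec

/-!
# Transfer of torsion between two fibres of a family of Weierstrass curves

Let `Wp` be a Weierstrass curve over `k[X]` and `t₀ t₁ : k` two parameters of good reduction.
If every `m`-torsion point of the fibre at `t₀` lifts to an `m`-torsion point of the generic
fibre (over `RatFunc k`), with `m` invertible in `k`, then specialisation induces an injective
additive map from the `m`-torsion of the fibre at `t₀` to the `m`-torsion of the fibre at `t₁`,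
characterised by `ψ (spec₀ S) = spec₁ S` for every `m`-torsion section `S`.
-/

set_option autoImplicit false

namespace Fermat.Agent.H26

open Polynomial WeierstrassCurve WeierstrassCurve.Affine

variable {k : Type*} [Field k] [DecidableEq k] [DecidableEq (RatFunc k)]
variable (Wp : WeierstrassCurve k[X]) (t₀ t₁ : k)
variable (h₀ : Wp.Δ.eval t₀ ≠ 0) (h₁ : Wp.Δ.eval t₁ ≠ 0)

open Classical in
/-- The transfer map: send `P` to the specialisation at `t₁` of an `m`-torsion section lifting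
`P`, if there is one, and to `0` otherwise. -/
noncomputable def torsionTransfer (m : ℕ) :
    (Wp.map (Polynomial.evalRingHom t₀)).toAffine.Point →
      (Wp.map (Polynomial.evalRingHom t₁)).toAffine.Point :=
  fun P =>
    if h : ∃ S : (Wp.map (algebraMap k[X] (RatFunc k))).toAffine.Point,
        m • S = 0 ∧ specHom Wp t₀ h₀ S = P
    then specHom Wp t₁ h₁ h.choose else 0

variable {m : ℕ} (hm : (m : k) ≠ 0)

include hm in
/-- Characterisation of the transfer map on specialisations of torsion sections. -/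
theorem torsionTransfer_spec
    (S : (Wp.map (algebraMap k[X] (RatFunc k))).toAffine.Point) (hS : m • S = 0) :
    torsionTransfer Wp t₀ t₁ h₀ h₁ m (specHom Wp t₀ h₀ S) = specHom Wp t₁ h₁ S := by
  have hex : ∃ S' : (Wp.map (algebraMap k[X] (RatFunc k))).toAffine.Point,
      m • S' = 0 ∧ specHom Wp t₀ h₀ S' = specHom Wp t₀ h₀ S := ⟨S, hS, rfl⟩
  rw [torsionTransfer, dif_pos hex]
  have h1 := hex.choose_spec
  rw [eq_of_specHom_eq Wp t₀ h₀ hm h1.1 hS h1.2]

include hm in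
theorem torsionTransfer_zero : torsionTransfer Wp t₀ t₁ h₀ h₁ m 0 = 0 := by
  have := torsionTransfer_spec Wp t₀ t₁ h₀ h₁ hm 0 (nsmul_zero m)
  rwa [map_zero, map_zero] at this

section lifts

variable (hlift : ∀ P : (Wp.map (Polynomial.evalRingHom t₀)).toAffine.Point, m • P = 0 →
    ∃ S : (Wp.map (algebraMap k[X] (RatFunc k))).toAffine.Point,
      m • S = 0 ∧ specHom Wp t₀ h₀ S = P)

include hm hlift

theorem torsionTransfer_torsion (P : (Wp.map (Polynomial.evalRingHom t₀)).toAffine.Point)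
    (hP : m • P = 0) : m • torsionTransfer Wp t₀ t₁ h₀ h₁ m P = 0 := by
  obtain ⟨S, hS, rfl⟩ := hlift P hP
  rw [torsionTransfer_spec Wp t₀ t₁ h₀ h₁ hm S hS, ← map_nsmul, hS, map_zero]

theorem torsionTransfer_add (P Q : (Wp.map (Polynomial.evalRingHom t₀)).toAffine.Point)
    (hP : m • P = 0) (hQ : m • Q = 0) :
    torsionTransfer Wp t₀ t₁ h₀ h₁ m (P + Q) =
      torsionTransfer Wp t₀ t₁ h₀ h₁ m P + torsionTransfer Wp t₀ t₁ h₀ h₁ m Q := by
  obtain ⟨S, hS, rfl⟩ := hlift P hP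
  obtain ⟨T, hT, rfl⟩ := hlift Q hQ
  have hST : m • (S + T) = 0 := by rw [nsmul_add, hS, hT, add_zero]
  rw [← map_add, torsionTransfer_spec Wp t₀ t₁ h₀ h₁ hm _ hST,
    torsionTransfer_spec Wp t₀ t₁ h₀ h₁ hm S hS, torsionTransfer_spec Wp t₀ t₁ h₀ h₁ hm T hT,
    map_add]

theorem torsionTransfer_neg (P : (Wp.map (Polynomial.evalRingHom t₀)).toAffine.Point)
    (hP : m • P = 0) :
    torsionTransfer Wp t₀ t₁ h₀ h₁ m (-P) = -torsionTransfer Wp t₀ t₁ h₀ h₁ m P := by
  obtain ⟨S, hS, rfl⟩ := hlift P hP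
  have hS' : m • (-S) = 0 := by rw [neg_nsmul, hS, neg_zero]
  rw [← map_neg, torsionTransfer_spec Wp t₀ t₁ h₀ h₁ hm _ hS',
    torsionTransfer_spec Wp t₀ t₁ h₀ h₁ hm S hS, map_neg]

theorem torsionTransfer_nsmul (n : ℕ)
    (P : (Wp.map (Polynomial.evalRingHom t₀)).toAffine.Point) (hP : m • P = 0) :
    torsionTransfer Wp t₀ t₁ h₀ h₁ m (n • P) = n • torsionTransfer Wp t₀ t₁ h₀ h₁ m P := by
  obtain ⟨S, hS, rfl⟩ := hlift P hP
  have hS' : m • (n • S) = 0 := by rw [← mul_nsmul, mul_comm, mul_nsmul, hS, nsmul_zero]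
  rw [← map_nsmul, torsionTransfer_spec Wp t₀ t₁ h₀ h₁ hm _ hS',
    torsionTransfer_spec Wp t₀ t₁ h₀ h₁ hm S hS, map_nsmul]

theorem eq_zero_of_torsionTransfer_eq_zero
    (P : (Wp.map (Polynomial.evalRingHom t₀)).toAffine.Point) (hP : m • P = 0)
    (h : torsionTransfer Wp t₀ t₁ h₀ h₁ m P = 0) : P = 0 := by
  obtain ⟨S, hS, rfl⟩ := hlift P hP
  rw [torsionTransfer_spec Wp t₀ t₁ h₀ h₁ hm S hS] at h
  rw [eq_zero_of_specHom_eq_zero Wp t₁ h₁ hm hS h, map_zero]

theorem torsionTransfer_injOn (P Q : (Wp.map (Polynomial.evalRingHom t₀)).toAffine.Point)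
    (hP : m • P = 0) (hQ : m • Q = 0)
    (h : torsionTransfer Wp t₀ t₁ h₀ h₁ m P = torsionTransfer Wp t₀ t₁ h₀ h₁ m Q) : P = Q := by
  obtain ⟨S, hS, rfl⟩ := hlift P hP
  obtain ⟨T, hT, rfl⟩ := hlift Q hQ
  rw [torsionTransfer_spec Wp t₀ t₁ h₀ h₁ hm S hS,
    torsionTransfer_spec Wp t₀ t₁ h₀ h₁ hm T hT] at h
  rw [eq_of_specHom_eq Wp t₁ h₁ hm hS hT h]

end lifts

end Fermat.Agent.H26
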