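import Fermat.Agent.H26.TorsionTransfer

/-!
# Equivariance of specialisation and of the torsion transfer under field automorphisms

Let `Wp` be a Weierstrass curve over `K[X]` whose coefficients are fixed by a field
endomorphism `σ : K →+* K` (acting coefficientwise), and let `t : K` with `σ t = t`.
Then `σ` acts on the points of the generic fibre (over `RatFunc K`, coefficientwise) and on the
points of the fibre at `t`, and specialisation at `t` commutes with these actions.  Consequently
the torsion transfer `torsionTransfer` between two `σ`-fixed fibres commutes with `σ`.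
-/

set_option autoImplicit false

namespace Fermat.Agent.H26

open Polynomial WeierstrassCurve WeierstrassCurve.Affine

section pointMap

variable {K L : Type*} [Field K] [Field L] [DecidableEq K] [DecidableEq L]

/-- The map on points induced by a ring homomorphism of fields. -/
noncomputable def mapPointHom (φ : K →+* L) (W : WeierstrassCurve K) :
    W.toAffine.Point →+ (W.map φ).toAffine.Point where
  toFun P := match P with
    | .zero => 0
    | .some x y h => .some (φ x) (φ y) ((W.toAffine.map_nonsingular φ.injective x y).mpr h)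
  map_zero' := rfl
  map_add' := by
    rintro (_ | ⟨x₁, y₁, h₁⟩) (_ | ⟨x₂, y₂, h₂⟩)
    any_goals rfl
    by_cases hxy : x₁ = x₂ ∧ y₁ = W.toAffine.negY x₂ y₂
    · rw [Point.add_of_Y_eq hxy.left hxy.right]
      exact (Point.add_of_Y_eq (congr_arg _ hxy.left) <| by
        rw [hxy.right, Affine.map_negY]).symm
    · rw [Point.add_some hxy]
      have hxy' : ¬(φ x₁ = φ x₂ ∧ φ y₁ = (W.map φ).toAffine.negY (φ x₂) (φ y₂)) := by
        rintro ⟨h1, h2⟩
        rw [Affine.map_negY] at h2
        exact hxy ⟨φ.injective h1, φ.injective h2⟩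
      refine (Point.add_some hxy').symm ▸ ?_
      simp only [← Affine.map_addX, ← Affine.map_addY, ← Affine.map_slope]

@[simp] lemma mapPointHom_zero (φ : K →+* L) (W : WeierstrassCurve K) :
    mapPointHom φ W 0 = 0 := rfl

lemma mapPointHom_some (φ : K →+* L) (W : WeierstrassCurve K) {x y : K}
    (h : W.toAffine.Nonsingular x y) :
    mapPointHom φ W (.some x y h) =
      .some (φ x) (φ y) ((W.toAffine.map_nonsingular φ.injective x y).mpr h) := rfl

end pointMap

section coeff

variable {K : Type*} [Field K]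

/-- The coefficientwise action of a field endomorphism on rational functions. -/
noncomputable def coeffMap (σ : K →+* K) : RatFunc K →+* RatFunc K :=
  RatFunc.liftRingHom ((algebraMap K[X] (RatFunc K)).comp (Polynomial.mapRingHom σ))
    (by
      intro p hp
      rw [Submonoid.mem_comap]
      have hp0 : p ≠ 0 := nonZeroDivisors.ne_zero hp
      apply mem_nonZeroDivisors_of_ne_zero
      simp only [RingHom.coe_comp, Function.comp_apply, Polynomial.coe_mapRingHom]
      apply RatFunc.algebraMap_ne_zero
      exact (Polynomial.map_ne_zero_iff σ.injective).mpr hp0)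

lemma coeffMap_algebraMap (σ : K →+* K) (p : K[X]) :
    coeffMap σ (algebraMap K[X] (RatFunc K) p) = algebraMap K[X] (RatFunc K) (p.map σ) := by
  simp [coeffMap]

lemma coeffMap_apply (σ : K →+* K) (r : RatFunc K) :
    coeffMap σ r = algebraMap K[X] (RatFunc K) (r.num.map σ) /
      algebraMap K[X] (RatFunc K) (r.denom.map σ) := by
  conv_lhs => rw [← RatFunc.num_div_denom r]
  rw [map_div₀, coeffMap_algebraMap, coeffMap_algebraMap]

lemma eval_map_of_fixed (σ : K →+* K) {t : K} (ht : σ t = t) (p : K[X]) :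
    (p.map σ).eval t = σ (p.eval t) := by
  conv_lhs => rw [← ht]
  rw [Polynomial.eval_map, Polynomial.eval₂_at_apply]

lemma coeffMap_mem_regularAt (σ : K →+* K) {t : K} (ht : σ t = t) {r : RatFunc K}
    (hr : r ∈ regularAt t) : coeffMap σ r ∈ regularAt t := by
  rw [coeffMap_apply]
  apply div_mem_regularAt
  rw [eval_map_of_fixed σ ht]
  exact fun h => hr ((map_eq_zero σ).mp h)

lemma evalAt_coeffMap (σ : K →+* K) {t : K} (ht : σ t = t) {r : RatFunc K}
    (hr : r ∈ regularAt t) :
    evalAt t ⟨coeffMap σ r, coeffMap_mem_regularAt σ ht hr⟩ = σ (evalAt t ⟨r, hr⟩) := by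
  have hd : (r.denom.map σ).eval t ≠ 0 := by
    rw [eval_map_of_fixed σ ht]
    exact fun h => hr ((map_eq_zero σ).mp h)
  have e : (⟨coeffMap σ r, coeffMap_mem_regularAt σ ht hr⟩ : regularAt t) =
      ⟨_, div_mem_regularAt (r.num.map σ) hd⟩ := Subtype.ext (coeffMap_apply σ r)
  rw [e, evalAt_div (r.num.map σ) hd, eval_map_of_fixed σ ht, eval_map_of_fixed σ ht,
    evalAt_apply, map_div₀]

lemma coeffMap_not_mem_regularAt (σ : K →+* K) {t : K} (ht : σ t = t) {r : RatFunc K}
    (hr : r ∉ regularAt t) : coeffMap σ r ∉ regularAt t := by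
  intro h
  have hden : r.denom.eval t = 0 := by
    by_contra h0
    exact hr h0
  have hnum : r.num.eval t ≠ 0 := by
    intro h0
    obtain ⟨u, v, huv⟩ := RatFunc.isCoprime_num_denom r
    have := congrArg (Polynomial.eval t) huv
    simp [h0, hden] at this
  have hn : (r.num.map σ).eval t ≠ 0 := by
    rw [eval_map_of_fixed σ ht]
    exact fun h0 => hnum ((map_eq_zero σ).mp h0)
  have hnum0 : algebraMap K[X] (RatFunc K) (r.num.map σ) ≠ 0 := by
    apply RatFunc.algebraMap_ne_zero
    rintro h0
    rw [h0] at hn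
    simp at hn
  have hden0 : algebraMap K[X] (RatFunc K) (r.denom.map σ) ≠ 0 := by
    apply RatFunc.algebraMap_ne_zero
    exact (Polynomial.map_ne_zero_iff σ.injective).mpr (RatFunc.denom_ne_zero r)
  set u : regularAt t := ⟨coeffMap σ r, h⟩ with hu
  set v : regularAt t := ⟨_, div_mem_regularAt (r.denom.map σ) hn⟩ with hv
  have huv : u * v = 1 := by
    apply Subtype.ext
    show coeffMap σ r * (algebraMap K[X] (RatFunc K) (r.denom.map σ) /
      algebraMap K[X] (RatFunc K) (r.num.map σ)) = 1
    rw [coeffMap_apply]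
    field_simp
  have hv0 : evalAt t v = 0 := by
    rw [hv, evalAt_div (r.denom.map σ) hn, eval_map_of_fixed σ ht, hden, map_zero, zero_div]
  have := congrArg (evalAt t) huv
  rw [map_mul, hv0, mul_zero, map_one] at this
  exact zero_ne_one this

end coeff

section equivariance

variable {K : Type*} [Field K] [DecidableEq K] [DecidableEq (RatFunc K)]
variable (Wp : WeierstrassCurve K[X]) (σ : K →+* K)

omit [DecidableEq K] [DecidableEq (RatFunc K)] in
lemma coeffMap_comp_algebraMap :
    (coeffMap σ).comp (algebraMap K[X] (RatFunc K)) =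
      (algebraMap K[X] (RatFunc K)).comp (Polynomial.mapRingHom σ) := by
  apply RingHom.ext
  intro p
  simp [coeffMap_algebraMap]

omit [DecidableEq K] [DecidableEq (RatFunc K)] in
lemma comp_evalRingHom_of_fixed {t : K} (ht : σ t = t) :
    σ.comp (Polynomial.evalRingHom t) =
      (Polynomial.evalRingHom t).comp (Polynomial.mapRingHom σ) := by
  apply RingHom.ext
  intro p
  simp [eval_map_of_fixed σ ht]

variable {Wp σ}

omit [DecidableEq K] [DecidableEq (RatFunc K)] in
/-- The generic fibre is fixed by the coefficientwise action. -/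
lemma generic_map_coeffMap (hW : Wp.map (Polynomial.mapRingHom σ) = Wp) :
    (Wp.map (algebraMap K[X] (RatFunc K))).map (coeffMap σ) =
      Wp.map (algebraMap K[X] (RatFunc K)) := by
  rw [WeierstrassCurve.map_map, coeffMap_comp_algebraMap, ← WeierstrassCurve.map_map, hW]

omit [DecidableEq K] [DecidableEq (RatFunc K)] in
/-- The fibre at a fixed point is fixed by `σ`. -/
lemma fibre_map_of_fixed (hW : Wp.map (Polynomial.mapRingHom σ) = Wp) {t : K} (ht : σ t = t) :
    (Wp.map (Polynomial.evalRingHom t)).map σ = Wp.map (Polynomial.evalRingHom t) := by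
  rw [WeierstrassCurve.map_map, comp_evalRingHom_of_fixed σ ht, ← WeierstrassCurve.map_map, hW]

/-- The coefficientwise action of `σ` on the points of the generic fibre. -/
noncomputable def genAct (hW : Wp.map (Polynomial.mapRingHom σ) = Wp) :
    (Wp.map (algebraMap K[X] (RatFunc K))).toAffine.Point →+
      (Wp.map (algebraMap K[X] (RatFunc K))).toAffine.Point :=
  (pointCongr (generic_map_coeffMap hW)).toAddMonoidHom.comp
    (mapPointHom (coeffMap σ) (Wp.map (algebraMap K[X] (RatFunc K))))

/-- The action of `σ` on the points of the fibre at a `σ`-fixed parameter. -/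
noncomputable def fibAct (hW : Wp.map (Polynomial.mapRingHom σ) = Wp) {t : K} (ht : σ t = t) :
    (Wp.map (Polynomial.evalRingHom t)).toAffine.Point →+
      (Wp.map (Polynomial.evalRingHom t)).toAffine.Point :=
  (pointCongr (fibre_map_of_fixed hW ht)).toAddMonoidHom.comp
    (mapPointHom σ (Wp.map (Polynomial.evalRingHom t)))

omit [DecidableEq K] in
lemma genAct_some (hW : Wp.map (Polynomial.mapRingHom σ) = Wp) {X Y : RatFunc K}
    (h : (Wp.map (algebraMap K[X] (RatFunc K))).toAffine.Nonsingular X Y) :
    ∃ h' : (Wp.map (algebraMap K[X] (RatFunc K))).toAffine.Nonsingular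
        (coeffMap σ X) (coeffMap σ Y),
      genAct hW (Point.some X Y h) = Point.some _ _ h' := by
  refine ⟨(generic_map_coeffMap hW) ▸
    ((Wp.map (algebraMap K[X] (RatFunc K))).toAffine.map_nonsingular
      (coeffMap σ).injective X Y).mpr h, ?_⟩
  simp only [genAct, AddMonoidHom.coe_comp, AddEquiv.coe_toAddMonoidHom, Function.comp_apply]
  rw [mapPointHom_some, pointCongr_some]

omit [DecidableEq (RatFunc K)] in
lemma fibAct_some (hW : Wp.map (Polynomial.mapRingHom σ) = Wp) {t : K} (ht : σ t = t)
    {x y : K} (h : (Wp.map (Polynomial.evalRingHom t)).toAffine.Nonsingular x y) :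
    ∃ h' : (Wp.map (Polynomial.evalRingHom t)).toAffine.Nonsingular (σ x) (σ y),
      fibAct hW ht (Point.some x y h) = Point.some _ _ h' := by
  refine ⟨(fibre_map_of_fixed hW ht) ▸
    ((Wp.map (Polynomial.evalRingHom t)).toAffine.map_nonsingular σ.injective x y).mpr h, ?_⟩
  simp only [fibAct, AddMonoidHom.coe_comp, AddEquiv.coe_toAddMonoidHom, Function.comp_apply]
  rw [mapPointHom_some, pointCongr_some]

/-- **Specialisation at a `σ`-fixed parameter commutes with `σ`.** -/
theorem specHom_genAct (hW : Wp.map (Polynomial.mapRingHom σ) = Wp) {t : K} (ht : σ t = t)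
    (hΔ : Wp.Δ.eval t ≠ 0) (S : (Wp.map (algebraMap K[X] (RatFunc K))).toAffine.Point) :
    specHom Wp t hΔ (genAct hW S) = fibAct hW ht (specHom Wp t hΔ S) := by
  rcases S with _ | ⟨X, Y, h⟩
  · show specHom Wp t hΔ (genAct hW 0) = fibAct hW ht (specHom Wp t hΔ 0)
    simp only [map_zero]
  · obtain ⟨h', e'⟩ := genAct_some hW h
    rw [e']
    by_cases hX : X ∈ regularAt t
    · obtain ⟨hY, h1, e1⟩ := specHom_some_of_mem Wp t hΔ h hX
      obtain ⟨hY', h2, e2⟩ := specHom_some_of_mem Wp t hΔ h' (coeffMap_mem_regularAt σ ht hX)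
      obtain ⟨h3, e3⟩ := fibAct_some hW ht h1
      rw [e1, e2, e3]
      exact some_eq_of_eq (evalAt_coeffMap σ ht hX) (evalAt_coeffMap σ ht hY)
    · rw [specHom_some_of_not_mem Wp t hΔ h hX,
        specHom_some_of_not_mem Wp t hΔ h' (coeffMap_not_mem_regularAt σ ht hX), map_zero]

variable (t₀ t₁ : K) (h₀ : Wp.Δ.eval t₀ ≠ 0) (h₁ : Wp.Δ.eval t₁ ≠ 0) {m : ℕ}

/-- **The torsion transfer between two `σ`-fixed fibres commutes with `σ`.** -/
theorem torsionTransfer_fibAct (hW : Wp.map (Polynomial.mapRingHom σ) = Wp)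
    (ht₀ : σ t₀ = t₀) (ht₁ : σ t₁ = t₁) (hm : (m : K) ≠ 0)
    (hlift : ∀ P : (Wp.map (Polynomial.evalRingHom t₀)).toAffine.Point, m • P = 0 →
      ∃ S : (Wp.map (algebraMap K[X] (RatFunc K))).toAffine.Point,
        m • S = 0 ∧ specHom Wp t₀ h₀ S = P)
    (P : (Wp.map (Polynomial.evalRingHom t₀)).toAffine.Point) (hP : m • P = 0) :
    torsionTransfer Wp t₀ t₁ h₀ h₁ m (fibAct hW ht₀ P) =
      fibAct hW ht₁ (torsionTransfer Wp t₀ t₁ h₀ h₁ m P) := by
  obtain ⟨S, hS, rfl⟩ := hlift P hP
  have hS' : m • genAct hW S = 0 := by rw [← map_nsmul, hS, map_zero]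
  rw [← specHom_genAct hW ht₀ h₀ S, torsionTransfer_spec Wp t₀ t₁ h₀ h₁ hm _ hS',
    torsionTransfer_spec Wp t₀ t₁ h₀ h₁ hm S hS, specHom_genAct hW ht₁ h₁ S]

end equivariance

end Fermat.Agent.H26
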