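import Fermat.Agent.H26.TransferEquiv
import Fermat.Prelude.Def_FLTPrelim_GaloisRep

/-!
# Galois-equivariant transfer of torsion between two rational fibres of a family over `ℚ[X]`

Let `Wq` be a Weierstrass curve over `ℚ[X]`, `t₀ t₁ : ℚ`, `E₀ = Wq(t₀)`, `E₁ = Wq(t₁)`, and let
`L` be a field extension of `ℚ`.  If both fibres have nonzero discriminant and every `m`-torsion
point of `E₀(L)` lifts to an `m`-torsion point of the generic fibre over `RatFunc L`, then there
is an injective additive map `E₀(L)[m] → E₁(L)[m]` commuting with every `σ : L ≃ₐ[ℚ] L`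
(for the Galois action of the prelude).
-/

set_option autoImplicit false

namespace Fermat.Agent.H26

open Polynomial WeierstrassCurve WeierstrassCurve.Affine

section

variable {L : Type*} [Field L] [Algebra ℚ L]

lemma evalRingHom_comp_mapRingHom (t : ℚ) :
    (Polynomial.evalRingHom (algebraMap ℚ L t)).comp (Polynomial.mapRingHom (algebraMap ℚ L)) =
      (algebraMap ℚ L).comp (Polynomial.evalRingHom t) := by
  apply RingHom.ext
  intro p
  simp only [RingHom.coe_comp, Function.comp_apply, Polynomial.coe_mapRingHom,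
    Polynomial.coe_evalRingHom]
  rw [Polynomial.eval_map, Polynomial.eval₂_at_apply]

/-- The fibre at `t` of the base-changed family is the base change of the fibre at `t`. -/
lemma fibre_baseChange (Wq : WeierstrassCurve ℚ[X]) (t : ℚ) :
    (Wq.map (Polynomial.mapRingHom (algebraMap ℚ L))).map
        (Polynomial.evalRingHom (algebraMap ℚ L t)) =
      (Wq.map (Polynomial.evalRingHom t)).baseChange L := by
  rw [WeierstrassCurve.map_map, evalRingHom_comp_mapRingHom]
  rfl

/-- The base-changed family is fixed by every `ℚ`-automorphism of `L`. -/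
lemma family_map_algEquiv (Wq : WeierstrassCurve ℚ[X]) (σ : L ≃ₐ[ℚ] L) :
    (Wq.map (Polynomial.mapRingHom (algebraMap ℚ L))).map
        (Polynomial.mapRingHom (σ : L →+* L)) =
      Wq.map (Polynomial.mapRingHom (algebraMap ℚ L)) := by
  rw [WeierstrassCurve.map_map]
  congr 1
  apply RingHom.ext
  intro p
  simp only [RingHom.coe_comp, Function.comp_apply, Polynomial.coe_mapRingHom,
    Polynomial.map_map]
  congr 1
  apply RingHom.ext
  intro c
  simp

lemma algEquiv_algebraMap_fixed (σ : L ≃ₐ[ℚ] L) (t : ℚ) :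
    (σ : L →+* L) (algebraMap ℚ L t) = algebraMap ℚ L t := by
  simp

end

section transfer

variable {L : Type*} [Field L] [Algebra ℚ L] [DecidableEq L] [DecidableEq (RatFunc L)]
variable (Wq : WeierstrassCurve ℚ[X]) (t₀ t₁ : ℚ) (m : ℕ)
variable (h₀ : (Wq.map (Polynomial.mapRingHom (algebraMap ℚ L))).Δ.eval (algebraMap ℚ L t₀) ≠ 0)
variable (h₁ : (Wq.map (Polynomial.mapRingHom (algebraMap ℚ L))).Δ.eval (algebraMap ℚ L t₁) ≠ 0)

/-- The transfer map on all points (meaningful on `m`-torsion). -/
noncomputable def galTransferFun :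
    ((Wq.map (Polynomial.evalRingHom t₀))⁄L).Point → ((Wq.map (Polynomial.evalRingHom t₁))⁄L).Point :=
  fun P => pointCongr (fibre_baseChange (L := L) Wq t₁)
    (torsionTransfer (Wq.map (Polynomial.mapRingHom (algebraMap ℚ L)))
      (algebraMap ℚ L t₀) (algebraMap ℚ L t₁) h₀ h₁ m
      (pointCongr (fibre_baseChange (L := L) Wq t₀).symm P))

variable {Wq t₀ t₁ m}

omit [DecidableEq (RatFunc L)] in
/-- The prelude Galois action corresponds to `fibAct` under the identification of fibres. -/
lemma pointCongr_smul (t : ℚ) (σ : L ≃ₐ[ℚ] L)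
    (P : ((Wq.map (Polynomial.evalRingHom t))⁄L).Point) :
    pointCongr (fibre_baseChange (L := L) Wq t).symm (σ • P) =
      fibAct (family_map_algEquiv Wq σ) (algEquiv_algebraMap_fixed σ t)
        (pointCongr (fibre_baseChange (L := L) Wq t).symm P) := by
  rcases P with _ | ⟨x, y, h⟩
  · have e0 : σ • (Point.zero : ((Wq.map (Polynomial.evalRingHom t))⁄L).Point) = 0 := rfl
    rw [e0]
    show pointCongr _ 0 = fibAct _ _ (pointCongr _ 0)
    simp only [map_zero]
  · have hx : ((Wq.map (Polynomial.mapRingHom (algebraMap ℚ L))).map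
        (Polynomial.evalRingHom (algebraMap ℚ L t))).toAffine.Nonsingular x y := by
      rw [fibre_baseChange]
      exact h
    have e1 : pointCongr (fibre_baseChange (L := L) Wq t).symm (Point.some x y h) =
        Point.some x y hx := pointCongr_some _ _
    obtain ⟨h', e⟩ := fibAct_some (family_map_algEquiv Wq σ) (algEquiv_algebraMap_fixed σ t) hx
    rw [e1, e, Point.algEquiv_smul_def, Point.map_some, pointCongr_some]
    rfl

section congr

variable {F : Type*} [Field F] [DecidableEq F]

lemma pointCongr_symm_pointCongr {W W' : WeierstrassCurve.Affine F} (h : W = W')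
    (P : W.Point) : pointCongr h.symm (pointCongr h P) = P := by
  subst h
  rfl

lemma pointCongr_pointCongr_symm {W W' : WeierstrassCurve.Affine F} (h : W = W')
    (P : W'.Point) : pointCongr h (pointCongr h.symm P) = P := by
  subst h
  rfl

end congr

omit [DecidableEq (RatFunc L)] in
/-- `fibAct` corresponds to the prelude Galois action under the identification of fibres. -/
lemma pointCongr_fibAct (t : ℚ) (σ : L ≃ₐ[ℚ] L)
    (Q : ((Wq.map (Polynomial.mapRingHom (algebraMap ℚ L))).map
      (Polynomial.evalRingHom (algebraMap ℚ L t))).toAffine.Point) :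
    pointCongr (fibre_baseChange (L := L) Wq t)
        (fibAct (family_map_algEquiv Wq σ) (algEquiv_algebraMap_fixed σ t) Q) =
      σ • pointCongr (fibre_baseChange (L := L) Wq t) Q := by
  have h := pointCongr_smul (Wq := Wq) t σ (pointCongr (fibre_baseChange (L := L) Wq t) Q)
  rw [pointCongr_symm_pointCongr] at h
  rw [← h, pointCongr_pointCongr_symm]

section props

variable (hm : (m : L) ≠ 0)
variable (hlift : ∀ P : ((Wq.map (Polynomial.mapRingHom (algebraMap ℚ L))).map
        (Polynomial.evalRingHom (algebraMap ℚ L t₀))).toAffine.Point, m • P = 0 →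
      ∃ S : ((Wq.map (Polynomial.mapRingHom (algebraMap ℚ L))).map
          (algebraMap L[X] (RatFunc L))).toAffine.Point,
        m • S = 0 ∧
          specHom (Wq.map (Polynomial.mapRingHom (algebraMap ℚ L))) (algebraMap ℚ L t₀) h₀ S = P)

omit [DecidableEq (RatFunc L)] in
lemma nsmul_pointCongr_symm {P : ((Wq.map (Polynomial.evalRingHom t₀))⁄L).Point}
    (hP : m • P = 0) : m • pointCongr (fibre_baseChange (L := L) Wq t₀).symm P = 0 := by
  rw [← map_nsmul, hP, map_zero]

include hm in
lemma galTransferFun_zero : galTransferFun Wq t₀ t₁ m h₀ h₁ 0 = 0 := by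
  unfold galTransferFun
  rw [map_zero, torsionTransfer_zero _ _ _ h₀ h₁ hm, map_zero]

include hm hlift

lemma galTransferFun_torsion {P : ((Wq.map (Polynomial.evalRingHom t₀))⁄L).Point}
    (hP : m • P = 0) : m • galTransferFun Wq t₀ t₁ m h₀ h₁ P = 0 := by
  unfold galTransferFun
  rw [← map_nsmul, torsionTransfer_torsion _ _ _ h₀ h₁ hm hlift _ (nsmul_pointCongr_symm hP),
    map_zero]

lemma galTransferFun_add {P Q : ((Wq.map (Polynomial.evalRingHom t₀))⁄L).Point}
    (hP : m • P = 0) (hQ : m • Q = 0) :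
    galTransferFun Wq t₀ t₁ m h₀ h₁ (P + Q) =
      galTransferFun Wq t₀ t₁ m h₀ h₁ P + galTransferFun Wq t₀ t₁ m h₀ h₁ Q := by
  unfold galTransferFun
  rw [map_add, torsionTransfer_add _ _ _ h₀ h₁ hm hlift _ _ (nsmul_pointCongr_symm hP)
    (nsmul_pointCongr_symm hQ), map_add]

lemma galTransferFun_inj {P Q : ((Wq.map (Polynomial.evalRingHom t₀))⁄L).Point}
    (hP : m • P = 0) (hQ : m • Q = 0)
    (h : galTransferFun Wq t₀ t₁ m h₀ h₁ P = galTransferFun Wq t₀ t₁ m h₀ h₁ Q) : P = Q := by
  unfold galTransferFun at h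
  have h2 := (pointCongr (fibre_baseChange (L := L) Wq t₁)).injective h
  have h3 := torsionTransfer_injOn _ _ _ h₀ h₁ hm hlift _ _ (nsmul_pointCongr_symm hP)
    (nsmul_pointCongr_symm hQ) h2
  exact (pointCongr (fibre_baseChange (L := L) Wq t₀).symm).injective h3

lemma galTransferFun_smul (σ : L ≃ₐ[ℚ] L) {P : ((Wq.map (Polynomial.evalRingHom t₀))⁄L).Point}
    (hP : m • P = 0) :
    galTransferFun Wq t₀ t₁ m h₀ h₁ (σ • P) = σ • galTransferFun Wq t₀ t₁ m h₀ h₁ P := by
  unfold galTransferFun
  rw [pointCongr_smul,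
    torsionTransfer_fibAct _ _ h₀ h₁ (family_map_algEquiv Wq σ)
      (algEquiv_algebraMap_fixed σ t₀) (algEquiv_algebraMap_fixed σ t₁) hm hlift _
      (nsmul_pointCongr_symm hP),
    pointCongr_fibAct]

omit hm hlift in
omit [DecidableEq (RatFunc L)] in
lemma nsmul_of_mem_torsionBy {t : ℚ}
    (x : Submodule.torsionBy ℤ ((Wq.map (Polynomial.evalRingHom t))⁄L).Point m) :
    m • (x : ((Wq.map (Polynomial.evalRingHom t))⁄L).Point) = 0 := by
  have := x.2
  rwa [Submodule.mem_torsionBy_iff, natCast_zsmul] at this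

include h₁ in
/-- **Galois-equivariant transfer of `m`-torsion between two rational fibres of a family.** -/
theorem exists_galois_transfer :
    ∃ ψ : Submodule.torsionBy ℤ ((Wq.map (Polynomial.evalRingHom t₀))⁄L).Point m →+
        Submodule.torsionBy ℤ ((Wq.map (Polynomial.evalRingHom t₁))⁄L).Point m,
      Function.Injective ψ ∧ ∀ (σ : L ≃ₐ[ℚ] L) x, ψ (σ • x) = σ • ψ x := by
  have mem : ∀ x : Submodule.torsionBy ℤ ((Wq.map (Polynomial.evalRingHom t₀))⁄L).Point m,
      galTransferFun Wq t₀ t₁ m h₀ h₁ x ∈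
        Submodule.torsionBy ℤ ((Wq.map (Polynomial.evalRingHom t₁))⁄L).Point m := by
    intro x
    rw [Submodule.mem_torsionBy_iff, natCast_zsmul]
    exact galTransferFun_torsion h₀ h₁ hm hlift (nsmul_of_mem_torsionBy x)
  refine ⟨{ toFun := fun x => ⟨galTransferFun Wq t₀ t₁ m h₀ h₁ x, mem x⟩,
            map_zero' := ?_, map_add' := ?_ }, ?_, ?_⟩
  · apply Subtype.ext
    exact galTransferFun_zero h₀ h₁ hm
  · intro x y
    apply Subtype.ext
    exact galTransferFun_add h₀ h₁ hm hlift (nsmul_of_mem_torsionBy x) (nsmul_of_mem_torsionBy y)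
  · intro x y hxy
    apply Subtype.ext
    exact galTransferFun_inj h₀ h₁ hm hlift (nsmul_of_mem_torsionBy x)
      (nsmul_of_mem_torsionBy y) (congrArg Subtype.val hxy)
  · intro σ x
    apply Subtype.ext
    exact galTransferFun_smul h₀ h₁ hm hlift σ (nsmul_of_mem_torsionBy x)

end props

end transfer

end Fermat.Agent.H26
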